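import Mathlib
import Fermat.Prelude.Def_FLTPrelim_FreyPackage

set_option autoImplicit false

namespace FLTAgent.Local

open WeierstrassCurve

variable (P : FreyPackage)

lemma frey_four_dvd_b_pow : (4 : ℤ) ∣ P.b ^ P.p := by
  obtain ⟨k, hk⟩ := (ZMod.intCast_zmod_eq_zero_iff_dvd P.b 2).1 P.hb2
  rw [hk, show P.p = (P.p - 2) + 2 by have := P.hp5; omega, pow_add]
  exact Dvd.dvd.mul_left ⟨k ^ 2, by push_cast; ring⟩ _

lemma frey_sixteen_dvd_b_pow : (16 : ℤ) ∣ P.b ^ P.p := by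
  obtain ⟨k, hk⟩ := (ZMod.intCast_zmod_eq_zero_iff_dvd P.b 2).1 P.hb2
  rw [hk, show P.p = (P.p - 4) + 4 by have := P.hp5; omega, pow_add]
  exact Dvd.dvd.mul_left ⟨k ^ 4, by push_cast; ring⟩ _

lemma frey_four_dvd_num : (4 : ℤ) ∣ P.b ^ P.p - 1 - P.a ^ P.p := by
  refine (ZMod.intCast_zmod_eq_zero_iff_dvd _ 4).1 ?_
  push_cast
  rw [P.ha4]
  have hb : ((P.b : ZMod 4)) ^ P.p = 0 := by
    have := (ZMod.intCast_zmod_eq_zero_iff_dvd _ 4).2 (frey_four_dvd_b_pow P)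
    simpa using this
  obtain ⟨k, hk⟩ := P.hp_odd
  rw [hb, hk, pow_succ, pow_mul, show ((3 : ZMod 4) ^ 2) = 1 by rfl, one_pow]
  rfl

lemma frey_sixteen_dvd_num : (16 : ℤ) ∣ -(P.a ^ P.p) * (P.b ^ P.p) :=
  Dvd.dvd.mul_left (frey_sixteen_dvd_b_pow P) _

theorem freyCurve_eq : P.freyCurve = P.freyCurveInt.map (Int.castRingHom ℚ) := by
  ext <;> simp only [FreyPackage.freyCurve, FreyPackage.freyCurveInt, WeierstrassCurve.map_a₁,
    WeierstrassCurve.map_a₂, WeierstrassCurve.map_a₃, WeierstrassCurve.map_a₄,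
    WeierstrassCurve.map_a₆, eq_intCast, Int.cast_one, Int.cast_zero]
  · rw [Int.cast_div (frey_four_dvd_num P) (by norm_num)]
    push_cast; ring
  · rw [Int.cast_div (frey_sixteen_dvd_num P) (by norm_num)]
    push_cast; ring

lemma frey_a₂_mul : 4 * P.freyCurveInt.a₂ = P.b ^ P.p - 1 - P.a ^ P.p :=
  Int.mul_ediv_cancel' (frey_four_dvd_num P)

lemma frey_a₄_mul : 16 * P.freyCurveInt.a₄ = -(P.a ^ P.p) * (P.b ^ P.p) :=
  Int.mul_ediv_cancel' (frey_sixteen_dvd_num P)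

theorem freyCurveInt_Δ : P.freyCurveInt.Δ * 2 ^ 8 = (P.a * P.b * P.c) ^ (2 * P.p) := by
  have e2 := frey_a₂_mul P
  have e4 := frey_a₄_mul P
  have h1 : P.freyCurveInt.a₁ = 1 := rfl
  have h3 : P.freyCurveInt.a₃ = 0 := rfl
  have h6 : P.freyCurveInt.a₆ = 0 := rfl
  have hrhs : (P.a * P.b * P.c) ^ (2 * P.p) = (P.a ^ P.p * P.b ^ P.p * P.c ^ P.p) ^ 2 := by ring
  rw [hrhs, ← P.hFLT]
  have hΔ : P.freyCurveInt.Δ = P.freyCurveInt.a₄ ^ 2 *
      ((1 + 4 * P.freyCurveInt.a₂) ^ 2 - 64 * P.freyCurveInt.a₄) := by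
    simp only [WeierstrassCurve.Δ, WeierstrassCurve.b₂, WeierstrassCurve.b₄, WeierstrassCurve.b₆,
      WeierstrassCurve.b₈, h1, h3, h6]
    ring
  have hb : (1 + 4 * P.freyCurveInt.a₂) = P.b ^ P.p - P.a ^ P.p := by linarith
  calc P.freyCurveInt.Δ * 2 ^ 8
      = (16 * P.freyCurveInt.a₄) ^ 2 *
          ((1 + 4 * P.freyCurveInt.a₂) ^ 2 - 4 * (16 * P.freyCurveInt.a₄)) := by rw [hΔ]; ring
    _ = _ := by rw [e4, hb]; ring

lemma frey_c₄ : P.freyCurveInt.c₄ =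
    (P.a ^ P.p) ^ 2 + P.a ^ P.p * P.b ^ P.p + (P.b ^ P.p) ^ 2 := by
  have e2 := frey_a₂_mul P
  have e4 := frey_a₄_mul P
  have h1 : P.freyCurveInt.a₁ = 1 := rfl
  have h3 : P.freyCurveInt.a₃ = 0 := rfl
  have hb : (1 + 4 * P.freyCurveInt.a₂) = P.b ^ P.p - P.a ^ P.p := by linarith
  calc P.freyCurveInt.c₄
      = (1 + 4 * P.freyCurveInt.a₂) ^ 2 - 3 * (16 * P.freyCurveInt.a₄) := by
        simp only [WeierstrassCurve.c₄, WeierstrassCurve.b₂, WeierstrassCurve.b₄, h1, h3]; ring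
    _ = _ := by rw [e4, hb]; ring

theorem freyCurveInt_Δ_ne_zero : P.freyCurveInt.Δ ≠ 0 := by
  intro h
  have := freyCurveInt_Δ P
  rw [h, zero_mul] at this
  exact pow_ne_zero _ P.habc0 this.symm

/-- the Frey model is semistable at every prime (including 2 and p) -/
theorem freyCurveInt_semistable {q : ℕ} (hq : q.Prime) (h : (q : ℤ) ∣ P.freyCurveInt.Δ) :
    ¬ (q : ℤ) ∣ P.freyCurveInt.c₄ := by
  intro hc
  have hqp : Prime (q : ℤ) := Nat.prime_iff_prime_int.mp hq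
  have habc : (q : ℤ) ∣ P.a * P.b * P.c := by
    refine hqp.dvd_of_dvd_pow (n := 2 * P.p) ?_
    rw [← freyCurveInt_Δ]
    exact h.mul_right _
  rw [frey_c₄] at hc
  have hab : ¬ ((q : ℤ) ∣ P.a ∧ (q : ℤ) ∣ P.b) := fun ⟨ha, hb⟩ => by
    have := dvd_gcd ha hb
    rw [P.hgcdab] at this
    exact hqp.not_dvd_one this
  have hac : ¬ ((q : ℤ) ∣ P.a ∧ (q : ℤ) ∣ P.c) := fun ⟨ha, hb⟩ => by
    have := dvd_gcd ha hb
    rw [P.hgcdac] at this
    exact hqp.not_dvd_one this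
  have hp0 := P.hp0
  rcases hqp.dvd_or_dvd habc with h' | h'
  rcases hqp.dvd_or_dvd h' with ha | hb
  · apply hab ⟨ha, ?_⟩
    have hA : (q : ℤ) ∣ P.a ^ P.p := dvd_pow ha hp0
    have : (q : ℤ) ∣ (P.b ^ P.p) ^ 2 := by
      have h2 : (q : ℤ) ∣ (P.a ^ P.p) ^ 2 + P.a ^ P.p * P.b ^ P.p :=
        dvd_add (dvd_pow hA two_ne_zero) (hA.mul_right _)
      exact (dvd_add_right h2).mp hc
    exact hqp.dvd_of_dvd_pow (hqp.dvd_of_dvd_pow this)
  · apply hab ⟨?_, hb⟩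
    have hB : (q : ℤ) ∣ P.b ^ P.p := dvd_pow hb hp0
    have h2 : (q : ℤ) ∣ P.a ^ P.p * P.b ^ P.p + (P.b ^ P.p) ^ 2 :=
      dvd_add (hB.mul_left _) (dvd_pow hB two_ne_zero)
    rw [add_assoc] at hc
    exact hqp.dvd_of_dvd_pow (hqp.dvd_of_dvd_pow ((dvd_add_left h2).mp hc))
  · apply hac ⟨?_, h'⟩
    have hC : (q : ℤ) ∣ P.a ^ P.p + P.b ^ P.p := P.hFLT ▸ dvd_pow h' hp0
    have h2 : (q : ℤ) ∣ P.b ^ P.p * (P.a ^ P.p + P.b ^ P.p) := hC.mul_left _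
    have : (q : ℤ) ∣ (P.a ^ P.p) ^ 2 := by
      rw [show (P.a ^ P.p) ^ 2 = ((P.a ^ P.p) ^ 2 + P.a ^ P.p * P.b ^ P.p + (P.b ^ P.p) ^ 2)
        - P.b ^ P.p * (P.a ^ P.p + P.b ^ P.p) by ring]
      exact dvd_sub hc h2
    exact hqp.dvd_of_dvd_pow (hqp.dvd_of_dvd_pow this)

lemma frey_padicVal {q : ℕ} [Fact q.Prime] :
    padicValInt q P.freyCurveInt.Δ + padicValInt q (2 ^ 8)
      = 2 * P.p * padicValInt q (P.a * P.b * P.c) := by
  have h2 : ((2 : ℤ) ^ 8) ≠ 0 := by norm_num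
  rw [← padicValInt.mul (freyCurveInt_Δ_ne_zero P) h2, freyCurveInt_Δ, padicValInt,
    Int.natAbs_pow, padicValNat.pow]
  rfl

theorem freyCurveInt_padicValInt_two :
    ¬ (P.p : ℕ) ∣ padicValInt 2 P.freyCurveInt.Δ := by
  intro hd
  have : Fact (Nat.Prime 2) := ⟨Nat.prime_two⟩
  have h := frey_padicVal P (q := 2)
  have h8 : padicValInt 2 ((2 : ℤ) ^ 8) = 8 := by
    rw [padicValInt, show ((2 : ℤ) ^ 8).natAbs = 2 ^ 8 by rfl, padicValNat.prime_pow]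
  rw [h8] at h
  have : P.p ∣ 8 := (Nat.dvd_add_right hd).mp (by rw [h]; exact (dvd_mul_left _ _).mul_right _)
  have := Nat.le_of_dvd (by norm_num) this
  have hpp := P.pp
  have := P.hp5
  interval_cases P.p <;> norm_num at *

theorem freyCurveInt_two_dvd_Δ : (2 : ℤ) ∣ P.freyCurveInt.Δ := by
  by_contra h
  apply freyCurveInt_padicValInt_two P
  rw [padicValInt.eq_zero_of_not_dvd (by exact_mod_cast h)]
  exact dvd_zero _

theorem freyCurveInt_padicValInt_odd {q : ℕ} (hq : q.Prime) (hq2 : q ≠ 2) :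
    P.p ∣ padicValInt q P.freyCurveInt.Δ := by
  have : Fact q.Prime := ⟨hq⟩
  have h := frey_padicVal P (q := q)
  have h8 : padicValInt q ((2 : ℤ) ^ 8) = 0 := by
    refine padicValInt.eq_zero_of_not_dvd fun hd => hq2 ?_
    have := (Nat.prime_iff_prime_int.mp hq).dvd_of_dvd_pow hd
    have h2 : q ∣ 2 := by exact_mod_cast this
    exact (Nat.prime_dvd_prime_iff_eq hq Nat.prime_two).mp h2
  rw [h8, add_zero] at h
  exact h ▸ Dvd.intro _ (show P.p * (2 * padicValInt q (P.a * P.b * P.c)) = _ by ring)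

end FLTAgent.Local
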