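import Mathlib
import Fermat.Prelude.Def_FLTPrelim_Ramification

/-!
Valuations of algebraic numbers of bounded degree.
-/

set_option autoImplicit false

noncomputable section

namespace FLTAgent.Local

variable {A : ValuationSubring (AlgebraicClosure ℚ)} {q : ℕ}

lemma valuation_natCast_of_not_dvd (hA : A.LiesOverPrime q) (hq : q.Prime) {m : ℕ}
    (hm : ¬ q ∣ m) : A.valuation (m : AlgebraicClosure ℚ) = 1 := by
  refine le_antisymm ((A.valuation_le_one_iff _).mpr (natCast_mem _ _)) ?_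
  by_contra h
  push Not at h
  obtain ⟨a, b, hab⟩ := (Int.isCoprime_iff_nat_coprime.mpr (hq.coprime_iff_not_dvd.mpr hm) :
    IsCoprime (q : ℤ) (m : ℤ))
  have hab' : (a : AlgebraicClosure ℚ) * (q : AlgebraicClosure ℚ) + (b : AlgebraicClosure ℚ) * m
      = 1 := by
    exact_mod_cast congrArg (fun z : ℤ => (z : AlgebraicClosure ℚ)) hab
  have h1 : A.valuation (1 : AlgebraicClosure ℚ) < 1 := by
    rw [← hab']
    refine lt_of_le_of_lt (Valuation.map_add _ _ _) (max_lt ?_ ?_) <;> rw [map_mul]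
    · exact mul_lt_one_of_nonneg_of_lt_one_right
        ((A.valuation_le_one_iff _).mpr (intCast_mem _ _)) zero_le hA
    · exact mul_lt_one_of_nonneg_of_lt_one_right
        ((A.valuation_le_one_iff _).mpr (intCast_mem _ _)) zero_le h
  simp at h1

lemma valuation_natCast_exists (hA : A.LiesOverPrime q) (hq : q.Prime) {n : ℕ} (hn : n ≠ 0) :
    ∃ k : ℕ, A.valuation (n : AlgebraicClosure ℚ)
      = A.valuation (q : AlgebraicClosure ℚ) ^ k := by
  obtain ⟨k, m, hm, rfl⟩ := Nat.exists_eq_pow_mul_and_not_dvd hn q hq.ne_one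
  exact ⟨k, by push_cast; rw [map_mul, map_pow, valuation_natCast_of_not_dvd hA hq hm, mul_one]⟩

lemma valuation_ratCast_exists (hA : A.LiesOverPrime q) (hq : q.Prime) {r : ℚ} (hr : r ≠ 0) :
    ∃ j : ℤ, A.valuation (r : AlgebraicClosure ℚ) = A.valuation (q : AlgebraicClosure ℚ) ^ j := by
  have hq0 : A.valuation (q : AlgebraicClosure ℚ) ≠ 0 :=
    (map_ne_zero _).mpr (Nat.cast_ne_zero.mpr hq.ne_zero)
  obtain ⟨a, ha⟩ := valuation_natCast_exists hA hq (n := r.num.natAbs)
    (by simpa using Rat.num_ne_zero.mpr hr)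
  obtain ⟨b, hb⟩ := valuation_natCast_exists hA hq (n := r.den) r.den_pos.ne'
  refine ⟨(a : ℤ) - b, ?_⟩
  have hnum : A.valuation (r.num : AlgebraicClosure ℚ)
      = A.valuation ((r.num.natAbs : ℕ) : AlgebraicClosure ℚ) := by
    rcases Int.natAbs_eq r.num with h | h
    · conv_lhs => rw [h]
      rw [Int.cast_natCast]
    · conv_lhs => rw [h]
      rw [Int.cast_neg, Valuation.map_neg, Int.cast_natCast]
  rw [Rat.cast_def, map_div₀, hnum, ha, hb, zpow_sub₀ hq0, zpow_natCast, zpow_natCast]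

theorem exists_valuation_pow_eq_zpow (hA : A.LiesOverPrime q) (hq : q.Prime) {d : ℕ}
    (z : AlgebraicClosure ℚ) (hd : (minpoly ℚ z).natDegree ≤ d) (hz : z ≠ 0) :
    ∃ e : ℕ, 0 < e ∧ e ≤ d ∧ ∃ j : ℤ,
      A.valuation z ^ e = A.valuation (q : AlgebraicClosure ℚ) ^ j := by
  classical
  have : Algebra.IsAlgebraic ℚ (AlgebraicClosure ℚ) := AlgebraicClosure.isAlgebraic ℚ
  have hint : IsIntegral ℚ z := Algebra.IsIntegral.isIntegral z
  set g := minpoly ℚ z with hg
  set term : ℕ → AlgebraicClosure ℚ := fun i => algebraMap ℚ (AlgebraicClosure ℚ) (g.coeff i) * z ^ i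
    with hterm
  have hsum : ∑ i ∈ g.support, term i = 0 := by
    have := minpoly.aeval ℚ z
    rw [Polynomial.aeval_def, Polynomial.eval₂_eq_sum, Polynomial.sum_def] at this
    exact this
  obtain ⟨i, hi, hmax⟩ := Finset.exists_max_image g.support (fun i => A.valuation (term i))
    (Polynomial.support_nonempty.mpr (minpoly.ne_zero hint))
  obtain ⟨k, hk, hki, hkv⟩ : ∃ k ∈ g.support, k ≠ i ∧
      A.valuation (term k) = A.valuation (term i) := by
    by_contra hcon
    push Not at hcon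
    have hne : term i ≠ 0 := mul_ne_zero
      ((map_ne_zero _).mpr (Polynomial.mem_support_iff.mp hi)) (pow_ne_zero _ hz)
    have := Valuation.map_sum_eq_of_lt A.valuation hi
      (f := term) (fun k hk => by
        rw [Finset.mem_sdiff, Finset.mem_singleton] at hk
        exact lt_of_le_of_ne (hmax k hk.1) (hcon k hk.1 hk.2))
    rw [hsum, map_zero] at this
    exact (map_ne_zero _).mpr hne this.symm
  wlog hlt : k < i generalizing i k
  · refine this k hk (fun m hm => hkv ▸ hmax m hm) i hi (Ne.symm hki) hkv.symm ?_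
    omega
  obtain ⟨a, ha⟩ := valuation_ratCast_exists hA hq (Polynomial.mem_support_iff.mp hi)
  obtain ⟨b, hb⟩ := valuation_ratCast_exists hA hq (Polynomial.mem_support_iff.mp hk)
  refine ⟨i - k, by omega, ?_, b - a, ?_⟩
  · have := Polynomial.le_natDegree_of_mem_supp i hi
    omega
  have hz' : A.valuation z ≠ 0 := (map_ne_zero _).mpr hz
  have hq0 : A.valuation (q : AlgebraicClosure ℚ) ≠ 0 :=
    (map_ne_zero _).mpr (Nat.cast_ne_zero.mpr hq.ne_zero)
  simp only [hterm, map_mul, map_pow, eq_ratCast, ha, hb] at hkv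
  rw [zpow_sub₀ hq0, pow_sub₀ _ hz' hlt.le, ← div_eq_mul_inv,
    div_eq_div_iff (pow_ne_zero _ hz') (zpow_ne_zero _ hq0), mul_comm (A.valuation z ^ i)]
  exact hkv.symm

theorem valuation_pow_le_of_natDegree_le_proof (hA : A.LiesOverPrime q) (hq : q.Prime) {d : ℕ}
    (z : AlgebraicClosure ℚ) (hd : (minpoly ℚ z).natDegree ≤ d) (hz : A.valuation z < 1) :
    A.valuation z ^ d ≤ A.valuation (q : AlgebraicClosure ℚ) := by
  rcases eq_or_ne z 0 with rfl | hz0
  · have : Algebra.IsAlgebraic ℚ (AlgebraicClosure ℚ) := AlgebraicClosure.isAlgebraic ℚ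
    have hpos := minpoly.natDegree_pos (A := ℚ)
      (Algebra.IsIntegral.isIntegral (R := ℚ) (0 : AlgebraicClosure ℚ))
    rw [map_zero, zero_pow (by omega)]
    exact zero_le
  obtain ⟨e, he, hed, j, hj⟩ := exists_valuation_pow_eq_zpow hA hq z hd hz0
  have hqv : A.valuation (q : AlgebraicClosure ℚ) < 1 := hA
  have hq0 : 0 < A.valuation (q : AlgebraicClosure ℚ) :=
    zero_lt_iff.mpr ((map_ne_zero _).mpr (Nat.cast_ne_zero.mpr hq.ne_zero))
  have hlt : A.valuation (q : AlgebraicClosure ℚ) ^ j < 1 := hj ▸ pow_lt_one₀ zero_le hz he.ne'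
  have hj1 : 1 ≤ j := by
    by_contra hj0
    push Not at hj0
    exact absurd hlt (not_lt.mpr (one_le_zpow_of_nonpos₀ hq0 hqv.le (by omega)))
  calc A.valuation z ^ d ≤ A.valuation z ^ e := pow_le_pow_right_of_le_one' hz.le hed
    _ = A.valuation (q : AlgebraicClosure ℚ) ^ j := hj
    _ ≤ A.valuation (q : AlgebraicClosure ℚ) ^ (1 : ℤ) := zpow_le_zpow_right_of_le_one₀ hq0 hqv.le hj1
    _ = _ := zpow_one _

end FLTAgent.Local
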