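import Mathlib

/-!
Valuation subring helpers and Weierstrass curves with coefficients in a valuation subring.
-/

set_option autoImplicit false
set_option linter.all false

noncomputable section

namespace FLTAgent.Local

open WeierstrassCurve IsLocalRing

variable {K : Type*} [Field K] {A : ValuationSubring K}

theorem res_eq_zero {z : A} : residue A z = 0 ↔ A.valuation (z : K) < 1 := by
  rw [residue_eq_zero_iff, A.valuation_lt_one_iff]

theorem res_eq_res {z w : A} : residue A z = residue A w ↔ A.valuation ((z : K) - w) < 1 := by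
  rw [← sub_eq_zero, ← map_sub, res_eq_zero]
  rfl

theorem res_ne_zero {z : A} : residue A z ≠ 0 ↔ A.valuation (z : K) = 1 := by
  rw [Ne, res_eq_zero]
  rcases A.valuation_lt_one_or_eq_one z with h | h
  · simp [h, h.ne]
  · simp [h]

theorem val_le_one {z : K} (h : z ∈ A) : A.valuation z ≤ 1 := (A.valuation_le_one_iff z).2 h

theorem not_mem_iff_val {z : K} : z ∉ A ↔ 1 < A.valuation z := by
  rw [← A.valuation_le_one_iff, not_le]

/-- roots of monic quadratics over `A` lie in `A` -/
theorem mem_of_quadratic {z b c : K} (hb : b ∈ A) (hc : c ∈ A) (h : z ^ 2 + b * z + c = 0) :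
    z ∈ A := by
  by_contra hz
  have hz0 : z ≠ 0 := fun e => hz (e ▸ A.zero_mem)
  have hinv : z⁻¹ ∈ A := (A.mem_or_inv_mem z).resolve_left hz
  apply hz
  have : z = -b - c * z⁻¹ := by
    field_simp
    linear_combination h
  rw [this]
  exact sub_mem (neg_mem hb) (mul_mem hc hinv)

/-- the generic fibre -/
abbrev genFib (W0 : WeierstrassCurve A) : WeierstrassCurve K := W0.map A.subtype

/-- the special fibre -/
abbrev specFib (W0 : WeierstrassCurve A) : WeierstrassCurve (ResidueField A) := W0.map (residue A)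

variable {W0 : WeierstrassCurve A}

theorem genFib_a₁ : (genFib W0).a₁ = (W0.a₁ : K) := rfl
theorem genFib_a₂ : (genFib W0).a₂ = (W0.a₂ : K) := rfl
theorem genFib_a₃ : (genFib W0).a₃ = (W0.a₃ : K) := rfl
theorem genFib_a₄ : (genFib W0).a₄ = (W0.a₄ : K) := rfl
theorem genFib_a₆ : (genFib W0).a₆ = (W0.a₆ : K) := rfl

theorem y_mem {x y : K} (h : (genFib W0).toAffine.Equation x y) (hx : x ∈ A) : y ∈ A := by
  rw [Affine.equation_iff, genFib_a₁, genFib_a₂, genFib_a₃, genFib_a₄, genFib_a₆] at h
  refine mem_of_quadratic (b := (W0.a₁ : K) * x + W0.a₃)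
    (c := -(x ^ 3 + (W0.a₂ : K) * x ^ 2 + (W0.a₄ : K) * x + W0.a₆)) ?_ ?_ ?_
  · exact add_mem (mul_mem W0.a₁.2 hx) W0.a₃.2
  · exact neg_mem (add_mem (add_mem (add_mem (pow_mem hx 3) (mul_mem W0.a₂.2 (pow_mem hx 2)))
      (mul_mem W0.a₄.2 hx)) W0.a₆.2)
  · linear_combination h

theorem equation_of_coe {x y : A} (h : (genFib W0).toAffine.Equation (x : K) y) :
    W0.toAffine.Equation x y :=
  (Affine.map_equation (W := W0.toAffine) A.subtype_injective x y).1 h

theorem equation_res {x y : A} (h : (genFib W0).toAffine.Equation (x : K) y) :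
    (specFib W0).toAffine.Equation (residue A x) (residue A y) :=
  (equation_of_coe h).map _

end FLTAgent.Local
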