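import Mathlib

/-!
The homomorphism of point groups induced by a variable change.
-/

set_option autoImplicit false
set_option linter.all false

noncomputable section

namespace FLTAgent.Local

open WeierstrassCurve

variable {F : Type*} [Field F]

/-- new `x` coordinate -/
def vcX (C : VariableChange F) (x : F) : F := (C.u⁻¹ : F) ^ 2 * (x - C.r)

/-- new `y` coordinate -/
def vcY (C : VariableChange F) (x y : F) : F := (C.u⁻¹ : F) ^ 3 * (y - C.s * (x - C.r) - C.t)

theorem vcX_inj (C : VariableChange F) {x x' : F} : vcX C x = vcX C x' ↔ x = x' := by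
  simp [vcX]

theorem vc_equation {W W' : WeierstrassCurve F} {C : VariableChange F} (h : C • W = W') (x y : F) :
    W'.toAffine.Equation (vcX C x) (vcY C x y) ↔ W.toAffine.Equation x y := by
  subst h
  rw [Affine.equation_iff', Affine.equation_iff']
  have hu : ((C.u : F)⁻¹) ≠ 0 := inv_ne_zero C.u.ne_zero
  have key : vcY C x y ^ 2 + (C • W).a₁ * vcX C x * vcY C x y + (C • W).a₃ * vcY C x y -
      (vcX C x ^ 3 + (C • W).a₂ * vcX C x ^ 2 + (C • W).a₄ * vcX C x + (C • W).a₆) =
      (C.u : F)⁻¹ ^ 6 * (y ^ 2 + W.a₁ * x * y + W.a₃ * y -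
        (x ^ 3 + W.a₂ * x ^ 2 + W.a₄ * x + W.a₆)) := by
    simp only [vcX, vcY, variableChange_def, Units.val_inv_eq_inv_val]
    ring
  simp only [WeierstrassCurve.toAffine] at *
  rw [key]
  simp [hu]

theorem vc_negY {W W' : WeierstrassCurve F} {C : VariableChange F} (h : C • W = W') (x y : F) :
    W'.toAffine.negY (vcX C x) (vcY C x y) = vcY C x (W.toAffine.negY x y) := by
  subst h
  simp only [Affine.negY, vcX, vcY, variableChange_def, Units.val_inv_eq_inv_val]
  ring

theorem vc_nonsingular {W W' : WeierstrassCurve F} {C : VariableChange F} (h : C • W = W')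
    (x y : F) :
    W'.toAffine.Nonsingular (vcX C x) (vcY C x y) ↔ W.toAffine.Nonsingular x y := by
  rw [Affine.nonsingular_iff', Affine.nonsingular_iff', vc_equation h]
  subst h
  refine and_congr_right' ?_
  have hu : ((C.u : F)⁻¹) ≠ 0 := inv_ne_zero C.u.ne_zero
  set PX := W.a₁ * y - (3 * x ^ 2 + 2 * W.a₂ * x + W.a₄) with hPX
  set PY := 2 * y + W.a₁ * x + W.a₃ with hPY
  have e1 : (C • W).a₁ * vcY C x y -
      (3 * vcX C x ^ 2 + 2 * (C • W).a₂ * vcX C x + (C • W).a₄) =
      (C.u : F)⁻¹ ^ 4 * (PX + C.s * PY) := by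
    simp only [vcX, vcY, variableChange_def, Units.val_inv_eq_inv_val, hPX, hPY]
    ring
  have e2 : 2 * vcY C x y + (C • W).a₁ * vcX C x + (C • W).a₃ = (C.u : F)⁻¹ ^ 3 * PY := by
    simp only [vcX, vcY, variableChange_def, Units.val_inv_eq_inv_val, hPY]
    ring
  simp only [WeierstrassCurve.toAffine] at *
  rw [e1, e2]
  simp only [ne_eq, mul_eq_zero, pow_eq_zero_iff', hu, false_and, false_or]
  by_cases hy : PY = 0
  · simp [hy]
  · simp [hy]

variable [DecidableEq F]

theorem vc_slope {W W' : WeierstrassCurve F} {C : VariableChange F} (h : C • W = W')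
    {x₁ x₂ y₁ y₂ : F} (h₁ : W.toAffine.Equation x₁ y₁) (h₂ : W.toAffine.Equation x₂ y₂)
    (hxy : ¬(x₁ = x₂ ∧ y₁ = W.toAffine.negY x₂ y₂)) :
    W'.toAffine.slope (vcX C x₁) (vcX C x₂) (vcY C x₁ y₁) (vcY C x₂ y₂) =
      (C.u : F)⁻¹ * (W.toAffine.slope x₁ x₂ y₁ y₂ - C.s) := by
  have hu : ((C.u : F)⁻¹) ≠ 0 := inv_ne_zero C.u.ne_zero
  have hu' := C.u.ne_zero
  by_cases hx : x₁ = x₂
  · have hy : y₁ ≠ W.toAffine.negY x₂ y₂ := fun e => hxy ⟨hx, e⟩
    obtain rfl : y₁ = y₂ := Affine.Y_eq_of_Y_ne h₁ h₂ hx hy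
    subst hx
    have hy' : vcY C x₁ y₁ ≠ W'.toAffine.negY (vcX C x₁) (vcY C x₁ y₁) := by
      rw [vc_negY h]
      intro e
      apply hy
      simp only [vcY, Units.val_inv_eq_inv_val] at e
      have := mul_left_cancel₀ (pow_ne_zero 3 hu) e
      linear_combination this
    rw [Affine.slope_of_Y_ne rfl hy, Affine.slope_of_Y_ne rfl hy', vc_negY h]
    subst h
    have hd : y₁ - W.toAffine.negY x₁ y₁ ≠ 0 := sub_ne_zero.2 hy
    have hden : vcY C x₁ y₁ - vcY C x₁ (W.toAffine.negY x₁ y₁) =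
        (C.u : F)⁻¹ ^ 3 * (y₁ - W.toAffine.negY x₁ y₁) := by
      simp only [vcY, Units.val_inv_eq_inv_val]; ring
    have hnum : 3 * vcX C x₁ ^ 2 + 2 * (C • W).toAffine.a₂ * vcX C x₁ + (C • W).toAffine.a₄ -
        (C • W).toAffine.a₁ * vcY C x₁ y₁ = (C.u : F)⁻¹ ^ 4 *
          ((3 * x₁ ^ 2 + 2 * W.toAffine.a₂ * x₁ + W.toAffine.a₄ - W.toAffine.a₁ * y₁) -
            C.s * (y₁ - W.toAffine.negY x₁ y₁)) := by
      simp only [vcX, vcY, variableChange_def, Units.val_inv_eq_inv_val, Affine.negY,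
        WeierstrassCurve.toAffine]
      ring
    rw [hden, hnum]
    field_simp
  · have hx' : vcX C x₁ ≠ vcX C x₂ := fun e => hx ((vcX_inj C).1 e)
    rw [Affine.slope_of_X_ne hx, Affine.slope_of_X_ne hx']
    have hd : x₁ - x₂ ≠ 0 := sub_ne_zero.2 hx
    simp only [vcX, vcY, Units.val_inv_eq_inv_val]
    rw [← mul_sub, ← mul_sub, show x₁ - (C.r : F) - (x₂ - C.r) = x₁ - x₂ by ring,
      show y₁ - C.s * (x₁ - C.r) - C.t - (y₂ - C.s * (x₂ - C.r) - C.t) =
        y₁ - y₂ - C.s * (x₁ - x₂) by ring]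
    field_simp

/-- the map on points induced by a variable change -/
def vcPt {W W' : WeierstrassCurve F} (C : VariableChange F) (h : C • W = W') :
    W.toAffine.Point →+ W'.toAffine.Point where
  toFun P := match P with
    | .zero => 0
    | .some x y hxy => .some (vcX C x) (vcY C x y) ((vc_nonsingular h x y).2 hxy)
  map_zero' := rfl
  map_add' := by
    rintro (_ | ⟨x₁, y₁, h₁⟩) (_ | ⟨x₂, y₂, h₂⟩)
    any_goals rfl
    by_cases hxy : x₁ = x₂ ∧ y₁ = W.toAffine.negY x₂ y₂
    · rw [Affine.Point.add_of_Y_eq hxy.1 hxy.2]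
      exact (Affine.Point.add_of_Y_eq (congrArg _ hxy.1)
        (by rw [vc_negY h, hxy.2, hxy.1])).symm
    · have hxy' : ¬(vcX C x₁ = vcX C x₂ ∧
          vcY C x₁ y₁ = W'.toAffine.negY (vcX C x₂) (vcY C x₂ y₂)) := by
        rintro ⟨e1, e2⟩
        have e := (vcX_inj C).1 e1
        subst e
        rw [vc_negY h] at e2
        simp only [vcY, Units.val_inv_eq_inv_val] at e2
        have := mul_left_cancel₀ (pow_ne_zero 3 (inv_ne_zero C.u.ne_zero)) e2
        exact hxy ⟨rfl, by linear_combination this⟩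
      rw [Affine.Point.add_some hxy]
      refine Eq.trans ?_ (Affine.Point.add_some hxy').symm
      simp only [Affine.Point.some.injEq]
      have hu' := C.u.ne_zero
      rw [vc_slope h h₁.1 h₂.1 hxy]
      subst h
      constructor
      · simp only [Affine.addX, vcX, variableChange_def, Units.val_inv_eq_inv_val]
        ring
      · simp only [Affine.addY, Affine.negAddY, Affine.negY, Affine.addX, vcX, vcY,
          variableChange_def, Units.val_inv_eq_inv_val]
        ring

theorem vcPt_some {W W' : WeierstrassCurve F} (C : VariableChange F) (h : C • W = W') {x y : F}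
    (hxy : W.toAffine.Nonsingular x y) :
    vcPt C h (.some x y hxy) = .some (vcX C x) (vcY C x y) ((vc_nonsingular h x y).2 hxy) :=
  rfl

theorem vcPt_injective {W W' : WeierstrassCurve F} (C : VariableChange F) (h : C • W = W') :
    Function.Injective (vcPt C h) := by
  rw [injective_iff_map_eq_zero]
  rintro (_ | ⟨x, y, hxy⟩) hP
  · rfl
  · exact absurd hP (Affine.Point.some_ne_zero _)

theorem vcPt_eq_zero {W W' : WeierstrassCurve F} (C : VariableChange F) (h : C • W = W')
    {P : W.toAffine.Point} : vcPt C h P = 0 ↔ P = 0 := by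
  rw [← (vcPt_injective C h).eq_iff, map_zero]

end FLTAgent.Local
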