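import Mathlib
import Fermat.Agent.Local.Basic
import Fermat.Agent.Local.VarChange

/-!
Reduction of points: the subgroup of nonsingular reduction and the kernel of reduction.
-/

set_option autoImplicit false
set_option linter.all false

noncomputable section

namespace FLTAgent.Local

open WeierstrassCurve IsLocalRing

variable {K : Type*} [Field K] {A : ValuationSubring K} {W0 : WeierstrassCurve A}

/-- reduces to the origin -/
def InE1 (P : (genFib W0).toAffine.Point) : Prop :=
  match P with
  | .zero => True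
  | .some x _ _ => x ∉ A

/-- reduces to a nonsingular point -/
def InE0 (P : (genFib W0).toAffine.Point) : Prop :=
  match P with
  | .zero => True
  | .some x y _ => x ∉ A ∨ ∃ (hx : x ∈ A) (hy : y ∈ A),
      (specFib W0).toAffine.Nonsingular (residue A ⟨x, hx⟩) (residue A ⟨y, hy⟩)

/-- the reduction map -/
def red (P : (genFib W0).toAffine.Point) : (specFib W0).toAffine.Point :=
  match P with
  | .zero => 0
  | .some x y _ =>
    open Classical in
    if hh : ∃ (hx : x ∈ A) (hy : y ∈ A),
        (specFib W0).toAffine.Nonsingular (residue A ⟨x, hx⟩) (residue A ⟨y, hy⟩) then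
      .some _ _ hh.snd.snd
    else 0

theorem InE1.zero : InE1 (0 : (genFib W0).toAffine.Point) := trivial

theorem InE0.zero : InE0 (0 : (genFib W0).toAffine.Point) := trivial

theorem InE1.inE0 {P : (genFib W0).toAffine.Point} (h : InE1 P) : InE0 P := by
  rcases P with _ | ⟨x, y, hxy⟩
  · trivial
  · exact Or.inl h

theorem red_some {x y : K} {h : (genFib W0).toAffine.Nonsingular x y} (hx : x ∈ A) (hy : y ∈ A)
    (hns : (specFib W0).toAffine.Nonsingular (residue A ⟨x, hx⟩) (residue A ⟨y, hy⟩)) :
    red (.some x y h) = .some _ _ hns := by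
  simp only [red]
  rw [dif_pos ⟨hx, hy, hns⟩]

theorem red_zero : red (0 : (genFib W0).toAffine.Point) = 0 := rfl

theorem InE1.red_eq {P : (genFib W0).toAffine.Point} (h : InE1 P) : red P = 0 := by
  rcases P with _ | ⟨x, y, hxy⟩
  · rfl
  · simp only [red]
    rw [dif_neg]
    exact fun hh => h hh.fst

theorem inE1_of_red_eq_zero {P : (genFib W0).toAffine.Point} (h0 : InE0 P) (h : red P = 0) :
    InE1 P := by
  rcases P with _ | ⟨x, y, hxy⟩
  · trivial
  · rcases h0 with h0 | ⟨hx, hy, hns⟩
    · exact h0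
    · rw [red_some hx hy hns] at h
      exact absurd h (Affine.Point.some_ne_zero _)

theorem inE0_cases {P : (genFib W0).toAffine.Point} (h : InE0 P) :
    InE1 P ∨ ∃ (x y : A) (hns : (genFib W0).toAffine.Nonsingular (x : K) y),
      P = .some _ _ hns ∧
        (specFib W0).toAffine.Nonsingular (residue A x) (residue A y) := by
  rcases P with _ | ⟨x, y, hxy⟩
  · exact Or.inl trivial
  · rcases h with h | ⟨hx, hy, hns⟩
    · exact Or.inl h
    · exact Or.inr ⟨⟨x, hx⟩, ⟨y, hy⟩, hxy, rfl, hns⟩

theorem inE1_neg {P : (genFib W0).toAffine.Point} (h : InE1 P) : InE1 (-P) := by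
  rcases P with _ | ⟨x, y, hxy⟩
  · trivial
  · exact h

theorem red_neg_affine (x y : A) :
    residue A (W0.toAffine.negY x y) = (specFib W0).toAffine.negY (residue A x) (residue A y) :=
  (Affine.map_negY (W' := W0.toAffine) (residue A) x y).symm

theorem coe_negY (x y : A) :
    (genFib W0).toAffine.negY (x : K) y = (W0.toAffine.negY x y : A) :=
  Affine.map_negY (W' := W0.toAffine) A.subtype x y

theorem inE0_neg {P : (genFib W0).toAffine.Point} (h : InE0 P) : InE0 (-P) := by
  rcases inE0_cases h with h1 | ⟨x, y, hns, rfl, hr⟩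
  · exact (inE1_neg h1).inE0
  · refine Or.inr ⟨x.2, by rw [coe_negY]; exact SetLike.coe_mem _, ?_⟩
    have := (Affine.nonsingular_neg _ _).2 hr
    rw [← red_neg_affine] at this
    convert this using 2 <;> first | rfl | exact Subtype.ext (coe_negY x y)

theorem red_neg [DecidableEq (ResidueField A)] {P : (genFib W0).toAffine.Point} (h : InE0 P) :
    red (-P) = -red P := by
  rcases inE0_cases h with h1 | ⟨x, y, hns, rfl, hr⟩
  · rw [(inE1_neg h1).red_eq, h1.red_eq, neg_zero]
  · have hy' : (genFib W0).toAffine.negY (x : K) y ∈ A := by rw [coe_negY]; exact SetLike.coe_mem _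
    have e : (⟨_, hy'⟩ : A) = W0.toAffine.negY x y := Subtype.ext (coe_negY x y)
    have hr' := (Affine.nonsingular_neg _ _).2 hr
    rw [← red_neg_affine, ← e] at hr'
    rw [red_some x.2 y.2 hr, Affine.Point.neg_some, Affine.Point.neg_some, red_some x.2 hy' hr']
    simp only [Affine.Point.some.injEq, e, red_neg_affine, and_self]

variable [DecidableEq K]

theorem slope_mul_sub {x₁ x₂ y₁ y₂ : K} (hx : x₁ ≠ x₂) {W : WeierstrassCurve K} :
    W.toAffine.slope x₁ x₂ y₁ y₂ * (x₁ - x₂) = y₁ - y₂ := by
  rw [Affine.slope_of_X_ne hx, div_mul_cancel₀ _ (sub_ne_zero.2 hx)]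

/-- slope times the sum of the two ordinates' partial derivative -/
theorem slope_mul_den {W : WeierstrassCurve K} {x₁ x₂ y₁ y₂ : K}
    (h₁ : W.toAffine.Equation x₁ y₁) (h₂ : W.toAffine.Equation x₂ y₂)
    (hxy : ¬(x₁ = x₂ ∧ y₁ = W.toAffine.negY x₂ y₂)) :
    W.toAffine.slope x₁ x₂ y₁ y₂ * (y₁ + y₂ + W.a₁ * x₁ + W.a₃) =
      x₁ ^ 2 + x₁ * x₂ + x₂ ^ 2 + W.a₂ * (x₁ + x₂) + W.a₄ - W.a₁ * y₂ := by
  by_cases hx : x₁ = x₂
  · have hy : y₁ ≠ W.toAffine.negY x₂ y₂ := fun e => hxy ⟨hx, e⟩
    obtain rfl : y₁ = y₂ := Affine.Y_eq_of_Y_ne h₁ h₂ hx hy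
    subst hx
    rw [Affine.slope_of_Y_ne rfl hy, show y₁ + y₁ + W.a₁ * x₁ + W.a₃ =
      y₁ - W.toAffine.negY x₁ y₁ by simp only [Affine.negY, WeierstrassCurve.toAffine]; ring,
      div_mul_cancel₀ _ (sub_ne_zero.2 hy)]
    simp only [WeierstrassCurve.toAffine]
    ring
  · rw [Affine.equation_iff] at h₁ h₂
    apply mul_left_cancel₀ (sub_ne_zero.2 hx)
    rw [← mul_assoc, mul_comm (x₁ - x₂), slope_mul_sub hx]
    linear_combination h₁ - h₂

theorem addX_not_mem {x₁ x₂ ℓ : K} (hx₁ : x₁ ∈ A) (hx₂ : x₂ ∈ A) (hℓ : ℓ ∉ A) :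
    (genFib W0).toAffine.addX x₁ x₂ ℓ ∉ A := by
  intro h
  apply hℓ
  refine mem_of_quadratic (b := (W0.a₁ : K))
    (c := -((W0.a₂ : K) + x₁ + x₂ + (genFib W0).toAffine.addX x₁ x₂ ℓ)) W0.a₁.2
    (neg_mem (add_mem (add_mem (add_mem W0.a₂.2 hx₁) hx₂) h)) ?_
  simp only [Affine.addX, genFib_a₁, genFib_a₂, WeierstrassCurve.toAffine]
  ring

variable [DecidableEq (ResidueField A)]

theorem add_affine {x₁ y₁ x₂ y₂ : A}
    {h₁ : (genFib W0).toAffine.Nonsingular (x₁ : K) y₁}
    {h₂ : (genFib W0).toAffine.Nonsingular (x₂ : K) y₂}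
    (n₁ : (specFib W0).toAffine.Nonsingular (residue A x₁) (residue A y₁))
    (n₂ : (specFib W0).toAffine.Nonsingular (residue A x₂) (residue A y₂)) :
    InE0 (Affine.Point.some _ _ h₁ + Affine.Point.some _ _ h₂) ∧
      red (Affine.Point.some _ _ h₁ + Affine.Point.some _ _ h₂) =
        red (Affine.Point.some _ _ h₁) + red (Affine.Point.some _ _ h₂) := by
  rw [red_some x₁.2 y₁.2 n₁, red_some x₂.2 y₂.2 n₂]
  by_cases hxy : (x₁ : K) = x₂ ∧ (y₁ : K) = (genFib W0).toAffine.negY (x₂ : K) y₂
  · rw [Affine.Point.add_of_Y_eq hxy.1 hxy.2]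
    refine ⟨trivial, ?_⟩
    rw [coe_negY] at hxy
    rw [red_zero, Affine.Point.add_of_Y_eq (congrArg _ (Subtype.ext hxy.1))
      ((congrArg _ (Subtype.ext hxy.2)).trans (red_neg_affine _ _))]
  rw [Affine.Point.add_some hxy]
  have hden := slope_mul_den h₁.1 h₂.1 hxy
  set ℓ := (genFib W0).toAffine.slope (x₁ : K) x₂ y₁ y₂ with hℓdef
  set d : A := y₁ + y₂ + W0.a₁ * x₁ + W0.a₃ with hd
  set num : A := x₁ ^ 2 + x₁ * x₂ + x₂ ^ 2 + W0.a₂ * (x₁ + x₂) + W0.a₄ - W0.a₁ * y₂ with hnum
  have hden' : ℓ * (d : K) = (num : K) := by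
    rw [hd, hnum]; push_cast; exact hden
  by_cases hopp : residue A x₁ = residue A x₂ ∧
      residue A y₁ = (specFib W0).toAffine.negY (residue A x₂) (residue A y₂)
  · -- the residues are opposite
    have hd0 : residue A d = 0 := by
      have e := hopp.2
      simp only [Affine.negY, map_a₁, map_a₃, WeierstrassCurve.toAffine] at e
      rw [hd, map_add, map_add, map_add, map_mul, e, hopp.1]; ring
    have hℓ : ℓ ∉ A := by
      intro hℓA
      have key : residue A num = 0 := by
        have : num = ⟨ℓ, hℓA⟩ * d := Subtype.ext hden'.symm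
        rw [this, map_mul, hd0, mul_zero]
      rcases eq_or_ne (residue A y₁) (residue A y₂) with hy | hy
      · have h2 := n₁.2
        rw [Affine.evalEval_polynomialX, Affine.evalEval_polynomialY] at h2
        simp only [map_a₁, map_a₂, map_a₃, map_a₄, WeierstrassCurve.toAffine] at h2
        rw [hnum] at key
        simp only [map_sub, map_add, map_mul, map_pow] at key
        rw [← hopp.1, ← hy] at key
        rw [hd] at hd0
        simp only [map_add, map_mul] at hd0
        rw [← hy] at hd0
        rcases h2 with h2 | h2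
        · exact h2 (by linear_combination -key)
        · exact h2 (by linear_combination hd0)
      · have hx : (x₁ : K) ≠ x₂ := by
          intro e
          have := Affine.Y_eq_of_Y_ne h₁.1 h₂.1 e (fun e' => hxy ⟨e, e'⟩)
          exact hy (congrArg _ (Subtype.ext this))
        have : (⟨ℓ, hℓA⟩ : A) * (x₁ - x₂) = y₁ - y₂ := Subtype.ext (slope_mul_sub hx)
        have := congrArg (residue A) this
        rw [map_mul, map_sub, map_sub, hopp.1, sub_self, mul_zero] at this
        exact hy (sub_eq_zero.1 this.symm)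
    have hx3 := addX_not_mem (W0 := W0) x₁.2 x₂.2 hℓ
    refine ⟨Or.inl hx3, ?_⟩
    rw [InE1.red_eq (show InE1 (Affine.Point.some _ _ _) from hx3),
      Affine.Point.add_of_Y_eq hopp.1 hopp.2]
  · -- the residues are not opposite
    obtain ⟨m, hm, hmres⟩ : ∃ m : A, (m : K) = ℓ ∧ residue A m =
        (specFib W0).toAffine.slope (residue A x₁) (residue A x₂) (residue A y₁)
          (residue A y₂) := by
      by_cases hx : residue A x₁ = residue A x₂
      · have hy : residue A y₁ ≠ (specFib W0).toAffine.negY (residue A x₂) (residue A y₂) :=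
          fun e => hopp ⟨hx, e⟩
        have hy12 := Affine.Y_eq_of_Y_ne n₁.1 n₂.1 hx hy
        have hdu : residue A d ≠ 0 := by
          intro e
          apply hy
          rw [hd] at e
          simp only [map_add, map_mul] at e
          simp only [Affine.negY, map_a₁, map_a₃, WeierstrassCurve.toAffine]
          rw [← hx]; linear_combination e
        have hdv := res_ne_zero.1 hdu
        have hd0 : (d : K) ≠ 0 := fun e => by simp [e] at hdv
        have hℓA : ℓ ∈ A := by
          rw [← A.valuation_le_one_iff, eq_div_iff hd0 |>.2 hden', map_div₀, hdv, div_one]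
          exact A.valuation_le_one num
        refine ⟨⟨ℓ, hℓA⟩, rfl, ?_⟩
        have e : (⟨ℓ, hℓA⟩ : A) * d = num := Subtype.ext hden'
        have e' := congrArg (residue A) e
        rw [map_mul] at e'
        rw [Affine.slope_of_Y_ne hx hy, eq_div_iff]
        · rw [show residue A y₁ - (specFib W0).toAffine.negY (residue A x₁) (residue A y₁) =
            residue A d by
              rw [hd]
              simp only [Affine.negY, map_a₁, map_a₃, WeierstrassCurve.toAffine, map_add, map_mul]
              rw [← hy12]; ring, e', hnum]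
          simp only [map_a₁, map_a₂, map_a₄, WeierstrassCurve.toAffine, map_sub, map_add, map_mul,
            map_pow]
          rw [← hx, ← hy12]; ring
        · intro e0
          apply hdu
          rw [hd]
          simp only [Affine.negY, map_a₁, map_a₃, WeierstrassCurve.toAffine] at e0
          simp only [map_add, map_mul]
          rw [← hy12]; linear_combination e0
      · have hxne : (x₁ : K) ≠ x₂ := fun e => hx (congrArg _ (Subtype.ext e))
        have hu : residue A (x₁ - x₂) ≠ 0 := by rwa [map_sub, sub_ne_zero]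
        have huv := res_ne_zero.1 hu
        push_cast at huv
        have hℓA : ℓ ∈ A := by
          rw [← A.valuation_le_one_iff, hℓdef, Affine.slope_of_X_ne hxne, map_div₀, huv, div_one]
          exact A.valuation_le_one (y₁ - y₂)
        refine ⟨⟨ℓ, hℓA⟩, rfl, ?_⟩
        have e : (⟨ℓ, hℓA⟩ : A) * (x₁ - x₂) = y₁ - y₂ := Subtype.ext (slope_mul_sub hxne)
        have e' := congrArg (residue A) e
        rw [map_mul, map_sub, map_sub] at e'
        rw [Affine.slope_of_X_ne hx, eq_div_iff (sub_ne_zero.2 hx), e']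
    have eX : (genFib W0).toAffine.addX (x₁ : K) x₂ ℓ = (W0.toAffine.addX x₁ x₂ m : A) := by
      rw [← hm]; exact Affine.map_addX (W' := W0.toAffine) A.subtype x₁ x₂ m
    have eY : (genFib W0).toAffine.addY (x₁ : K) x₂ y₁ ℓ =
        (W0.toAffine.addY x₁ x₂ y₁ m : A) := by
      rw [← hm]; exact Affine.map_addY (W' := W0.toAffine) A.subtype x₁ y₁ x₂ m
    have rX : residue A (W0.toAffine.addX x₁ x₂ m) =
        (specFib W0).toAffine.addX (residue A x₁) (residue A x₂) (residue A m) :=
      (Affine.map_addX (W' := W0.toAffine) (residue A) x₁ x₂ m).symm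
    have rY : residue A (W0.toAffine.addY x₁ x₂ y₁ m) =
        (specFib W0).toAffine.addY (residue A x₁) (residue A x₂) (residue A y₁) (residue A m) :=
      (Affine.map_addY (W' := W0.toAffine) (residue A) x₁ y₁ x₂ m).symm
    have hX : (genFib W0).toAffine.addX (x₁ : K) x₂ ℓ ∈ A := by rw [eX]; exact SetLike.coe_mem _
    have hY : (genFib W0).toAffine.addY (x₁ : K) x₂ y₁ ℓ ∈ A := by
      rw [eY]; exact SetLike.coe_mem _
    have iX : (⟨_, hX⟩ : A) = W0.toAffine.addX x₁ x₂ m := Subtype.ext eX
    have iY : (⟨_, hY⟩ : A) = W0.toAffine.addY x₁ x₂ y₁ m := Subtype.ext eY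
    have nn := Affine.nonsingular_add n₁ n₂ hopp
    rw [← hmres, ← rX, ← rY, ← iX, ← iY] at nn
    refine ⟨Or.inr ⟨hX, hY, nn⟩, ?_⟩
    rw [red_some hX hY nn, Affine.Point.add_some hopp]
    simp only [Affine.Point.some.injEq, ← hmres, ← rX, ← rY, iX, iY, and_self]

end FLTAgent.Local
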