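import Mathlib
import Fermat.Agent.Local.Reduction

/-!
The group structure on the reduction filtration, and absence of prime-to-residue torsion in the
kernel of reduction.
-/

set_option autoImplicit false
set_option linter.all false

noncomputable section

namespace FLTAgent.Local

open WeierstrassCurve IsLocalRing

variable {K : Type*} [Field K] {A : ValuationSubring K} {W0 : WeierstrassCurve A}
  [IsAlgClosed K]

@[simp, norm_cast]
theorem coe_ofNat (n : ℕ) [n.AtLeastTwo] :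
    (((OfNat.ofNat n : A)) : K) = (OfNat.ofNat n : K) :=
  map_ofNat A.subtype n

theorem exists_sqrt (x : K) : ∃ w : K, w ^ 2 = x := by
  obtain ⟨w, hw⟩ := IsAlgClosed.exists_eq_mul_self x
  exact ⟨w, by rw [sq, hw]⟩

theorem inv_mem_of_not_mem {w : K} (hw : w ∉ A) : w⁻¹ ∈ A := (A.mem_or_inv_mem w).resolve_left hw

theorem val_inv_lt_one {w : K} (hw : w ∉ A) : A.valuation w⁻¹ < 1 := by
  rw [map_inv₀]
  exact inv_lt_one_of_one_lt₀ (not_mem_iff_val.1 hw)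

/-- the shape of a point reducing to the origin -/
theorem exists_scale {x y : K} (h : (genFib W0).toAffine.Equation x y) (hx : x ∉ A) :
    ∃ w : K, w ∉ A ∧ w ^ 2 = x ∧ y / w ^ 3 ∈ A := by
  obtain ⟨w, hw⟩ := exists_sqrt x
  have hwA : w ∉ A := fun e => hx (hw ▸ pow_mem e 2)
  refine ⟨w, hwA, hw, ?_⟩
  have hw0 : w ≠ 0 := fun e => hwA (e ▸ A.zero_mem)
  have hi := inv_mem_of_not_mem hwA
  rw [Affine.equation_iff, genFib_a₁, genFib_a₂, genFib_a₃, genFib_a₄, genFib_a₆] at h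
  refine mem_of_quadratic (b := (W0.a₁ : K) * w⁻¹ + (W0.a₃ : K) * w⁻¹ ^ 3)
    (c := -(1 + (W0.a₂ : K) * w⁻¹ ^ 2 + (W0.a₄ : K) * w⁻¹ ^ 4 + (W0.a₆ : K) * w⁻¹ ^ 6)) ?_ ?_ ?_
  · exact add_mem (mul_mem W0.a₁.2 hi) (mul_mem W0.a₃.2 (pow_mem hi 3))
  · exact neg_mem (add_mem (add_mem (add_mem A.one_mem (mul_mem W0.a₂.2 (pow_mem hi 2)))
      (mul_mem W0.a₄.2 (pow_mem hi 4))) (mul_mem W0.a₆.2 (pow_mem hi 6)))
  · subst hw
    field_simp
    linear_combination h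

variable [DecidableEq K]

/-- adding a point of the kernel does not move the residue of the abscissa -/
theorem addX_near {x₁ y₁ : K} {x₂ y₂ : A} (h₁ : (genFib W0).toAffine.Equation x₁ y₁)
    (h₂ : (genFib W0).toAffine.Equation (x₂ : K) y₂) (hx₁ : x₁ ∉ A) :
    A.valuation ((genFib W0).toAffine.addX x₁ x₂
      ((genFib W0).toAffine.slope x₁ x₂ y₁ y₂) - x₂) < 1 := by
  obtain ⟨w, hwA, hw, hY⟩ := exists_scale h₁ hx₁
  have hne : x₁ ≠ x₂ := fun e => hx₁ (e ▸ x₂.2)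
  have hd : x₁ - (x₂ : K) ≠ 0 := sub_ne_zero.2 hne
  have hw0 : w ≠ 0 := fun e => hwA (e ▸ A.zero_mem)
  set i : A := ⟨w⁻¹, inv_mem_of_not_mem hwA⟩ with hi
  set Y : A := ⟨y₁ / w ^ 3, hY⟩ with hYd
  have hiv : A.valuation (i : K) < 1 := val_inv_lt_one hwA
  set R : A := i * ((3 * x₂ ^ 2 + 2 * W0.a₂ * x₂ + W0.a₄ - W0.a₁ * y₂) * i +
      (-x₂ ^ 3 + W0.a₄ * x₂ + 2 * W0.a₆ - W0.a₃ * y₂) * i ^ 3 -
      Y * (W0.a₃ + 2 * y₂ + W0.a₁ * x₂)) with hR
  set D : A := 1 - x₂ * i ^ 2 with hD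
  have hDv : A.valuation (D : K) = 1 := by
    rw [← res_ne_zero, hD, map_sub, map_one, map_mul, map_pow, res_eq_zero.2 hiv]
    simp
  have key : ((genFib W0).toAffine.addX x₁ x₂ ((genFib W0).toAffine.slope x₁ x₂ y₁ y₂) - x₂) *
      (D : K) ^ 2 = (R : K) := by
    rw [Affine.slope_of_X_ne hne]
    simp only [Affine.addX, hR, hD, genFib_a₁, genFib_a₂, WeierstrassCurve.toAffine]
    push_cast
    rw [Affine.equation_iff, genFib_a₁, genFib_a₂, genFib_a₃, genFib_a₄, genFib_a₆] at h₁ h₂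
    simp only [hi, hYd, show ((2 : A) : K) = 2 from map_ofNat A.subtype 2,
      show ((3 : A) : K) = 3 from map_ofNat A.subtype 3]
    subst hw
    field_simp
    linear_combination h₁ + h₂
  have hv := congrArg A.valuation key
  rw [map_mul, map_pow, hDv, one_pow, mul_one, hR] at hv
  rw [hv]
  push_cast
  rw [map_mul]
  refine lt_of_le_of_lt ?_ hiv
  exact mul_le_of_le_one_right' (A.valuation_le_one
    ((3 * x₂ ^ 2 + 2 * W0.a₂ * x₂ + W0.a₄ - W0.a₁ * y₂) * i +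
      (-x₂ ^ 3 + W0.a₄ * x₂ + 2 * W0.a₆ - W0.a₃ * y₂) * i ^ 3 -
      Y * (W0.a₃ + 2 * y₂ + W0.a₁ * x₂)))

/-- sum of a kernel point and an integral point -/
theorem add_inE1_affine {P : (genFib W0).toAffine.Point} {x₂ y₂ : A}
    (hP : InE1 P) {h₂ : (genFib W0).toAffine.Nonsingular (x₂ : K) y₂} :
    ∃ (x₃ y₃ : A) (h₃ : (genFib W0).toAffine.Nonsingular (x₃ : K) y₃),
      P + .some _ _ h₂ = .some _ _ h₃ ∧ residue A x₃ = residue A x₂ := by
  rcases P with _ | ⟨x₁, y₁, h₁⟩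
  · exact ⟨x₂, y₂, h₂, zero_add _, rfl⟩
  · have hx₁ : x₁ ∉ A := hP
    have hne : x₁ ≠ x₂ := fun e => hx₁ (e ▸ x₂.2)
    have hn := addX_near h₁.1 h₂.1 hx₁
    have hX : (genFib W0).toAffine.addX x₁ x₂ ((genFib W0).toAffine.slope x₁ x₂ y₁ y₂) ∈ A := by
      have := add_mem ((A.valuation_le_one_iff _).1 hn.le) x₂.2
      rwa [sub_add_cancel] at this
    have hns := Affine.nonsingular_add h₁ h₂ (fun e => hne e.1)
    have hY := y_mem hns.1 hX
    exact ⟨⟨_, hX⟩, ⟨_, hY⟩, hns, Affine.Point.add_of_X_ne hne, res_eq_res.2 hn⟩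

theorem inE1_add {P Q : (genFib W0).toAffine.Point} (hP : InE1 P) (hQ : InE1 Q) :
    InE1 (P + Q) := by
  generalize hR : P + Q = R
  rcases R with _ | ⟨x, y, h⟩
  · trivial
  · by_contra hx
    have hx' : x ∈ A := not_not.1 hx
    have hQ' : Q = -P + .some x y h := by rw [← hR]; abel
    obtain ⟨x₃, y₃, h₃, e, -⟩ := add_inE1_affine (inE1_neg hP)
      (x₂ := ⟨x, hx'⟩) (y₂ := ⟨y, y_mem h.1 hx'⟩) (h₂ := h)
    have hQ'' : Q = Affine.Point.some _ _ h₃ := hQ'.trans e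
    subst hQ''
    exact hQ x₃.2

variable [DecidableEq (ResidueField A)]

theorem add_inE1_inE0 {P Q : (genFib W0).toAffine.Point} (hP : InE1 P) (hQ : InE0 Q) :
    InE0 (P + Q) ∧ red (P + Q) = red Q := by
  rcases inE0_cases hQ with hQ1 | ⟨x₂, y₂, h₂, rfl, n₂⟩
  · exact ⟨(inE1_add hP hQ1).inE0, by rw [(inE1_add hP hQ1).red_eq, hQ1.red_eq]⟩
  obtain ⟨x₃, y₃, h₃, e, hres⟩ := add_inE1_affine hP (x₂ := x₂) (y₂ := y₂) (h₂ := h₂)
  rw [e]
  have e₃ : (specFib W0).toAffine.Equation (residue A x₃) (residue A y₃) := equation_res h₃.1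
  rcases Affine.Y_eq_of_X_eq e₃ n₂.1 hres with hy | hy
  · have n₃ : (specFib W0).toAffine.Nonsingular (residue A x₃) (residue A y₃) := by
      rwa [hres, hy]
    refine ⟨Or.inr ⟨x₃.2, y₃.2, n₃⟩, ?_⟩
    rw [red_some x₃.2 y₃.2 n₃, red_some x₂.2 y₂.2 n₂]
    simp [hres, hy]
  · have n₃ : (specFib W0).toAffine.Nonsingular (residue A x₃) (residue A y₃) := by
      rw [hres, hy]; exact (Affine.nonsingular_neg _ _).2 n₂
    refine ⟨Or.inr ⟨x₃.2, y₃.2, n₃⟩, ?_⟩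
    set Q := Affine.Point.some _ _ h₂ with hQdef
    set R := Affine.Point.some _ _ h₃ with hRdef
    have hRQ : red R = -red Q := by
      rw [red_some x₃.2 y₃.2 n₃, red_some x₂.2 y₂.2 n₂, Affine.Point.neg_some]
      simp [hres, hy]
    have h1 := add_affine (h₁ := h₃) (h₂ := h₂) n₃ n₂
    have hRQ1 : InE1 (R + Q) := inE1_of_red_eq_zero h1.1 (by rw [h1.2, hRQ, neg_add_cancel])
    have h2Q : InE1 (Q + Q) := by
      have := inE1_add (inE1_neg hP) hRQ1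
      rwa [← add_assoc, show -P + R = Q by rw [← e]; abel] at this
    have hQQ := (add_affine (h₁ := h₂) (h₂ := h₂) n₂ n₂).2
    rw [h2Q.red_eq] at hQQ
    exact hRQ.trans (neg_eq_of_add_eq_zero_left hQQ.symm)

theorem inE0_add {P Q : (genFib W0).toAffine.Point} (hP : InE0 P) (hQ : InE0 Q) :
    InE0 (P + Q) ∧ red (P + Q) = red P + red Q := by
  rcases inE0_cases hP with hP1 | ⟨x₁, y₁, h₁, rfl, n₁⟩
  · obtain ⟨a, b⟩ := add_inE1_inE0 hP1 hQ
    exact ⟨a, by rw [b, hP1.red_eq, zero_add]⟩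
  rcases inE0_cases hQ with hQ1 | ⟨x₂, y₂, h₂, rfl, n₂⟩
  · obtain ⟨a, b⟩ := add_inE1_inE0 hQ1 (Q := Affine.Point.some _ _ h₁)
      (Or.inr ⟨x₁.2, y₁.2, n₁⟩)
    rw [add_comm]
    exact ⟨a, by rw [b, hQ1.red_eq, add_zero]⟩
  exact add_affine n₁ n₂

variable (W0)

/-- nonsingular reduction, as a subgroup -/
def compZero : AddSubgroup (genFib W0).toAffine.Point where
  carrier := {P | InE0 P}
  zero_mem' := trivial
  add_mem' hP hQ := (inE0_add hP hQ).1
  neg_mem' hP := inE0_neg hP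

/-- reduction as a homomorphism -/
def redHom : compZero W0 →+ (specFib W0).toAffine.Point where
  toFun P := red P.1
  map_zero' := rfl
  map_add' P Q := (inE0_add P.2 Q.2).2

variable {W0}

theorem red_nsmul {P : (genFib W0).toAffine.Point} (hP : InE0 P) (n : ℕ) :
    red (n • P) = n • red P := by
  have := map_nsmul (redHom W0) n ⟨P, hP⟩
  exact this

end FLTAgent.Local
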