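import Mathlib
import Fermat.Agent.Local.Kernel

/-!
The kernel of reduction has no torsion prime to the residue characteristic.
-/

set_option autoImplicit false
set_option linter.all false

noncomputable section

namespace FLTAgent.Local

open WeierstrassCurve IsLocalRing

section Cusp

variable (k : Type*) [Field k]

/-- the cuspidal cubic -/
abbrev cusp : WeierstrassCurve k := ⟨0, 0, 0, 0, 0⟩

variable {k}

theorem cusp_param {x y : k} (h : (cusp k).toAffine.Nonsingular x y) :
    ∃ t : k, t ≠ 0 ∧ x = (t ^ 2)⁻¹ ∧ y = (t ^ 3)⁻¹ := by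
  obtain ⟨he, hn⟩ := h
  rw [Affine.equation_iff] at he
  rw [Affine.evalEval_polynomialX, Affine.evalEval_polynomialY] at hn
  simp only [WeierstrassCurve.toAffine, zero_mul, mul_zero, add_zero, zero_sub, neg_ne_zero] at he hn
  have hx : x ≠ 0 := by
    rintro rfl
    have : y = 0 := by simpa using he
    subst this
    simp at hn
  have hy : y ≠ 0 := by
    rintro rfl
    exact hx (by simpa using he.symm)
  refine ⟨x / y, div_ne_zero hx hy, ?_, ?_⟩
  · field_simp
    linear_combination -he
  · field_simp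
    linear_combination -he

variable [DecidableEq k]

/-- the parameter of a nonsingular point of the cuspidal cubic -/
def cuspT : (cusp k).toAffine.Point → k
  | .zero => 0
  | .some x y _ => x / y

theorem cuspT_some {t : k} (h : (cusp k).toAffine.Nonsingular (t ^ 2)⁻¹ (t ^ 3)⁻¹) :
    cuspT (.some _ _ h) = t := by
  by_cases ht : t = 0
  · subst ht; simp [cuspT]
  · simp only [cuspT]; field_simp

/-- the parameter is additive -/
def cuspHom : (cusp k).toAffine.Point →+ k where
  toFun := cuspT
  map_zero' := rfl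
  map_add' := by
    rintro (_ | ⟨x₁, y₁, h₁⟩) (_ | ⟨x₂, y₂, h₂⟩)
    · simp [cuspT, ← Affine.Point.zero_def]
    · simp [cuspT, ← Affine.Point.zero_def]
    · simp [cuspT, ← Affine.Point.zero_def]
    obtain ⟨s, hs, rfl, rfl⟩ := cusp_param h₁
    obtain ⟨t, ht, rfl, rfl⟩ := cusp_param h₂
    rw [cuspT_some, cuspT_some]
    by_cases hxy : (s ^ 2)⁻¹ = (t ^ 2)⁻¹ ∧
        (s ^ 3)⁻¹ = (cusp k).toAffine.negY (t ^ 2)⁻¹ (t ^ 3)⁻¹
    · rw [Affine.Point.add_of_Y_eq hxy.1 hxy.2]
      obtain ⟨e1, e2⟩ := hxy
      simp only [Affine.negY, WeierstrassCurve.toAffine, zero_mul, sub_zero] at e2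
      rw [inv_inj] at e1
      rw [← inv_neg, inv_inj] at e2
      have : t ^ 2 * (s + t) = 0 := by linear_combination e2 - s * e1
      rcases mul_eq_zero.1 this with h | h
      · exact absurd h (pow_ne_zero 2 ht)
      · show (0 : k) = _
        exact h.symm
    · have hsum : s + t ≠ 0 := by
        intro h0
        obtain rfl : s = -t := by linear_combination h0
        apply hxy
        simp only [Affine.negY, WeierstrassCurve.toAffine, zero_mul, sub_zero]
        exact ⟨by rw [neg_sq], by rw [show (-t) ^ 3 = -t ^ 3 by ring, inv_neg]⟩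
      have hslope : (cusp k).toAffine.slope (s ^ 2)⁻¹ (t ^ 2)⁻¹ (s ^ 3)⁻¹ (t ^ 3)⁻¹ =
          (s ^ 2 + s * t + t ^ 2) / (s * t * (s + t)) := by
        have hd := mul_ne_zero (mul_ne_zero hs ht) hsum
        rw [eq_div_iff hd]
        by_cases hx : (s ^ 2)⁻¹ = (t ^ 2)⁻¹
        · have hy := fun e => hxy ⟨hx, e⟩
          have hyy := Affine.Y_eq_of_Y_ne h₁.1 h₂.1 hx hy
          have hst : s = t := by
            rw [inv_inj] at hx hyy
            have : s ^ 2 * (s - t) = 0 := by linear_combination hyy - t * hx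
            rcases mul_eq_zero.1 this with h | h
            · exact absurd h (pow_ne_zero 2 hs)
            · linear_combination h
          subst hst
          have h2 : (2 : k) ≠ 0 := by
            intro h0; apply hsum; linear_combination s * h0
          rw [Affine.slope_of_Y_ne rfl hy]
          simp only [Affine.negY, WeierstrassCurve.toAffine]
          field_simp
          ring_nf
          field_simp
          ring
        · have hd2 : t ^ 2 - s ^ 2 ≠ 0 := by
            intro h0; apply hx; rw [inv_inj]; linear_combination -h0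
          rw [Affine.slope_of_X_ne hx]
          field_simp
          ring
      rw [Affine.Point.add_some hxy]
      simp only [cuspT, hslope, Affine.addX, Affine.addY, Affine.negAddY, Affine.negY,
        WeierstrassCurve.toAffine]
      have e1 : ((s ^ 2 + s * t + t ^ 2) / (s * t * (s + t))) ^ 2 +
          0 * ((s ^ 2 + s * t + t ^ 2) / (s * t * (s + t))) - 0 - (s ^ 2)⁻¹ - (t ^ 2)⁻¹ =
          ((s + t) ^ 2)⁻¹ := by
        field_simp
        ring
      rw [e1]
      have e2 : -((s ^ 2 + s * t + t ^ 2) / (s * t * (s + t)) * (((s + t) ^ 2)⁻¹ - (s ^ 2)⁻¹) +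
          (s ^ 3)⁻¹) - 0 * ((s + t) ^ 2)⁻¹ - 0 = ((s + t) ^ 3)⁻¹ := by
        field_simp
        ring
      rw [e2]
      field_simp

end Cusp

variable {K : Type*} [Field K] {A : ValuationSubring K} {W0 : WeierstrassCurve A}
  [IsAlgClosed K] [DecidableEq K] [DecidableEq (ResidueField A)]

theorem inE1_torsion {n : ℕ} (hn : A.valuation (n : K) = 1) {P : (genFib W0).toAffine.Point}
    (hP : InE1 P) (hnP : n • P = 0) : P = 0 := by
  rcases P with _ | ⟨x, y, h⟩
  · rfl
  exfalso
  obtain ⟨w, hwA, hw, hY⟩ := exists_scale h.1 hP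
  have hw0 : w ≠ 0 := fun e => hwA (e ▸ A.zero_mem)
  set i : A := ⟨w⁻¹, inv_mem_of_not_mem hwA⟩ with hi
  have hi0 : residue A i = 0 := res_eq_zero.2 (val_inv_lt_one hwA)
  set W1 : WeierstrassCurve A :=
    ⟨W0.a₁ * i, W0.a₂ * i ^ 2, W0.a₃ * i ^ 3, W0.a₄ * i ^ 4, W0.a₆ * i ^ 6⟩ with hW1
  set C : VariableChange K := ⟨Units.mk0 w hw0, 0, 0, 0⟩ with hC
  have hCW : C • genFib W0 = genFib W1 := by
    ext <;> simp [hC, hW1, hi, variableChange_def, genFib] <;> ring
  have hns : specFib W1 = cusp (ResidueField A) := by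
    ext <;> simp [hW1, hi0, specFib, cusp]
  have hX : vcX C x = 1 := by
    subst hw; simp [vcX, hC, hw0]
  have hYv : vcY C x y = y / w ^ 3 := by
    simp [vcY, hC, div_eq_mul_inv, mul_comm]
  have hXA : vcX C x ∈ A := hX ▸ A.one_mem
  have hYA : vcY C x y ∈ A := hYv ▸ hY
  set P := Affine.Point.some x y h with hPdef
  have heq : (specFib W1).toAffine.Equation (residue A ⟨_, hXA⟩) (residue A ⟨_, hYA⟩) :=
    equation_res (W0 := W1) ((vc_equation hCW x y).2 h.1)
  have hone : (⟨_, hXA⟩ : A) = 1 := Subtype.ext hX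
  set η := residue A ⟨_, hYA⟩ with hη
  have hη2 : η ^ 2 = 1 := by
    rw [hone, map_one, hns, Affine.equation_iff] at heq
    simpa [cusp] using heq
  have hη0 : η ≠ 0 := by
    intro e; rw [e] at hη2; simp at hη2
  have hN : (specFib W1).toAffine.Nonsingular (residue A ⟨_, hXA⟩) η := by
    refine ⟨heq, ?_⟩
    rw [hone, map_one, Affine.evalEval_polynomialX, Affine.evalEval_polynomialY, hns]
    simp only [cusp, WeierstrassCurve.toAffine, zero_mul, mul_zero, add_zero, zero_sub, ne_eq,
      neg_eq_zero, one_pow, mul_one]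
    by_contra hh
    push Not at hh
    rw [mul_eq_zero] at hh
    obtain ⟨h3, h2 | h2⟩ := hh
    · exact one_ne_zero (by linear_combination h3 - h2 : (1 : ResidueField A) = 0)
    · exact hη0 h2
  have h0 : InE0 (vcPt C hCW P) := Or.inr ⟨hXA, hYA, hN⟩
  have hnQ : n • red (vcPt C hCW P) = 0 := by
    rw [← red_nsmul h0, ← map_nsmul, hnP, map_zero, red_zero]
  rw [hPdef, vcPt_some, red_some hXA hYA hN] at hnQ
  have hres : ∀ (W : WeierstrassCurve (ResidueField A)) (hW : W = cusp _) {a b : ResidueField A}
      (hab : W.toAffine.Nonsingular a b), n • Affine.Point.some a b hab = 0 →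
      (n : ResidueField A) * (a / b) = 0 := by
    rintro W rfl a b hab hz
    have := congrArg (cuspHom (k := ResidueField A)) hz
    rw [map_nsmul, map_zero, nsmul_eq_mul] at this
    exact this
  have := hres _ hns hN hnQ
  rw [hone, map_one, mul_eq_zero] at this
  rcases this with hh | hh
  · rw [← map_natCast (residue A), res_eq_zero] at hh
    push_cast at hh
    rw [hn] at hh
    exact lt_irrefl _ hh
  · exact hη0 (by simpa using hh)

end FLTAgent.Local
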