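import Mathlib
import Fermat.Agent.Local.Torsion

/-!
Integral variable changes and the action of automorphisms preserving the place.
-/

set_option autoImplicit false
set_option linter.all false

noncomputable section

namespace FLTAgent.Local

open WeierstrassCurve IsLocalRing

variable {K : Type*} [Field K] {A : ValuationSubring K} {W0 W1 : WeierstrassCurve A}
  {C : VariableChange A}

theorem genFib_vc (h : C • W0 = W1) : (C.map A.subtype) • genFib W0 = genFib W1 := by
  subst h
  exact map_variableChange (W := W0) (φ := A.subtype) (C := C)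

theorem specFib_vc (h : C • W0 = W1) : (C.map (residue A)) • specFib W0 = specFib W1 := by
  subst h
  exact map_variableChange (W := W0) (φ := residue A) (C := C)

theorem u_inv_map {S : Type*} [Field S] (f : A →+* S) (C : VariableChange A) :
    ((C.map f).u : S)⁻¹ = f ((C.u⁻¹ : Aˣ) : A) := by
  rw [← Units.val_inv_eq_inv_val]
  rfl

theorem vcX_coe (C : VariableChange A) (x : A) :
    vcX (C.map A.subtype) (x : K) = (((C.u⁻¹ : Aˣ) : A) ^ 2 * (x - C.r) : A) := by
  simp only [vcX, Units.val_inv_eq_inv_val, u_inv_map]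
  rfl

theorem vcY_coe (C : VariableChange A) (x y : A) :
    vcY (C.map A.subtype) (x : K) y =
      (((C.u⁻¹ : Aˣ) : A) ^ 3 * (y - C.s * (x - C.r) - C.t) : A) := by
  simp only [vcY, Units.val_inv_eq_inv_val, u_inv_map]
  rfl

theorem vcX_res (C : VariableChange A) (x : A) :
    vcX (C.map (residue A)) (residue A x) =
      residue A (((C.u⁻¹ : Aˣ) : A) ^ 2 * (x - C.r)) := by
  simp only [vcX, Units.val_inv_eq_inv_val, u_inv_map, map_mul, map_pow, map_sub]
  rfl

theorem vcY_res (C : VariableChange A) (x y : A) :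
    vcY (C.map (residue A)) (residue A x) (residue A y) =
      residue A (((C.u⁻¹ : Aˣ) : A) ^ 3 * (y - C.s * (x - C.r) - C.t)) := by
  simp only [vcY, Units.val_inv_eq_inv_val, u_inv_map, map_mul, map_pow, map_sub]
  rfl

theorem vcX_mem_iff (C : VariableChange A) (x : K) : vcX (C.map A.subtype) x ∈ A ↔ x ∈ A := by
  constructor
  · intro h
    have hx : x = ((C.u : A) : K) ^ 2 * vcX (C.map A.subtype) x + (C.r : K) := by
      have hu : ((C.u : A) : K) ≠ 0 := ((Units.map A.subtype.toMonoidHom) C.u).ne_zero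
      show x = ((C.u : A) : K) ^ 2 * ((((C.map A.subtype).u : Kˣ) : K)⁻¹ ^ 2 * (x - (C.r : K))) + C.r
      rw [show (((C.map A.subtype).u : Kˣ) : K) = ((C.u : A) : K) from rfl]
      field_simp
      ring
    rw [hx]
    exact add_mem (mul_mem (pow_mem (SetLike.coe_mem _) 2) h) C.r.2
  · intro h
    rw [vcX_coe C ⟨x, h⟩]
    exact SetLike.coe_mem _

variable [DecidableEq K]

/-- transport of points along an integral change of model -/
def tr (C : VariableChange A) (h : C • W0 = W1) :
    (genFib W0).toAffine.Point →+ (genFib W1).toAffine.Point :=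
  vcPt (C.map A.subtype) (genFib_vc h)

theorem inE1_tr (h : C • W0 = W1) {P : (genFib W0).toAffine.Point} :
    InE1 (tr C h P) ↔ InE1 P := by
  rcases P with _ | ⟨x, y, hxy⟩
  · exact Iff.rfl
  · exact not_congr (vcX_mem_iff C x)

theorem inE0_tr (h : C • W0 = W1) {P : (genFib W0).toAffine.Point} :
    InE0 (tr C h P) ↔ InE0 P := by
  rcases P with _ | ⟨x, y, hxy⟩
  · exact Iff.rfl
  show InE0 (.some _ _ ((vc_nonsingular (genFib_vc h) x y).2 hxy)) ↔ _
  by_cases hx : x ∈ A
  · have hy := y_mem hxy.1 hx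
    have hX := (vcX_mem_iff C x).2 hx
    have hY : vcY (C.map A.subtype) x y ∈ A := by
      rw [vcY_coe C ⟨x, hx⟩ ⟨y, hy⟩]; exact SetLike.coe_mem _
    have eX : (⟨_, hX⟩ : A) = _ := Subtype.ext (vcX_coe C ⟨x, hx⟩)
    have eY : (⟨_, hY⟩ : A) = _ := Subtype.ext (vcY_coe C ⟨x, hx⟩ ⟨y, hy⟩)
    have key := vc_nonsingular (specFib_vc h) (residue A ⟨x, hx⟩) (residue A ⟨y, hy⟩)
    rw [vcX_res, vcY_res, ← eX, ← eY] at key
    constructor
    · rintro (h' | ⟨_, _, h'⟩)
      · exact absurd hX h'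
      · exact Or.inr ⟨hx, hy, key.1 h'⟩
    · rintro (h' | ⟨_, _, h'⟩)
      · exact absurd hx h'
      · exact Or.inr ⟨hX, hY, key.2 h'⟩
  · exact iff_of_true (Or.inl fun h' => hx ((vcX_mem_iff C x).1 h')) (Or.inl hx)

/-- `σ` preserves the valuation and acts trivially on the residue field -/
structure Inertial (A : ValuationSubring K) (σ : K →+* K) : Prop where
  val : ∀ z, A.valuation (σ z) = A.valuation z
  triv : ∀ z ∈ A, A.valuation (σ z - z) < 1

/-- `σ` fixes the coefficients -/
structure FixesCoeff (W0 : WeierstrassCurve A) (σ : K →+* K) : Prop where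
  h₁ : σ (W0.a₁ : K) = W0.a₁
  h₂ : σ (W0.a₂ : K) = W0.a₂
  h₃ : σ (W0.a₃ : K) = W0.a₃
  h₄ : σ (W0.a₄ : K) = W0.a₄
  h₆ : σ (W0.a₆ : K) = W0.a₆

/-- `P'` has the coordinates of `P` moved by `σ` -/
def IsImage (σ : K →+* K) {W : WeierstrassCurve K} (P P' : W.toAffine.Point) : Prop :=
  match P, P' with
  | .zero, .zero => True
  | .some x y _, .some x' y' _ => x' = σ x ∧ y' = σ y
  | _, _ => False

theorem Inertial.mem {σ : K →+* K} (hσ : Inertial A σ) {z : K} (hz : z ∈ A) : σ z ∈ A := by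
  rw [← A.valuation_le_one_iff, hσ.val]; exact val_le_one hz

theorem Inertial.val_sub_lt {σ : K →+* K} (hσ : Inertial A σ) {z c : K} (hc : σ c = c)
    (hc0 : c ≠ 0) (hz : A.valuation z ≤ A.valuation c) :
    A.valuation (σ z - z) < A.valuation c := by
  have hvc : A.valuation c ≠ 0 := by simpa using hc0
  have hm : z / c ∈ A := by
    rw [← A.valuation_le_one_iff, map_div₀]
    exact (div_le_one₀ (zero_lt_iff.2 hvc)).2 hz
  have h := hσ.triv _ hm
  rw [map_div₀, hc, ← sub_div, map_div₀, div_lt_one₀ (zero_lt_iff.2 hvc)] at h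
  exact h

theorem IsImage.tr {σ : K →+* K} (h : C • W0 = W1) (hu : σ ((C.u : A) : K) = (C.u : A))
    (hr : σ (C.r : K) = C.r) (hs : σ (C.s : K) = C.s) (ht : σ (C.t : K) = C.t)
    {P P' : (genFib W0).toAffine.Point} (hI : IsImage σ P P') :
    IsImage σ (tr C h P) (tr C h P') := by
  rcases P with _ | ⟨x, y, hxy⟩ <;> rcases P' with _ | ⟨x', y', hxy'⟩
  · trivial
  · exact hI.elim
  · exact hI.elim
  · obtain ⟨rfl, rfl⟩ := hI
    show vcX _ _ = σ (vcX _ _) ∧ vcY _ _ _ = σ (vcY _ _ _)
    have hu' : σ (((C.map A.subtype).u : K)) = ((C.map A.subtype).u : K) := hu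
    have hr' : σ ((C.map A.subtype).r) = (C.map A.subtype).r := hr
    have hs' : σ ((C.map A.subtype).s) = (C.map A.subtype).s := hs
    have ht' : σ ((C.map A.subtype).t) = (C.map A.subtype).t := ht
    simp only [vcX, vcY, Units.val_inv_eq_inv_val, map_mul, map_pow, map_sub, map_inv₀, hu', hr',
      hs', ht', and_self]

variable [IsAlgClosed K] [DecidableEq (ResidueField A)]

/-- inertia moves points of nonsingular reduction inside the kernel of reduction -/
theorem inertial_sub_inE1 {σ : K →+* K} (hσ : Inertial A σ)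
    {P P' : (genFib W0).toAffine.Point} (hI : IsImage σ P P') (hP : InE0 P) :
    InE1 (P' - P) := by
  suffices hP' : InE0 P' ∧ red P' = red P by
    have := inE0_add hP'.1 (inE0_neg hP)
    rw [sub_eq_add_neg]
    exact inE1_of_red_eq_zero this.1 (by rw [this.2, red_neg hP, hP'.2, add_neg_cancel])
  rcases P with _ | ⟨x, y, h⟩ <;> rcases P' with _ | ⟨x', y', h'⟩
  · exact ⟨trivial, rfl⟩
  · exact hI.elim
  · exact hI.elim
  obtain ⟨rfl, rfl⟩ := hI
  rcases hP with hx | ⟨hx, hy, hn⟩
  · have : InE1 (W0 := W0) (.some _ _ h') := by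
      show σ x ∉ A
      rw [← A.valuation_le_one_iff, hσ.val, A.valuation_le_one_iff]; exact hx
    exact ⟨this.inE0, by rw [this.red_eq, InE1.red_eq (show InE1 (.some _ _ h) from hx)]⟩
  · have hx' := hσ.mem hx
    have hy' := hσ.mem hy
    have ex : residue A ⟨σ x, hx'⟩ = residue A ⟨x, hx⟩ := res_eq_res.2 (hσ.triv x hx)
    have ey : residue A ⟨σ y, hy'⟩ = residue A ⟨y, hy⟩ := res_eq_res.2 (hσ.triv y hy)
    have hn' : (specFib W0).toAffine.Nonsingular (residue A ⟨σ x, hx'⟩) (residue A ⟨σ y, hy'⟩) := by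
      rwa [ex, ey]
    refine ⟨Or.inr ⟨hx', hy', hn'⟩, ?_⟩
    rw [red_some hx' hy' hn', red_some hx hy hn]
    simp [ex, ey]

end FLTAgent.Local
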