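import Mathlib
import Fermat.Agent.Local.Transfer

/-!
Nodal models: the component of a point is read off from the valuation of its abscissa.
-/

set_option autoImplicit false
set_option linter.all false

noncomputable section

namespace FLTAgent.Local

open WeierstrassCurve IsLocalRing

section ordered

variable {G : Type*} [LinearOrderedCommGroupWithZero G]

/-- equality up to sign in `G` modulo powers of `δ` -/
def Cls (δ a b : G) : Prop := ∃ k : ℤ, a = b * δ ^ k ∨ a * b = δ ^ k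

variable {δ a b c : G}

theorem Cls.refl (δ a : G) : Cls δ a a := ⟨0, Or.inl (by simp)⟩

theorem Cls.symm (hδ : δ ≠ 0) (h : Cls δ a b) : Cls δ b a := by
  obtain ⟨k, hk | hk⟩ := h
  · refine ⟨-k, Or.inl ?_⟩
    rw [hk, mul_assoc, ← zpow_add₀ hδ, add_neg_cancel, zpow_zero, mul_one]
  · exact ⟨k, Or.inr (by rw [mul_comm, hk])⟩

theorem Cls.trans (hδ : δ ≠ 0) (h : Cls δ a b) (h' : Cls δ b c) : Cls δ a c := by
  obtain ⟨k, hk | hk⟩ := h <;> obtain ⟨l, hl | hl⟩ := h'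
  · exact ⟨l + k, Or.inl (by rw [hk, hl, zpow_add₀ hδ, mul_assoc])⟩
  · exact ⟨l + k, Or.inr (by rw [hk, mul_right_comm, hl, zpow_add₀ hδ])⟩
  · refine ⟨k - l, Or.inr ?_⟩
    rw [hl] at hk
    rw [zpow_sub₀ hδ, ← hk, eq_div_iff (zpow_ne_zero l hδ), mul_assoc]
  · refine ⟨k - l, Or.inl ?_⟩
    have hb : b ≠ 0 := fun e => zpow_ne_zero l hδ (by rw [← hl, e, zero_mul])
    have hc : c ≠ 0 := fun e => zpow_ne_zero l hδ (by rw [← hl, e, mul_zero])
    rw [zpow_sub₀ hδ, ← hk, ← hl]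
    field_simp

theorem cls_step (hδ : δ ≠ 0) {X Y z Dp Dm : G} (hX : X ≠ 0) (hY : Cls δ Y z)
    (hm : Cls δ Dm (z / X))
    (h : (Cls δ Dp (X * Y) ∧ Cls δ Dm (X / Y)) ∨ (Cls δ Dp (X / Y) ∧ Cls δ Dm (X * Y))) :
    Cls δ Dp (z * X) := by
  obtain ⟨k, hk⟩ := hY
  have hpair : (Cls δ (X * Y) (z * X) ∧ Cls δ (X / Y) (z / X)) ∨
      (Cls δ (X * Y) (z / X) ∧ Cls δ (X / Y) (z * X)) := by
    rcases hk with hk | hk
    · by_cases hz : z = 0
      · subst hz; subst hk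
        exact Or.inl ⟨⟨0, Or.inl (by simp)⟩, ⟨0, Or.inl (by simp)⟩⟩
      refine Or.inl ⟨⟨k, Or.inl (by rw [hk]; simp [mul_comm, mul_left_comm, mul_assoc])⟩,
        ⟨-k, Or.inr ?_⟩⟩
      rw [hk, zpow_neg]
      field_simp
    · have hz : z ≠ 0 := fun e => zpow_ne_zero k hδ (by rw [← hk, e, mul_zero])
      have hY0 : Y ≠ 0 := fun e => zpow_ne_zero k hδ (by rw [← hk, e, zero_mul])
      refine Or.inr ⟨⟨k, Or.inr ?_⟩, ⟨-k, Or.inl ?_⟩⟩
      · rw [← hk]; field_simp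
      · rw [zpow_neg, ← hk]; field_simp
  rcases h with ⟨h1, h2⟩ | ⟨h1, h2⟩ <;> rcases hpair with ⟨e1, e2⟩ | ⟨e1, e2⟩
  · exact h1.trans hδ e1
  · exact (h1.trans hδ e1).trans hδ ((hm.symm hδ).trans hδ (h2.trans hδ e2))
  · exact (h1.trans hδ e2).trans hδ ((hm.symm hδ).trans hδ (h2.trans hδ e1))
  · exact h1.trans hδ e2

end ordered

variable {K : Type*} [Field K] {A : ValuationSubring K}

/-- the node is at the origin and both partial derivatives there vanish exactly -/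
structure Nodal (W0 : WeierstrassCurve A) : Prop where
  a₃ : W0.a₃ = 0
  a₄ : W0.a₄ = 0
  a₆ : A.valuation (W0.a₆ : K) < 1
  b₂ : A.valuation (W0.b₂ : K) = 1

/-- the valuation of the singular coordinate, clamped at 1 -/
def dist1 {W0 : WeierstrassCurve A} (P : (genFib W0).toAffine.Point) : A.ValueGroup :=
  match P with
  | .zero => 1
  | .some x _ _ => if A.valuation x < 1 then A.valuation x else 1

variable {W0 : WeierstrassCurve A}

theorem dist1_neg (P : (genFib W0).toAffine.Point) : dist1 (-P) = dist1 P := by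
  rcases P with _ | ⟨x, y, h⟩ <;> rfl

theorem exists_of_dist1_lt {P : (genFib W0).toAffine.Point} (h : dist1 P < 1) :
    ∃ (x y : A) (hns : (genFib W0).toAffine.Nonsingular (x : K) y),
      P = .some _ _ hns ∧ dist1 P = A.valuation (x : K) ∧ A.valuation (x : K) < 1 := by
  rcases P with _ | ⟨x, y, hxy⟩
  · exact absurd h (lt_irrefl 1)
  · simp only [dist1] at h
    split_ifs at h with hx
    · have hxA := (A.valuation_le_one_iff x).1 hx.le
      exact ⟨⟨x, hxA⟩, ⟨y, y_mem hxy.1 hxA⟩, hxy, rfl, by simp [dist1, hx], hx⟩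
    · exact absurd h (lt_irrefl 1)

namespace Nodal

theorem equation (hW : Nodal W0) {x y : K} (h : (genFib W0).toAffine.Equation x y) :
    y ^ 2 + W0.a₁ * x * y = x ^ 3 + W0.a₂ * x ^ 2 + W0.a₆ := by
  rw [Affine.equation_iff, genFib_a₁, genFib_a₂, genFib_a₃, genFib_a₄, genFib_a₆, hW.a₃,
    hW.a₄] at h
  push_cast at h
  linear_combination h

theorem coe_b₂ : ((W0.b₂ : A) : K) = (W0.a₁ : K) ^ 2 + 4 * (W0.a₂ : K) := by
  have : (genFib W0).b₂ = ((W0.b₂ : A) : K) := map_b₂ W0 A.subtype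
  rw [← this]; rfl

theorem psi_sq (hW : Nodal W0) {x y : K} (h : (genFib W0).toAffine.Equation x y) :
    (2 * y + W0.a₁ * x) ^ 2 = 4 * x ^ 3 + W0.b₂ * x ^ 2 + 4 * W0.a₆ := by
  rw [coe_b₂]; linear_combination 4 * hW.equation h

theorem inE0_iff (hW : Nodal W0) {P : (genFib W0).toAffine.Point} :
    InE0 P ↔ ¬ dist1 P < 1 := by
  rcases P with _ | ⟨x, y, h⟩
  · exact iff_of_true trivial (lt_irrefl 1)
  by_cases hx : x ∈ A
  swap
  · refine iff_of_true (Or.inl hx) ?_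
    simp only [dist1]
    rw [if_neg fun h' => hx ((A.valuation_le_one_iff x).1 h'.le)]
    exact lt_irrefl 1
  have hy := y_mem h.1 hx
  set X : A := ⟨x, hx⟩
  set Y : A := ⟨y, hy⟩
  have he : (residue A Y) ^ 2 + residue A W0.a₁ * residue A X * residue A Y =
      residue A X ^ 3 + residue A W0.a₂ * residue A X ^ 2 := by
    have := congrArg (residue A) (show Y ^ 2 + W0.a₁ * X * Y =
      X ^ 3 + W0.a₂ * X ^ 2 + W0.a₆ from Subtype.ext (hW.equation h.1))
    simpa [res_eq_zero.2 hW.a₆] using this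
  by_cases hv : A.valuation x < 1
  · refine iff_of_false ?_ (by simp [dist1, hv])
    rintro (h' | ⟨_, _, h'⟩)
    · exact h' hx
    · have hX0 : residue A X = 0 := res_eq_zero.2 hv
      have hY0 : residue A Y = 0 := by
        rw [hX0] at he; simpa using he
      have hh := h'.2
      rw [Affine.evalEval_polynomialX, Affine.evalEval_polynomialY] at hh
      change (specFib W0).a₁ * residue A Y - (3 * residue A X ^ 2 +
          2 * (specFib W0).a₂ * residue A X + (specFib W0).a₄) ≠ 0 ∨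
        2 * residue A Y + (specFib W0).a₁ * residue A X + (specFib W0).a₃ ≠ 0 at hh
      simp [hX0, hY0, specFib, hW.a₃, hW.a₄] at hh
  · refine iff_of_true (Or.inr ⟨hx, hy, equation_res (x := X) (y := Y) h.1, ?_⟩)
      (by simp [dist1, hv])
    rw [Affine.evalEval_polynomialX, Affine.evalEval_polynomialY]
    simp only [WeierstrassCurve.toAffine, map_a₁, map_a₂, map_a₃, map_a₄, hW.a₃, hW.a₄,
      map_zero, add_zero]
    change residue A W0.a₁ * residue A Y -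
      (3 * residue A X ^ 2 + 2 * residue A W0.a₂ * residue A X) ≠ 0 ∨
      2 * residue A Y + residue A W0.a₁ * residue A X ≠ 0
    by_contra hh
    push Not at hh
    obtain ⟨e1, e2⟩ := hh
    have hX : residue A X ≠ 0 := fun e => hv (res_eq_zero.1 e)
    have hb : residue A W0.b₂ ≠ 0 := res_ne_zero.2 hW.b₂
    have hb' : residue A W0.b₂ = residue A W0.a₁ ^ 2 + 4 * residue A W0.a₂ := by
      simp [WeierstrassCurve.b₂, map_ofNat]
    have f1 : residue A X ^ 2 * (4 * residue A X + residue A W0.b₂) = 0 := by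
      rw [hb']; linear_combination
        (2 * residue A Y + residue A W0.a₁ * residue A X) * e2 - 4 * he
    have f2 : residue A X * (6 * residue A X + residue A W0.b₂) = 0 := by
      rw [hb']; linear_combination residue A W0.a₁ * e2 - 2 * e1
    have g1 := (mul_eq_zero.1 f1).resolve_left (pow_ne_zero 2 hX)
    have g2 := (mul_eq_zero.1 f2).resolve_left hX
    exact hb (by linear_combination 3 * g1 - 2 * g2)

section ops

variable [DecidableEq K] [CharZero K]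

/-- valuation of `t - Q u` for a unit `u` -/
theorem val_num (hW : Nodal W0) {t s : K} (hs : A.valuation s < 1) :
    A.valuation (t - W0.a₆ * (s + W0.b₂)) ≤ max (A.valuation t) (A.valuation (W0.a₆ : K)) ∧
      (A.valuation t ≠ A.valuation (W0.a₆ : K) →
        A.valuation (t - W0.a₆ * (s + W0.b₂)) =
          max (A.valuation t) (A.valuation (W0.a₆ : K))) := by
  have e : A.valuation ((W0.a₆ : K) * (s + W0.b₂)) = A.valuation (W0.a₆ : K) := by
    rw [map_mul, Valuation.map_add_eq_of_lt_right, hW.b₂, mul_one]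
    rwa [hW.b₂]
  refine ⟨(A.valuation.map_sub _ _).trans (by rw [e]), fun hne => ?_⟩
  rw [sub_eq_add_neg, Valuation.map_add_of_distinct_val _ (by rwa [Valuation.map_neg, e]),
    Valuation.map_neg, e]

theorem val_four_le : A.valuation (4 : K) ≤ 1 := by
  simpa using A.valuation_le_one (4 : A)

theorem val_two_le : A.valuation (2 : K) ≤ 1 := by
  simpa using A.valuation_le_one (2 : A)

theorem val_psi (hW : Nodal W0) {x y : K} (h : (genFib W0).toAffine.Equation x y)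
    (hx : A.valuation x < 1) (hδ : A.valuation (W0.a₆ : K) < A.valuation x ^ 2) :
    A.valuation (2 * y + W0.a₁ * x) = A.valuation x := by
  have hX : A.valuation x ≠ 0 := by
    intro e; rw [e, zero_pow two_ne_zero] at hδ; exact not_lt_zero' hδ
  have h2 : A.valuation ((2 * y + W0.a₁ * x) ^ 2) = A.valuation x ^ 2 := by
    have e : A.valuation ((W0.b₂ : K) * x ^ 2) = A.valuation x ^ 2 := by
      rw [map_mul, hW.b₂, one_mul, map_pow]
    rw [hW.psi_sq h, show 4 * x ^ 3 + (W0.b₂ : K) * x ^ 2 + 4 * W0.a₆ =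
      (W0.b₂ : K) * x ^ 2 + (4 * x ^ 3 + 4 * W0.a₆) by ring,
      Valuation.map_add_eq_of_lt_left, e]
    rw [e]
    refine Valuation.map_add_lt _ ?_ ?_
    · rw [map_mul, map_pow, pow_succ]
      calc A.valuation 4 * (A.valuation x ^ 2 * A.valuation x)
          ≤ 1 * (A.valuation x ^ 2 * A.valuation x) := mul_le_mul_left val_four_le _
        _ < A.valuation x ^ 2 := by
            rw [one_mul]
            exact mul_lt_of_lt_one_right (pow_pos (zero_lt_iff.2 hX) 2) hx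
    · rw [map_mul]
      exact lt_of_le_of_lt (mul_le_of_le_one_left' val_four_le) hδ
  rw [map_pow] at h2
  exact (pow_left_inj₀ zero_le zero_le two_ne_zero).1 h2

theorem addX_self (hW : Nodal W0) {x y : K} (h : (genFib W0).toAffine.Equation x y)
    (hy : y ≠ (genFib W0).toAffine.negY x y) :
    (genFib W0).toAffine.addX x x ((genFib W0).toAffine.slope x x y y) *
      (2 * y + W0.a₁ * x) ^ 2 = x ^ 4 - W0.a₆ * (8 * x + W0.b₂) := by
  have hd : (2 : K) * y + W0.a₁ * x ≠ 0 := by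
    intro e; apply hy
    simp only [Affine.negY, WeierstrassCurve.toAffine, genFib_a₁, genFib_a₃, hW.a₃]
    push_cast; linear_combination e
  rw [Affine.slope_of_Y_ne rfl hy, coe_b₂]
  simp only [Affine.addX, Affine.negY, WeierstrassCurve.toAffine, genFib_a₁, genFib_a₂,
    genFib_a₃, genFib_a₄, hW.a₃, hW.a₄]
  push_cast
  rw [show y - (-y - (W0.a₁ : K) * x - 0) = 2 * y + W0.a₁ * x by ring]
  have e := hW.equation h
  have key : ∀ N D : K, D ≠ 0 → ((N / D) ^ 2 + (W0.a₁ : K) * (N / D) - W0.a₂ - x - x) * D ^ 2 =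
      N ^ 2 + W0.a₁ * N * D - (W0.a₂ + 2 * x) * D ^ 2 := fun N D hD => by field_simp; ring
  rw [key _ _ hd]
  linear_combination (-(W0.a₁ : K) ^ 2 - 4 * W0.a₂ - 8 * x) * e

theorem vieta (hW : Nodal W0) {x₁ y₁ x₂ y₂ : K} (h₁ : (genFib W0).toAffine.Equation x₁ y₁)
    (h₂ : (genFib W0).toAffine.Equation x₂ y₂) (hx : x₁ ≠ x₂) :
    let xp := (genFib W0).toAffine.addX x₁ x₂ ((genFib W0).toAffine.slope x₁ x₂ y₁ y₂)
    let xm := (genFib W0).toAffine.addX x₁ x₂
      ((genFib W0).toAffine.slope x₁ x₂ y₁ ((genFib W0).toAffine.negY x₂ y₂))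
    (xp + xm) * (x₁ - x₂) ^ 2 =
        2 * x₁ * x₂ * (x₁ + x₂) + W0.b₂ * x₁ * x₂ + 4 * W0.a₆ ∧
      xp * xm * (x₁ - x₂) ^ 2 = (x₁ * x₂) ^ 2 - W0.a₆ * (4 * (x₁ + x₂) + W0.b₂) := by
  intro xp xm
  have e1 := hW.equation h₁
  have e2 := hW.equation h₂
  have hd : x₁ - x₂ ≠ 0 := sub_ne_zero.2 hx
  simp only [xp, xm, Affine.slope_of_X_ne hx, Affine.addX, Affine.negY, WeierstrassCurve.toAffine,
    genFib_a₁, genFib_a₂, genFib_a₃, hW.a₃, coe_b₂]
  push_cast
  have hp : ∀ z, ((y₁ - z) / (x₁ - x₂)) ^ 2 + (W0.a₁ : K) * ((y₁ - z) / (x₁ - x₂)) - W0.a₂ -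
      x₁ - x₂ = ((y₁ - z) ^ 2 + (W0.a₁ : K) * (y₁ - z) * (x₁ - x₂) -
        (W0.a₂ + x₁ + x₂) * (x₁ - x₂) ^ 2) / (x₁ - x₂) ^ 2 := fun z => by field_simp; ring
  rw [hp, hp]
  constructor
  · field_simp
    linear_combination 2 * e1 + 2 * e2
  · have hS : ((y₁ - y₂) ^ 2 + (W0.a₁ : K) * (y₁ - y₂) * (x₁ - x₂) -
          (W0.a₂ + x₁ + x₂) * (x₁ - x₂) ^ 2) * 2 =
        2 * x₁ * x₂ * (x₁ + x₂) + ((W0.a₁ : K) ^ 2 + 4 * W0.a₂) * x₁ * x₂ + 4 * W0.a₆ -
          (2 * y₁ + W0.a₁ * x₁) * (2 * y₂ + W0.a₁ * x₂) := by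
      linear_combination 2 * e1 + 2 * e2
    have hS' : ((y₁ - (-y₂ - (W0.a₁ : K) * x₂ - 0)) ^ 2 +
          (W0.a₁ : K) * (y₁ - (-y₂ - (W0.a₁ : K) * x₂ - 0)) * (x₁ - x₂) -
          (W0.a₂ + x₁ + x₂) * (x₁ - x₂) ^ 2) * 2 =
        2 * x₁ * x₂ * (x₁ + x₂) + ((W0.a₁ : K) ^ 2 + 4 * W0.a₂) * x₁ * x₂ + 4 * W0.a₆ +
          (2 * y₁ + W0.a₁ * x₁) * (2 * y₂ + W0.a₁ * x₂) := by
      linear_combination 2 * e1 + 2 * e2
    have p1 := hW.psi_sq h₁
    have p2 := hW.psi_sq h₂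
    rw [coe_b₂] at p1 p2
    rw [div_mul_div_comm, div_mul_eq_mul_div, div_eq_iff
      (mul_ne_zero (pow_ne_zero 2 hd) (pow_ne_zero 2 hd))]
    apply mul_left_cancel₀ (show (4 : K) * 1 ≠ 0 by norm_num)
    linear_combination
      ((x₁ - x₂) ^ 2 * (2 * ((y₁ - (-y₂ - (W0.a₁ : K) * x₂ - 0)) ^ 2 +
          (W0.a₁ : K) * (y₁ - (-y₂ - (W0.a₁ : K) * x₂ - 0)) * (x₁ - x₂) -
          (W0.a₂ + x₁ + x₂) * (x₁ - x₂) ^ 2))) * hS +
      ((x₁ - x₂) ^ 2 * (2 * x₁ * x₂ * (x₁ + x₂) + ((W0.a₁ : K) ^ 2 + 4 * W0.a₂) * x₁ * x₂ +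
          4 * W0.a₆ - (2 * y₁ + W0.a₁ * x₁) * (2 * y₂ + W0.a₁ * x₂))) * hS' -
      ((x₁ - x₂) ^ 2 * (2 * y₂ + W0.a₁ * x₂) ^ 2) * p1 -
      ((x₁ - x₂) ^ 2 * (4 * x₁ ^ 3 + ((W0.a₁ : K) ^ 2 + 4 * W0.a₂) * x₁ ^ 2 + 4 * W0.a₆)) * p2

end ops

end Nodal

end FLTAgent.Local
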