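import Mathlib
import Fermat.Agent.Local.Nodal

/-!
Components of torsion points on nodal models.
-/

set_option autoImplicit false
set_option linter.all false

noncomputable section

namespace FLTAgent.Local

open WeierstrassCurve IsLocalRing

variable {K : Type*} [Field K] {A : ValuationSubring K}

theorem val_split {a b : K} {S : A.ValueGroup} (hS : A.valuation (a + b) = S)
    (hP : A.valuation a * A.valuation b < S ^ 2) :
    (A.valuation a = S ∧ A.valuation b < S) ∨ (A.valuation b = S ∧ A.valuation a < S) := by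
  rcases lt_trichotomy (A.valuation a) (A.valuation b) with h | h | h
  · right
    have := Valuation.map_add_eq_of_lt_right A.valuation h
    rw [hS] at this
    exact ⟨this.symm, this ▸ h⟩
  · exfalso
    have hle : S ≤ A.valuation a := hS ▸ (A.valuation.map_add a b).trans (by rw [h, max_self])
    rw [← h, ← sq] at hP
    exact absurd (pow_le_pow_left₀ zero_le hle 2) (not_le.2 hP)
  · left
    have := Valuation.map_add_eq_of_lt_left A.valuation h
    rw [hS] at this
    exact ⟨this.symm, this ▸ h⟩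

variable [DecidableEq K] [CharZero K] [IsAlgClosed K] [DecidableEq (ResidueField A)]
  {W0 : WeierstrassCurve A}

/-- `P` is not on the middle component -/
def NonMid (P : (genFib W0).toAffine.Point) : Prop :=
  dist1 P < 1 → A.valuation (W0.a₆ : K) < dist1 P ^ 2

/-- the second value attached to a pair -/
def Outer (δ X Y d : A.ValueGroup) : Prop := d < 1 ∧ (d = X * Y ∨ d * (X * Y) = δ)

namespace Nodal

theorem double_middle (hW : Nodal W0) {P : (genFib W0).toAffine.Point} (h1 : dist1 P < 1)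
    (h2 : dist1 P ^ 2 ≤ A.valuation (W0.a₆ : K)) : InE0 (P + P) := by
  obtain ⟨x, y, h, rfl, hd, hx⟩ := exists_of_dist1_lt h1
  rw [hd] at h2
  by_cases hδ : A.valuation (W0.a₆ : K) = 0
  · exfalso
    rw [hδ, le_zero_iff, pow_eq_zero_iff two_ne_zero, map_eq_zero] at h2
    have hQ : (W0.a₆ : K) = 0 := (map_eq_zero _).1 hδ
    have hy : (y : K) = 0 := by
      have := hW.equation h.1; rw [h2, hQ] at this; simpa using this
    have := h.2
    rw [Affine.evalEval_polynomialX, Affine.evalEval_polynomialY] at this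
    simp [WeierstrassCurve.toAffine, h2, hy, hW.a₃, hW.a₄] at this
  by_cases hy : (y : K) = (genFib W0).toAffine.negY (x : K) y
  · rw [Affine.Point.add_self_of_Y_eq hy]; trivial
  rw [Affine.Point.add_self_of_Y_ne hy, hW.inE0_iff]
  simp only [dist1]
  split_ifs with hlt
  · exfalso
    set t := (genFib W0).toAffine.addX (x : K) x ((genFib W0).toAffine.slope (x : K) x y y)
    have e := congrArg A.valuation (hW.addX_self h.1 hy)
    rw [map_mul, map_pow] at e
    have h8 : A.valuation ((8 : K) * x) < 1 := by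
      rw [map_mul]
      exact lt_of_le_of_lt (mul_le_of_le_one_left' (by simpa using A.valuation_le_one (8 : A))) hx
    have hx4 : A.valuation ((x : K) ^ 4) < A.valuation (W0.a₆ : K) := by
      rw [map_pow, show (A.valuation (x : K)) ^ 4 = (A.valuation (x : K) ^ 2) ^ 2 by
        rw [← pow_mul]]
      calc (A.valuation (x : K) ^ 2) ^ 2 ≤ A.valuation (W0.a₆ : K) ^ 2 :=
            pow_le_pow_left₀ zero_le h2 2
        _ < A.valuation (W0.a₆ : K) := by
            rw [sq]; exact mul_lt_of_lt_one_right (zero_lt_iff.2 hδ) hW.a₆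
    have hnum := (hW.val_num (t := (x : K) ^ 4) h8).2 hx4.ne
    rw [max_eq_right hx4.le] at hnum
    rw [hnum] at e
    have hψ : A.valuation (2 * (y : K) + W0.a₁ * x) ^ 2 ≤ A.valuation (W0.a₆ : K) := by
      rw [← map_pow, hW.psi_sq h.1]
      refine Valuation.map_add_le _ (Valuation.map_add_le _ ?_ ?_) ?_
      · rw [map_mul, map_pow]
        refine (mul_le_of_le_one_left' val_four_le).trans (le_trans ?_ h2)
        exact pow_le_pow_right_of_le_one' hx.le (by norm_num)
      · rw [map_mul, map_pow, hW.b₂, one_mul]; exact h2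
      · rw [map_mul]; exact mul_le_of_le_one_left' val_four_le
    have := mul_lt_of_lt_one_left (zero_lt_iff.2 (right_ne_zero_of_mul (e ▸ hδ))) hlt
    exact absurd e (lt_of_lt_of_le this hψ).ne
  · exact lt_irrefl 1

theorem outer_eq (hδ : A.valuation (W0.a₆ : K) < 1) {X Y b : A.ValueGroup} (hX : X < 1) (hY : Y < 1)
    (hYX : Y ≤ X) (hYδ : A.valuation (W0.a₆ : K) < Y ^ 2)
    (hb : b * (X * Y) ≤ max ((X * Y) ^ 2) (A.valuation (W0.a₆ : K)))
    (hb' : (X * Y) ^ 2 ≠ A.valuation (W0.a₆ : K) →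
      b * (X * Y) = max ((X * Y) ^ 2) (A.valuation (W0.a₆ : K)))
    (hmid : b < 1 → A.valuation (W0.a₆ : K) < b ^ 2) :
    Outer (A.valuation (W0.a₆ : K)) X Y b := by
  have hY0 : Y ≠ 0 := fun e => by rw [e, zero_pow two_ne_zero] at hYδ; exact not_lt_zero' hYδ
  have hX0 : X ≠ 0 := (lt_of_lt_of_le (zero_lt_iff.2 hY0) hYX).ne'
  have hXY : X * Y ≠ 0 := mul_ne_zero hX0 hY0
  have hXY1 : X * Y < 1 := mul_lt_one_of_nonneg_of_lt_one_left zero_le hX hY.le
  rcases lt_trichotomy ((X * Y) ^ 2) (A.valuation (W0.a₆ : K)) with h | h | h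
  · have e := hb' h.ne
    rw [max_eq_right h.le] at e
    refine ⟨?_, Or.inr e⟩
    have h2 : A.valuation (W0.a₆ : K) < X * Y :=
      lt_of_lt_of_le hYδ (by rw [sq]; exact mul_le_mul_left hYX _)
    rw [← e] at h2
    by_contra hb1
    exact absurd (le_mul_of_one_le_left zero_le (not_lt.1 hb1)) (not_le.2 h2)
  · exfalso
    rw [h, max_self] at hb
    have hle : b ≤ X * Y := by
      by_contra hlt
      push Not at hlt
      have := mul_lt_mul_of_pos_right hlt (zero_lt_iff.2 hXY)
      rw [← sq, h] at this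
      exact absurd hb (not_le.2 this)
    have hb1 : b < 1 := lt_of_le_of_lt hle hXY1
    have := hmid hb1
    rw [← h] at this
    exact absurd (pow_le_pow_left₀ zero_le hle 2) (not_le.2 this)
  · have e := hb' h.ne'
    rw [max_eq_left h.le, sq] at e
    have := mul_right_cancel₀ hXY e
    exact ⟨this ▸ hXY1, Or.inl this⟩

theorem double_pair (hW : Nodal W0) {P : (genFib W0).toAffine.Point} (h1 : dist1 P < 1)
    (hP : NonMid P) (h2 : NonMid (P + P)) :
    Outer (A.valuation (W0.a₆ : K)) (dist1 P) (dist1 P) (dist1 (P + P)) := by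
  have hδX := hP h1
  obtain ⟨x, y, h, rfl, hd, hx⟩ := exists_of_dist1_lt h1
  rw [hd] at hδX ⊢
  have hψ := hW.val_psi h.1 hx hδX
  have hX0 : A.valuation (x : K) ≠ 0 := fun e => by
    rw [e, zero_pow two_ne_zero] at hδX; exact not_lt_zero' hδX
  have hy : (y : K) ≠ (genFib W0).toAffine.negY (x : K) y := by
    intro e
    apply hX0
    rw [← hψ, show 2 * (y : K) + (W0.a₁ : K) * x = 0 by
      simp only [Affine.negY, WeierstrassCurve.toAffine, genFib_a₁, genFib_a₃, hW.a₃] at e
      push_cast at e; linear_combination e, map_zero]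
  rw [Affine.Point.add_self_of_Y_ne hy] at h2 ⊢
  set t := (genFib W0).toAffine.addX (x : K) x ((genFib W0).toAffine.slope (x : K) x y y) with ht
  have e := congrArg A.valuation (hW.addX_self h.1 hy)
  rw [map_mul, map_pow, hψ] at e
  have h8 : A.valuation ((8 : K) * x) < 1 := by
    rw [map_mul]
    exact lt_of_le_of_lt (mul_le_of_le_one_left' (by simpa using A.valuation_le_one (8 : A))) hx
  obtain ⟨n1, n2⟩ := hW.val_num (t := (x : K) ^ 4) h8
  rw [← e, map_pow, show A.valuation (x : K) ^ 4 = (A.valuation (x : K) * A.valuation (x : K)) ^ 2 by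
    rw [← sq, ← pow_mul], sq (A.valuation (x : K))] at n1 n2
  have ht1 : A.valuation t < 1 := by
    by_contra hge
    push Not at hge
    have hle : A.valuation (x : K) * A.valuation (x : K) ≤
        max ((A.valuation (x : K) * A.valuation (x : K)) ^ 2) (A.valuation (W0.a₆ : K)) :=
      (le_mul_of_one_le_left zero_le hge).trans n1
    have hpos : 0 < A.valuation (x : K) * A.valuation (x : K) :=
      zero_lt_iff.2 (mul_ne_zero hX0 hX0)
    rcases le_max_iff.1 hle with hh | hh
    · rw [sq] at hh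
      exact absurd hh (not_le.2 (mul_lt_of_lt_one_right hpos
        (mul_lt_one_of_nonneg_of_lt_one_left zero_le hx hx.le)))
    · rw [← sq] at hh; exact absurd hδX (not_lt.2 hh)
  have hdt : dist1 (Affine.Point.some _ _ (Affine.nonsingular_add h h fun hxy => hy hxy.right)) =
      A.valuation t := by simp only [dist1]; rw [← ht, if_pos ht1]
  rw [hdt]
  exact outer_eq hW.a₆ hx hx le_rfl hδX n1 n2 (fun hlt => by have := h2; rw [NonMid, hdt] at this; exact this hlt)

theorem pair (hW : Nodal W0) {P Q : (genFib W0).toAffine.Point} (hP : dist1 P < 1)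
    (hQ : dist1 Q < 1) (hQP : dist1 Q ≤ dist1 P) (nQ : NonMid Q) (n₁ : NonMid (P + Q))
    (n₂ : NonMid (P - Q)) :
    (dist1 (P + Q) = dist1 Q / dist1 P ∧
        Outer (A.valuation (W0.a₆ : K)) (dist1 P) (dist1 Q) (dist1 (P - Q))) ∨
      (dist1 (P - Q) = dist1 Q / dist1 P ∧
        Outer (A.valuation (W0.a₆ : K)) (dist1 P) (dist1 Q) (dist1 (P + Q))) := by
  have hδY := nQ hQ
  have hY0 : dist1 Q ≠ 0 := fun e => by
    rw [e, zero_pow two_ne_zero] at hδY; exact not_lt_zero' hδY
  obtain ⟨x₁, y₁, h₁, rfl, hd₁, hx₁⟩ := exists_of_dist1_lt hP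
  obtain ⟨x₂, y₂, h₂, rfl, hd₂, hx₂⟩ := exists_of_dist1_lt hQ
  by_cases hx : (x₁ : K) = x₂
  · have hXY : dist1 (Affine.Point.some _ _ h₁) = dist1 (Affine.Point.some _ _ h₂) := by
      rw [hd₁, hd₂, hx]
    rw [hXY]
    rcases (Affine.Point.X_eq_iff (h₁ := h₁) (h₂ := h₂)).1 hx with e | e
    · right
      rw [e] at n₁
      rw [e, sub_self]
      exact ⟨by rw [div_self hY0]; rfl, hW.double_pair hQ nQ n₁⟩
    · left
      rw [e] at n₂
      rw [e, neg_add_cancel, show -Affine.Point.some _ _ h₂ - Affine.Point.some _ _ h₂ =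
        -(Affine.Point.some _ _ h₂ + Affine.Point.some _ _ h₂) by abel, dist1_neg]
      rw [show -Affine.Point.some _ _ h₂ - Affine.Point.some _ _ h₂ =
        -(Affine.Point.some _ _ h₂ + Affine.Point.some _ _ h₂) by abel] at n₂
      refine ⟨by rw [div_self hY0]; rfl, hW.double_pair hQ nQ ?_⟩
      intro hlt
      have := n₂ (by rw [dist1_neg]; exact hlt)
      rwa [dist1_neg] at this
  rw [hd₂] at hQ hQP hδY hY0
  rw [hd₁] at hP hQP
  rw [hd₁, hd₂]
  set xp := (genFib W0).toAffine.addX (x₁ : K) x₂ ((genFib W0).toAffine.slope (x₁ : K) x₂ y₁ y₂)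
  set xm := (genFib W0).toAffine.addX (x₁ : K) x₂ ((genFib W0).toAffine.slope (x₁ : K) x₂ y₁
    ((genFib W0).toAffine.negY (x₂ : K) y₂))
  obtain ⟨hsum, hprod⟩ := hW.vieta h₁.1 h₂.1 hx
  have dp : dist1 (Affine.Point.some _ _ h₁ + Affine.Point.some _ _ h₂) =
      if A.valuation xp < 1 then A.valuation xp else 1 := by
    rw [Affine.Point.add_of_X_ne hx]; rfl
  have dm : dist1 (Affine.Point.some _ _ h₁ - Affine.Point.some _ _ h₂) =
      if A.valuation xm < 1 then A.valuation xm else 1 := by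
    rw [sub_eq_add_neg, Affine.Point.neg_some, Affine.Point.add_of_X_ne hx]; rfl
  rw [NonMid, dp] at n₁
  rw [NonMid, dm] at n₂
  rw [dp, dm]
  set X := A.valuation (x₁ : K) with hXdef
  set Y := A.valuation (x₂ : K) with hYdef
  set δ := A.valuation (W0.a₆ : K) with hδdef
  have hX0 : X ≠ 0 := (lt_of_lt_of_le (zero_lt_iff.2 hY0) hQP).ne'
  have hd0 : (x₁ : K) - x₂ ≠ 0 := sub_ne_zero.2 hx
  set d := A.valuation ((x₁ : K) - x₂) with hddef
  have hdX : d ≤ X := (A.valuation.map_sub _ _).trans (max_le le_rfl hQP)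
  have hdne : d ≠ 0 := (Valuation.ne_zero_iff _).2 hd0
  have hδXY : δ < X * Y := lt_of_lt_of_le hδY (by rw [sq]; exact mul_le_mul_left hQP _)
  have hS : A.valuation (xp + xm) = X * Y / d ^ 2 := by
    rw [eq_div_iff (pow_ne_zero 2 hdne), hddef, ← map_pow, ← map_mul, hsum]
    have e : A.valuation ((W0.b₂ : K) * x₁ * x₂) = X * Y := by
      rw [map_mul, map_mul, hW.b₂, one_mul]
    rw [show 2 * (x₁ : K) * x₂ * (x₁ + x₂) + (W0.b₂ : K) * x₁ * x₂ + 4 * W0.a₆ =
      (W0.b₂ : K) * x₁ * x₂ + (2 * x₁ * x₂ * (x₁ + x₂) + 4 * W0.a₆) by ring,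
      Valuation.map_add_eq_of_lt_left, e]
    rw [e]
    refine Valuation.map_add_lt _ ?_ ?_
    · rw [show 2 * (x₁ : K) * x₂ * (x₁ + x₂) = (2 * ((x₁ : K) + x₂)) * (x₁ * x₂) by ring,
        map_mul, map_mul A.valuation (x₁ : K)]
      refine mul_lt_of_lt_one_left (zero_lt_iff.2 (mul_ne_zero hX0 hY0)) ?_
      rw [map_mul]
      exact lt_of_le_of_lt (mul_le_of_le_one_left' val_two_le) (Valuation.map_add_lt _ hx₁ hx₂)
    · rw [map_mul]; exact lt_of_le_of_lt (mul_le_of_le_one_left' val_four_le) hδXY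
  have hs : A.valuation (4 * ((x₁ : K) + x₂)) < 1 := by
    rw [map_mul]
    exact lt_of_le_of_lt (mul_le_of_le_one_left' val_four_le) (Valuation.map_add_lt _ hx₁ hx₂)
  obtain ⟨N1, N2⟩ := hW.val_num (t := ((x₁ : K) * x₂) ^ 2) hs
  rw [← hprod, map_mul, map_mul, map_pow, map_pow, map_mul, ← hddef, ← hXdef, ← hYdef,
    ← hδdef] at N1 N2
  set S := X * Y / d ^ 2 with hSdef
  have hSd : S * d ^ 2 = X * Y := div_mul_cancel₀ _ (pow_ne_zero 2 hdne)
  have hlt : A.valuation xp * A.valuation xm < S ^ 2 := by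
    have hpos : (0 : A.ValueGroup) < d ^ 2 := pow_pos (zero_lt_iff.2 hdne) 2
    rw [← mul_lt_mul_iff_of_pos_right (mul_pos hpos hpos),
      show S ^ 2 * (d ^ 2 * d ^ 2) = (X * Y) ^ 2 by rw [← hSd, mul_pow, sq (d ^ 2)],
      show A.valuation xp * A.valuation xm * (d ^ 2 * d ^ 2) =
        A.valuation xp * A.valuation xm * d ^ 2 * d ^ 2 from (mul_assoc _ _ _).symm]
    refine lt_of_le_of_lt (mul_le_mul_left N1 _) ?_
    rcases max_cases ((X * Y) ^ 2) δ with ⟨e, -⟩ | ⟨e, -⟩ <;> rw [e]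
    · exact mul_lt_of_lt_one_right (pow_pos (zero_lt_iff.2 (mul_ne_zero hX0 hY0)) 2)
        (lt_of_le_of_lt (pow_le_pow_left₀ zero_le hdX 2) (pow_lt_one₀ zero_le hx₁ two_ne_zero))
    · rw [mul_pow, mul_comm (X ^ 2)]
      calc δ * d ^ 2 < Y ^ 2 * d ^ 2 := mul_lt_mul_of_pos_right hδY hpos
        _ ≤ Y ^ 2 * X ^ 2 := mul_le_mul_right (pow_le_pow_left₀ zero_le hdX 2) _
  have big : ∀ a : A.ValueGroup, a = S → (if a < 1 then a else 1) = Y / X := by
    rintro a rfl
    rcases lt_or_eq_of_le hQP with hlt' | heq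
    · have hdeq : d = X := by rw [hddef, Valuation.map_sub_eq_of_lt_left _ hlt']
      have hSY : S = Y / X := by rw [hSdef, hdeq, sq, mul_div_mul_left _ _ hX0]
      rw [hSY, if_pos ((div_lt_one₀ (zero_lt_iff.2 hX0)).2 hlt')]
    · rw [heq, div_self hX0, if_neg]
      rw [not_lt, hSdef, heq, one_le_div₀ (pow_pos (zero_lt_iff.2 hdne) 2), ← sq]
      exact pow_le_pow_left₀ zero_le hdX 2
  have small : ∀ a b : A.ValueGroup, a = S → a * b * d ^ 2 ≤ max ((X * Y) ^ 2) δ →
      ((X * Y) ^ 2 ≠ δ → a * b * d ^ 2 = max ((X * Y) ^ 2) δ) →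
      ((if b < 1 then b else 1) < 1 → δ < (if b < 1 then b else 1) ^ 2) →
      Outer δ X Y (if b < 1 then b else 1) := by
    rintro a b rfl m1 m2 hm
    rw [show S * b * d ^ 2 = b * (X * Y) by rw [← hSd, mul_comm S b, mul_assoc]] at m1 m2
    have hb := outer_eq (W0 := W0) hW.a₆ hx₁ hx₂ hQP hδY m1 m2
      (fun hb => by simpa [hb] using hm (by simp [hb]))
    rw [if_pos hb.1]; exact hb
  rcases val_split hS hlt with ⟨ha, -⟩ | ⟨ha, -⟩
  · exact Or.inl ⟨big _ ha, small _ _ ha N1 N2 n₂⟩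
  · refine Or.inr ⟨big _ ha, small _ (A.valuation xp) ha ?_ ?_ n₁⟩
    · rwa [mul_comm (A.valuation xm)]
    · rwa [mul_comm (A.valuation xm)]

end Nodal

end FLTAgent.Local
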