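import Mathlib
import Fermat.Agent.Local.Component

/-!
Consequences for `p`-torsion points on nodal models.
-/

set_option autoImplicit false
set_option linter.all false

noncomputable section

namespace FLTAgent.Local

open WeierstrassCurve IsLocalRing

variable {K : Type*} [Field K] {A : ValuationSubring K} [DecidableEq K] [CharZero K]
  [IsAlgClosed K] [DecidableEq (ResidueField A)] {W0 : WeierstrassCurve A} {p : ℕ}

theorem mem_compZero {P : (genFib W0).toAffine.Point} : P ∈ compZero W0 ↔ InE0 P := Iff.rfl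

theorem nsmul_not_inE0 (hp : p.Prime) {P : (genFib W0).toAffine.Point} (hP : p • P = 0)
    (h0 : ¬ InE0 P) {m : ℕ} (hm : ¬ p ∣ m) : ¬ InE0 (m • P) := by
  intro h
  obtain ⟨k, hk⟩ := Nat.exists_mul_mod_eq_one_of_coprime
    ((Nat.coprime_comm.1 ((hp.coprime_iff_not_dvd).2 hm))) hp.one_lt
  apply h0
  have e : (m * k) • P = P := by
    conv_rhs => rw [← one_nsmul P]
    rw [← hk.2, ← Nat.mod_add_div (m * k) p, add_nsmul, mul_nsmul, hP, nsmul_zero, add_zero,
      Nat.mod_add_div]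
  rw [← e, mul_nsmul]
  exact (compZero W0).nsmul_mem h k

namespace Nodal

theorem dist1_lt (hW : Nodal W0) {P : (genFib W0).toAffine.Point} (h : ¬ InE0 P) : dist1 P < 1 := by
  rwa [hW.inE0_iff, not_not] at h

theorem dist1_eq_one (hW : Nodal W0) {P : (genFib W0).toAffine.Point} (h : InE0 P) :
    dist1 P = 1 := by
  have := hW.inE0_iff.1 h
  rcases P with _ | ⟨x, y, hxy⟩
  · rfl
  · simp only [dist1] at this ⊢
    split_ifs with hx
    · simp [hx] at this
    · rfl

theorem nonMid (hW : Nodal W0) (hp : p.Prime) (hp2 : p ≠ 2) {P : (genFib W0).toAffine.Point}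
    (hP : p • P = 0) : NonMid P := by
  intro h1
  by_contra h2
  push Not at h2
  have h0 := hW.double_middle h1 h2
  have h00 : ¬ InE0 P := fun h => hW.inE0_iff.1 h h1
  refine nsmul_not_inE0 hp hP h00 (m := 2) ?_ (by rwa [two_nsmul])
  intro hd
  exact hp2 ((Nat.prime_dvd_prime_iff_eq hp Nat.prime_two).1 hd)

theorem pair_cls (hW : Nodal W0) (hp : p.Prime) (hp2 : p ≠ 2)
    (hδ : A.valuation (W0.a₆ : K) ≠ 0) {P Q : (genFib W0).toAffine.Point} (hP : p • P = 0)
    (hQ : p • Q = 0) (P0 : dist1 P < 1) (Q0 : dist1 Q < 1) :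
    let δ := A.valuation (W0.a₆ : K)
    (Cls δ (dist1 (P + Q)) (dist1 P * dist1 Q) ∧ Cls δ (dist1 (P - Q)) (dist1 P / dist1 Q)) ∨
    (Cls δ (dist1 (P + Q)) (dist1 P / dist1 Q) ∧ Cls δ (dist1 (P - Q)) (dist1 P * dist1 Q)) := by
  intro δ
  have hs : p • (P + Q) = 0 := by rw [nsmul_add, hP, hQ, add_zero]
  have hd : p • (P - Q) = 0 := by rw [nsmul_sub, hP, hQ, sub_zero]
  have hd' : p • (Q - P) = 0 := by rw [nsmul_sub, hP, hQ, sub_zero]
  have ho : ∀ {X Y d : A.ValueGroup}, Outer δ X Y d → Cls δ d (X * Y) := by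
    rintro X Y d ⟨-, h | h⟩
    · exact ⟨0, Or.inl (by simp [h])⟩
    · exact ⟨1, Or.inr (by simpa using h)⟩
  have hX0 : dist1 P ≠ 0 := fun e => by
    have := hW.nonMid hp hp2 hP P0; rw [e, zero_pow two_ne_zero] at this; exact not_lt_zero' this
  have hY0 : dist1 Q ≠ 0 := fun e => by
    have := hW.nonMid hp hp2 hQ Q0; rw [e, zero_pow two_ne_zero] at this; exact not_lt_zero' this
  have hi : ∀ {a b : A.ValueGroup}, a ≠ 0 → b ≠ 0 → Cls δ (b / a) (a / b) := fun {a b} ha hb =>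
    ⟨0, Or.inr (by rw [zpow_zero]; field_simp)⟩
  rcases le_total (dist1 Q) (dist1 P) with hle | hle
  · rcases hW.pair P0 Q0 hle (hW.nonMid hp hp2 hQ) (hW.nonMid hp hp2 hs) (hW.nonMid hp hp2 hd) with
      ⟨e, o⟩ | ⟨e, o⟩
    · exact Or.inr ⟨e ▸ hi hX0 hY0, ho o⟩
    · exact Or.inl ⟨ho o, e ▸ hi hX0 hY0⟩
  · have e1 : dist1 (Q - P) = dist1 (P - Q) := by rw [← dist1_neg, neg_sub]
    rcases hW.pair Q0 P0 hle (hW.nonMid hp hp2 hP)
        (hW.nonMid hp hp2 (by rwa [add_comm] at hs)) (hW.nonMid hp hp2 hd') with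
      ⟨e, o⟩ | ⟨e, o⟩
    · rw [add_comm Q P] at e; rw [e1] at o
      exact Or.inr ⟨e ▸ Cls.refl δ _, mul_comm (dist1 Q) (dist1 P) ▸ ho o⟩
    · rw [add_comm Q P] at o; rw [e1] at e
      exact Or.inl ⟨mul_comm (dist1 Q) (dist1 P) ▸ ho o, e ▸ Cls.refl δ _⟩

theorem cls_nsmul (hW : Nodal W0) (hp : p.Prime) (hp2 : p ≠ 2)
    (hδ : A.valuation (W0.a₆ : K) ≠ 0) {P : (genFib W0).toAffine.Point} (hP : p • P = 0)
    (P0 : ¬ InE0 P) :
    ∀ m, m + 1 ≤ p → Cls (A.valuation (W0.a₆ : K)) (dist1 (m • P)) (dist1 P ^ m) ∧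
      Cls (A.valuation (W0.a₆ : K)) (dist1 ((m + 1) • P)) (dist1 P ^ (m + 1)) := by
  intro m
  have hX : dist1 P ≠ 0 := fun e => by
    have := hW.nonMid hp hp2 hP (hW.dist1_lt P0)
    rw [e, zero_pow two_ne_zero] at this; exact not_lt_zero' this
  induction m with
  | zero =>
    intro _
    refine ⟨?_, ?_⟩
    · rw [zero_nsmul, pow_zero]; exact Cls.refl _ _
    · rw [one_nsmul, pow_one]; exact Cls.refl _ _
  | succ m ih =>
    intro hm
    obtain ⟨ih1, ih2⟩ := ih (by omega)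
    refine ⟨ih2, ?_⟩
    have hR0 : ¬ InE0 ((m + 1) • P) :=
      nsmul_not_inE0 hp hP P0 fun hd => by have := Nat.le_of_dvd (by omega) hd; omega
    have hR : p • ((m + 1) • P) = 0 := by rw [← mul_nsmul, mul_comm, mul_nsmul, hP, nsmul_zero]
    have h := hW.pair_cls hp hp2 hδ hP hR (hW.dist1_lt P0) (hW.dist1_lt hR0)
    have e1 : P + (m + 1) • P = (m + 1 + 1) • P := by rw [succ_nsmul _ (m + 1)]; abel
    have e2 : dist1 (P - (m + 1) • P) = dist1 (m • P) := by
      rw [← dist1_neg, neg_sub, succ_nsmul, add_sub_cancel_right]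
    simp only [e1, e2] at h
    rw [pow_succ (dist1 P) (m + 1)]
    refine cls_step hδ hX ih2 (z := dist1 P ^ (m + 1)) ?_ h
    rwa [pow_succ, mul_div_cancel_right₀ _ hX]

/-- the valuation of a torsion point is a rational multiple of that of the discriminant -/
theorem exists_zpow (hW : Nodal W0) (hp : p.Prime) (hp2 : p ≠ 2)
    (hδ : A.valuation (W0.a₆ : K) ≠ 0) {P : (genFib W0).toAffine.Point} (hP : p • P = 0)
    (P0 : ¬ InE0 P) :
    ∃ k : ℤ, 0 < k ∧ 2 * k < p ∧ dist1 P ^ p = A.valuation (W0.a₆ : K) ^ k := by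
  obtain ⟨-, h⟩ := hW.cls_nsmul hp hp2 hδ hP P0 (p - 1) (Nat.sub_add_cancel hp.one_le).le
  rw [Nat.sub_add_cancel hp.one_le, hP] at h
  obtain ⟨k, hk⟩ := h
  set δ := A.valuation (W0.a₆ : K)
  have hd : dist1 (0 : (genFib W0).toAffine.Point) = 1 := rfl
  rw [hd] at hk
  obtain ⟨j, hj⟩ : ∃ j : ℤ, dist1 P ^ p = δ ^ j := by
    rcases hk with hk | hk
    · refine ⟨-k, ?_⟩
      rw [zpow_neg]
      exact eq_inv_of_mul_eq_one_left hk.symm
    · exact ⟨k, by rwa [one_mul] at hk⟩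
  have hX1 := hW.dist1_lt P0
  have hX2 := hW.nonMid hp hp2 hP hX1
  have hδ1 : δ < 1 := hW.a₆
  have hδ0 : 0 < δ := zero_lt_iff.2 hδ
  have anti : ∀ a b : ℤ, δ ^ a < δ ^ b → b < a := fun a b h =>
    (zpow_lt_zpow_iff_right_of_lt_one₀ hδ0 hδ1).1 h
  refine ⟨j, anti j 0 ?_, anti (p : ℤ) (2 * j) ?_, hj⟩
  · rw [zpow_zero, ← hj]; exact pow_lt_one₀ zero_le hX1 hp.ne_zero
  · rw [mul_comm 2 j, zpow_mul, ← hj, zpow_natCast]
    norm_cast
    rw [← pow_mul, mul_comm, pow_mul]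
    exact pow_lt_pow_left₀ hX2 zero_le hp.ne_zero

theorem inE0_add_or_sub (hW : Nodal W0) (hp : p.Prime) (hp2 : p ≠ 2)
    {P Q : (genFib W0).toAffine.Point} (hP : p • P = 0) (hQ : p • Q = 0) (P0 : ¬ InE0 P)
    (h : dist1 P = dist1 Q) : InE0 (P + Q) ∨ InE0 (P - Q) := by
  have P1 := hW.dist1_lt P0
  have Q1 : dist1 Q < 1 := h ▸ P1
  have n := hW.nonMid hp hp2 hQ
  have hY0 : dist1 Q ≠ 0 := fun e => by
    have := n Q1; rw [e, zero_pow two_ne_zero] at this; exact not_lt_zero' this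
  rcases hW.pair P1 Q1 h.ge n
      (hW.nonMid hp hp2 (by rw [nsmul_add, hP, hQ, add_zero] : p • (P + Q) = 0))
      (hW.nonMid hp hp2 (by rw [nsmul_sub, hP, hQ, sub_zero] : p • (P - Q) = 0)) with ⟨e, -⟩ | ⟨e, -⟩
  · left
    rw [hW.inE0_iff, e, h, div_self hY0]; exact lt_irrefl 1
  · right
    rw [hW.inE0_iff, e, h, div_self hY0]; exact lt_irrefl 1

theorem exists_nsmul_sub (hW : Nodal W0) (hp : p.Prime) (hp2 : p ≠ 2)
    (hδ : A.valuation (W0.a₆ : K) ≠ 0) {P Q : (genFib W0).toAffine.Point} (hP : p • P = 0)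
    (hQ : p • Q = 0) (P0 : ¬ InE0 P) : ∃ m : ℕ, InE0 (Q - m • P) := by
  by_cases Q0 : InE0 Q
  · exact ⟨0, by rwa [zero_nsmul, sub_zero]⟩
  obtain ⟨k, hk0, hk2, hk⟩ := hW.exists_zpow hp hp2 hδ hP P0
  obtain ⟨l, hl0, hl2, hl⟩ := hW.exists_zpow hp hp2 hδ hQ Q0
  have : Fact p.Prime := ⟨hp⟩
  have hkn : (k : ZMod p) ≠ 0 := by
    rw [Ne, ZMod.intCast_zmod_eq_zero_iff_dvd]
    intro hd; have := Int.le_of_dvd hk0 hd; omega
  set m := ((l : ZMod p) / (k : ZMod p)).val with hm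
  have hmk : ((m : ℤ) * k : ZMod p) = (l : ZMod p) := by
    rw [hm]; push_cast; rw [ZMod.natCast_zmod_val, div_mul_cancel₀ _ hkn]
  have hlt : m < p := ZMod.val_lt _
  have hm0 : ¬ p ∣ m := by
    intro hd
    have hd : (m : ZMod p) = 0 := (ZMod.natCast_eq_zero_iff m p).2 hd
    · apply absurd hmk
      push_cast
      rw [hd, zero_mul, eq_comm, ZMod.intCast_zmod_eq_zero_iff_dvd]
      intro hd'; have := Int.le_of_dvd hl0 hd'; omega
  have hR : p • (m • P) = 0 := by rw [← mul_nsmul, mul_comm, mul_nsmul, hP, nsmul_zero]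
  have R0 : ¬ InE0 (m • P) := nsmul_not_inE0 hp hP P0 hm0
  obtain ⟨j, hj0, hj2, hj⟩ := hW.exists_zpow hp hp2 hδ hR R0
  obtain ⟨⟨i, hi⟩, -⟩ := hW.cls_nsmul hp hp2 hδ hP P0 m hlt
  set δ := A.valuation (W0.a₆ : K)
  have hδ0 : 0 < δ := zero_lt_iff.2 hδ
  have inj : Function.Injective (fun z : ℤ => δ ^ z) :=
    zpow_right_injective₀ hδ0 (ne_of_lt hW.a₆)
  have hjl : (j : ZMod p) = (l : ZMod p) ∨ (j : ZMod p) = -(l : ZMod p) := by
    rcases hi with hi | hi
    · left
      have : δ ^ j = δ ^ (k * m + i * p) := by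
        rw [zpow_add₀ hδ, zpow_mul, zpow_mul, ← hk, zpow_natCast, zpow_natCast, ← pow_mul,
          mul_comm p m, pow_mul, ← mul_pow, ← hi, hj]
      have := congrArg (fun z : ℤ => (z : ZMod p)) (inj this)
      push_cast at this hmk
      rw [this, ZMod.natCast_self, mul_zero, add_zero, mul_comm, hmk]
    · right
      have : δ ^ (j + k * m) = δ ^ (i * p) := by
        rw [zpow_add₀ hδ, zpow_mul, zpow_mul, ← hk, zpow_natCast, zpow_natCast, ← pow_mul,
          mul_comm p m, pow_mul, ← hj, ← mul_pow, hi]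
      have := congrArg (fun z : ℤ => (z : ZMod p)) (inj this)
      push_cast at this hmk
      rw [ZMod.natCast_self, mul_zero] at this
      linear_combination this - hmk
  have hjl' : j = l := by
    rcases hjl with e | e
    · rw [ZMod.intCast_eq_intCast_iff_dvd_sub] at e
      obtain ⟨c, hc⟩ := e
      rcases lt_trichotomy c 0 with h | h | h <;> nlinarith
    · exfalso
      rw [← Int.cast_neg, ZMod.intCast_eq_intCast_iff_dvd_sub] at e
      obtain ⟨c, hc⟩ := e
      rcases lt_trichotomy c 0 with h | h | h <;> nlinarith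
  have hd : dist1 Q = dist1 (m • P) :=
    (pow_left_inj₀ zero_le zero_le hp.ne_zero).1 (by rw [hl, hj, hjl'])
  rcases hW.inE0_add_or_sub hp hp2 hQ hR Q0 hd with h | h
  · refine ⟨p - m, ?_⟩
    have e : (p - m) • P = -(m • P) := by
      rw [eq_neg_iff_add_eq_zero, ← add_nsmul, Nat.sub_add_cancel hlt.le, hP]
    rwa [e, sub_neg_eq_add]
  · exact ⟨m, h⟩

theorem exists_branch (hW : Nodal W0) {x y : K} (h : (genFib W0).toAffine.Equation x y)
    (hx : A.valuation x < 1) (hδ : A.valuation (W0.a₆ : K) < A.valuation x ^ 2) :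
    ∃ α β : A, (α : K) + β = -W0.a₁ ∧ (α : K) * β = -W0.a₂ ∧
      A.valuation ((α : K) - β) = 1 ∧ A.valuation (y - β * x) < A.valuation x ∧
      A.valuation (y - α * x) = A.valuation x := by
  obtain ⟨s, hs⟩ := exists_sqrt (W0.b₂ : K)
  rw [Nodal.coe_b₂] at hs
  set r₁ := (-(W0.a₁ : K) + s) / 2 with hr₁
  set r₂ := (-(W0.a₁ : K) - s) / 2 with hr₂
  have m₁ : r₁ ∈ A := mem_of_quadratic (b := (W0.a₁ : K)) (c := -(W0.a₂ : K)) W0.a₁.2
    (neg_mem W0.a₂.2) (by rw [hr₁]; linear_combination (1 / 4 : K) * hs)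
  have m₂ : r₂ ∈ A := mem_of_quadratic (b := (W0.a₁ : K)) (c := -(W0.a₂ : K)) W0.a₁.2
    (neg_mem W0.a₂.2) (by rw [hr₂]; linear_combination (1 / 4 : K) * hs)
  have hsum : r₁ + r₂ = -W0.a₁ := by rw [hr₁, hr₂]; ring
  have hprod : r₁ * r₂ = -W0.a₂ := by rw [hr₁, hr₂]; linear_combination (-1 / 4 : K) * hs
  have hdiff : A.valuation (r₁ - r₂) = 1 := by
    have : r₁ - r₂ = s := by rw [hr₁, hr₂]; ring
    rw [this]
    have h2 : A.valuation s ^ 2 = 1 ^ 2 := by
      rw [← map_pow, hs, ← Nodal.coe_b₂, hW.b₂, one_pow]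
    exact (pow_left_inj₀ zero_le zero_le two_ne_zero).1 h2
  set X := A.valuation x
  have hX : X ≠ 0 := fun e => by rw [e, zero_pow two_ne_zero] at hδ; exact not_lt_zero' hδ
  have hprodv : A.valuation (y - r₁ * x) * A.valuation (y - r₂ * x) < X * X := by
    rw [← map_mul, show (y - r₁ * x) * (y - r₂ * x) = x ^ 3 + W0.a₆ by
      linear_combination hW.equation h - (y * x) * hsum + x ^ 2 * hprod, ← sq]
    refine Valuation.map_add_lt _ ?_ hδ
    rw [map_pow, pow_succ]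
    exact mul_lt_of_lt_one_right (pow_pos (zero_lt_iff.2 hX) 2) hx
  have hdx : A.valuation ((y - r₂ * x) - (y - r₁ * x)) = X := by
    rw [show (y - r₂ * x) - (y - r₁ * x) = (r₁ - r₂) * x by ring, map_mul, hdiff, one_mul]
  rcases lt_or_ge (A.valuation (y - r₁ * x)) X with h1 | h1
  · refine ⟨⟨r₂, m₂⟩, ⟨r₁, m₁⟩, by rw [add_comm]; exact hsum, by rw [mul_comm]; exact hprod,
      by rw [← Valuation.map_sub_swap]; exact hdiff, h1, ?_⟩
    have := Valuation.map_sub_eq_of_lt_left A.valuation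
      (x := y - r₂ * x) (y := y - r₁ * x) ?_
    · exact this.symm.trans hdx
    · by_contra hge
      push Not at hge
      have := (A.valuation.map_sub (y - r₂ * x) (y - r₁ * x)).trans (max_le hge le_rfl)
      rw [hdx] at this
      exact absurd this (not_le.2 h1)
  · have h2 : A.valuation (y - r₂ * x) < X := by
      by_contra hge
      push Not at hge
      exact absurd (mul_le_mul' h1 hge) (not_le.2 hprodv)
    refine ⟨⟨r₁, m₁⟩, ⟨r₂, m₂⟩, hsum, hprod, hdiff, h2, ?_⟩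
    have := Valuation.map_sub_eq_of_lt_right A.valuation
      (x := y - r₂ * x) (y := y - r₁ * x) (lt_of_lt_of_le h2 h1)
    exact this.symm.trans hdx

theorem image_add_not_inE0 (hW : Nodal W0) (hp : p.Prime) (hp2 : p ≠ 2) {σ : K →+* K}
    (hσ : Inertial A σ) (hf : FixesCoeff W0 σ) {P P' : (genFib W0).toAffine.Point}
    (hI : IsImage σ P P') (hP : p • P = 0) (P0 : ¬ InE0 P) : ¬ InE0 (P + P') := by
  have P1 := hW.dist1_lt P0
  have hδ := hW.nonMid hp hp2 hP P1
  obtain ⟨x, y, h, rfl, hd, hx⟩ := exists_of_dist1_lt P1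
  rw [hd] at hδ
  rcases P' with _ | ⟨x', y', h'⟩
  · exact hI.elim
  obtain ⟨rfl, rfl⟩ := hI
  obtain ⟨α, β, hsum, hprod, hdiff, hw, hu⟩ := hW.exists_branch h.1 hx hδ
  set X := A.valuation (x : K)
  have hX : X ≠ 0 := fun e => by rw [e, zero_pow two_ne_zero] at hδ; exact not_lt_zero' hδ
  have hroot : ((σ β : K) - α) * (σ β - β) = 0 := by
    have e : (β : K) ^ 2 + W0.a₁ * β - W0.a₂ = 0 := by
      linear_combination (β : K) * hsum - hprod
    have e' := congrArg σ e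
    simp only [map_add, map_sub, map_mul, map_pow, map_zero, hf.h₁, hf.h₂] at e'
    linear_combination e' - (σ (β : K)) * hsum + hprod
  have hβ : σ (β : K) = β := by
    rcases mul_eq_zero.1 hroot with e | e
    · have := hσ.triv _ β.2
      rw [sub_eq_zero.1 e, hdiff] at this
      exact absurd this (lt_irrefl 1)
    · exact sub_eq_zero.1 e
  have hα : σ (α : K) = α := by
    have e := congrArg σ hsum
    simp only [map_add, map_neg, hf.h₁, hβ] at e
    linear_combination e - hsum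
  have hw' : A.valuation (σ y - β * σ x) < X := by
    rw [← hβ, ← map_mul, ← map_sub, hσ.val]; exact hw
  have hu' : A.valuation (σ y - α * σ x) = X := by
    rw [← hα, ← map_mul, ← map_sub, hσ.val]; exact hu
  by_cases hxx : (x : K) = σ x
  · rcases Affine.Y_eq_of_X_eq h.1 h'.1 hxx with e | e
    · rw [show Affine.Point.some _ _ h' = Affine.Point.some _ _ h by simp [← hxx, ← e],
        ← two_nsmul]
      exact nsmul_not_inE0 hp hP P0 fun hd =>
        hp2 ((Nat.prime_dvd_prime_iff_eq hp Nat.prime_two).1 hd)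
    · exfalso
      simp only [Affine.negY, WeierstrassCurve.toAffine, genFib_a₁, genFib_a₃, hW.a₃] at e
      push_cast at e
      have : (y : K) - β * x = -(σ y - α * σ x) := by
        linear_combination e - (β : K) * hxx - σ (x : K) * hsum
      rw [this, Valuation.map_neg, hu'] at hw
      exact lt_irrefl _ hw
  rw [Affine.Point.add_of_X_ne hxx, hW.inE0_iff, not_not]
  set ℓ := (genFib W0).toAffine.slope (x : K) (σ x) y (σ y) with hℓ
  have hℓ' : ℓ * ((x : K) - σ x) = y - σ y := slope_mul_sub hxx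
  have e1 : ((y : K) - α * x) * (y - β * x) = x ^ 3 + W0.a₆ := by
    linear_combination hW.equation h.1 - ((y : K) * x) * hsum + (x : K) ^ 2 * hprod
  have e2 : (σ y - α * σ x) * (σ y - β * σ x) = σ (x : K) ^ 3 + W0.a₆ := by
    linear_combination hW.equation h'.1 - (σ (y : K) * σ x) * hsum + σ (x : K) ^ 2 * hprod
  have key : (ℓ - β) * ((y - β * x) + (σ y - α * σ x)) =
      (x : K) ^ 2 + x * σ x + σ x ^ 2 - (β - α) * (y - β * x) := by
    apply mul_right_cancel₀ (sub_ne_zero.2 hxx)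
    linear_combination e1 - e2 + (((y : K) - β * x) + (σ y - α * σ x)) * hℓ'
  have hσX : A.valuation (σ (x : K)) = X := hσ.val _
  have hr : A.valuation ((x : K) ^ 2 + x * σ x + σ x ^ 2 - (β - α) * (y - β * x)) < X := by
    have hXX : X * X < X := mul_lt_of_lt_one_right (zero_lt_iff.2 hX) hx
    refine Valuation.map_sub_lt _ (Valuation.map_add_lt _ (Valuation.map_add_lt _ ?_ ?_) ?_) ?_
    · rw [map_pow, sq]; exact hXX
    · rw [map_mul, hσX]; exact hXX
    · rw [map_pow, sq, hσX]; exact hXX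
    · rw [map_mul, Valuation.map_sub_swap, hdiff, one_mul]; exact hw
  rw [← key, map_mul, Valuation.map_add_eq_of_lt_right _ (by rwa [hu']), hu'] at hr
  have hℓβ : A.valuation (ℓ - β) < 1 := (mul_lt_iff_lt_one_left (zero_lt_iff.2 hX)).1 hr
  have hℓα : A.valuation (ℓ - α) ≤ 1 := by
    rw [show ℓ - (α : K) = (ℓ - β) + (β - α) by ring]
    refine Valuation.map_add_le _ hℓβ.le ?_
    rw [Valuation.map_sub_swap, hdiff]
  have hx3 : A.valuation ((genFib W0).toAffine.addX (x : K) (σ x) ℓ) < 1 := by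
    rw [show (genFib W0).toAffine.addX (x : K) (σ x) ℓ = (ℓ - α) * (ℓ - β) - x - σ x by
      simp only [Affine.addX, WeierstrassCurve.toAffine, genFib_a₁, genFib_a₂]
      linear_combination ℓ * hsum - hprod]
    refine Valuation.map_sub_lt _ (Valuation.map_sub_lt _ ?_ hx) (by rwa [hσX])
    rw [map_mul]
    exact lt_of_le_of_lt (mul_le_of_le_one_left' hℓα) hℓβ
  simp only [dist1]
  rw [← hℓ, if_pos hx3]
  exact hx3

/-- inertia moves torsion points inside the zero component -/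
theorem image_sub_inE0 (hW : Nodal W0) (hp : p.Prime) (hp2 : p ≠ 2) {σ : K →+* K}
    (hσ : Inertial A σ) (hf : FixesCoeff W0 σ) {P P' : (genFib W0).toAffine.Point}
    (hI : IsImage σ P P') (hP : p • P = 0) (hP' : p • P' = 0) : InE0 (P' - P) := by
  by_cases P0 : InE0 P
  · exact (inertial_sub_inE1 hσ hI P0).inE0
  have hd : dist1 P = dist1 P' := by
    rcases P with _ | ⟨x, y, h⟩ <;> rcases P' with _ | ⟨x', y', h'⟩
    · rfl
    · exact hI.elim
    · exact hI.elim
    · obtain ⟨rfl, rfl⟩ := hI; simp only [dist1, hσ.val]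
  rcases hW.inE0_add_or_sub hp hp2 hP hP' P0 hd with h | h
  · exact absurd h (hW.image_add_not_inE0 hp hp2 hσ hf hI hP P0)
  · rw [← neg_sub]; exact inE0_neg h

/-- inertia fixes `p`-torsion when the discriminant has the valuation of a `p`-th power -/
theorem image_eq (hW : Nodal W0) (hp : p.Prime) (hp2 : p ≠ 2) (hpu : A.valuation (p : K) = 1)
    {σ : K →+* K} (hσ : Inertial A σ) {c : K} (hc : σ c = c) (hc0 : c ≠ 0)
    (hδc : A.valuation (W0.a₆ : K) = A.valuation c ^ p)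
    {P P' : (genFib W0).toAffine.Point} (hI : IsImage σ P P') (hP : p • P = 0)
    (hP' : p • P' = 0) : P' = P := by
  rw [← sub_eq_zero]
  refine inE1_torsion (n := p) hpu ?_ (by rw [nsmul_sub, hP, hP', sub_zero])
  by_cases P0 : InE0 P
  · exact inertial_sub_inE1 hσ hI P0
  have hvc : A.valuation c ≠ 0 := (Valuation.ne_zero_iff _).2 hc0
  have hδ0 : A.valuation (W0.a₆ : K) ≠ 0 := hδc ▸ pow_ne_zero p hvc
  obtain ⟨k, hk0, -, hk⟩ := hW.exists_zpow hp hp2 hδ0 hP P0
  have P1 := hW.dist1_lt P0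
  have hδ := hW.nonMid hp hp2 hP P1
  obtain ⟨x, y, h, rfl, hd, hx⟩ := exists_of_dist1_lt P1
  rw [hd] at hδ hk
  rcases P' with _ | ⟨x', y', h'⟩
  · exact hI.elim
  obtain ⟨rfl, rfl⟩ := hI
  set X := A.valuation (x : K)
  have hX : X = A.valuation (c ^ k) := by
    refine (pow_left_inj₀ zero_le zero_le hp.ne_zero).1 ?_
    rw [hk, hδc, map_zpow₀, ← zpow_natCast, ← zpow_natCast, ← zpow_mul, ← zpow_mul, mul_comm]
  have hck : σ (c ^ k) = c ^ k := by rw [map_zpow₀, hc]
  have hck0 : c ^ k ≠ 0 := zpow_ne_zero k hc0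
  have hxlt : A.valuation (σ x - x) < X := hX ▸ hσ.val_sub_lt hck hck0 hX.le
  have hyX : A.valuation (y : K) ≤ X := by
    obtain ⟨α, β, -, -, -, hw, -⟩ := hW.exists_branch h.1 hx hδ
    rw [show (y : K) = (y - β * x) + β * x by ring]
    refine Valuation.map_add_le _ hw.le ?_
    rw [map_mul]; exact mul_le_of_le_one_left' (A.valuation_le_one β)
  have hylt : A.valuation (σ y - y) < X := hX ▸ hσ.val_sub_lt hck hck0 (hX ▸ hyX)
  have hψ := hW.val_psi h.1 hx hδ
  have hnum : A.valuation (σ y - (genFib W0).toAffine.negY (x : K) y) = X := by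
    rw [show σ (y : K) - (genFib W0).toAffine.negY (x : K) y =
      (σ y - y) + (2 * y + W0.a₁ * x) by
        simp only [Affine.negY, WeierstrassCurve.toAffine, genFib_a₁, genFib_a₃, hW.a₃]
        push_cast; ring, Valuation.map_add_eq_of_lt_right _ (by rwa [hψ]), hψ]
  rw [sub_eq_add_neg, Affine.Point.neg_some]
  by_cases hxx : σ (x : K) = x
  · rcases Affine.Y_eq_of_X_eq h'.1 h.1 hxx with e | e
    · rw [Affine.Point.add_of_Y_eq hxx (by rw [Affine.negY_negY]; exact e)]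
      trivial
    · exfalso
      rw [e, sub_self, map_zero] at hnum
      rw [← hnum] at hxlt
      exact not_lt_zero' hxlt
  rw [Affine.Point.add_of_X_ne hxx]
  refine addX_not_mem (hσ.mem x.2) x.2 ?_
  rw [not_mem_iff_val, Affine.slope_of_X_ne hxx, map_div₀, hnum,
    one_lt_div₀ (zero_lt_iff.2 ((Valuation.ne_zero_iff _).2 (sub_ne_zero.2 hxx)))]
  exact hxlt

end Nodal

end FLTAgent.Local
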