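import Mathlib
import Fermat.Agent.Local.Component2

/-!
Moving the node of a multiplicative model to the origin.
-/

set_option autoImplicit false
set_option linter.all false

noncomputable section

namespace FLTAgent.Local

open WeierstrassCurve IsLocalRing

variable {K : Type*} [Field K] {A : ValuationSubring K} [CharZero K] [IsAlgClosed K]

theorem exists_nodal (W0 : WeierstrassCurve A) (hΔ : A.valuation (W0.Δ : K) < 1)
    (hc : A.valuation (W0.c₄ : K) = 1) :
    ∃ (C : VariableChange A), Nodal (C • W0) ∧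
      A.valuation ((C • W0).a₆ : K) = A.valuation (W0.Δ : K) ∧
      6 * (C.r : K) ^ 2 + (genFib W0).b₂ * C.r + (genFib W0).b₄ = 0 ∧
      (C.u : A) = 1 ∧ C.s = 0 ∧
      ∀ σ : K →+* K, (∀ z, A.valuation (σ z) = A.valuation z) → FixesCoeff W0 σ →
        σ (C.r : K) = C.r ∧ σ (C.t : K) = C.t := by
  set c := W0.c₄ with hcdef
  have hc0 : (c : K) ≠ 0 := fun e => by rw [e, map_zero] at hc; exact zero_ne_one hc
  have hci : (c : K)⁻¹ ∈ A := by
    rw [← A.valuation_le_one_iff, map_inv₀, hc, inv_one]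
  set x₀ : A := (18 * W0.b₆ - W0.b₂ * W0.b₄) * ⟨_, hci⟩ with hx₀
  have hx₀' : x₀ * c = 18 * W0.b₆ - W0.b₂ * W0.b₄ := by
    rw [hx₀, mul_assoc, show (⟨_, hci⟩ : A) * c = 1 from Subtype.ext (inv_mul_cancel₀ hc0), mul_one]
  set B2 : A := W0.b₂ + 12 * x₀ with hB2
  set B4 : A := W0.b₄ + x₀ * W0.b₂ + 6 * x₀ ^ 2 with hB4
  have e2 : B2 * c = -W0.c₆ := by
    rw [hB2, hcdef] at *
    simp only [WeierstrassCurve.c₄, WeierstrassCurve.c₆] at *
    linear_combination 12 * hx₀'
  have e4 : B4 * c ^ 2 = -72 * W0.Δ := by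
    rw [hB4, hcdef] at *
    simp only [WeierstrassCurve.c₄, WeierstrassCurve.Δ] at *
    linear_combination
      (W0.b₂ * (W0.b₂ ^ 2 - 24 * W0.b₄) + 6 * (x₀ * (W0.b₂ ^ 2 - 24 * W0.b₄)) +
        6 * (18 * W0.b₆ - W0.b₂ * W0.b₄)) * hx₀' - 18 * W0.b₂ ^ 2 * W0.b_relation
  have rΔ : residue A W0.Δ = 0 := res_eq_zero.2 hΔ
  have rc : residue A c ≠ 0 := res_ne_zero.2 hc
  have r4 : residue A B4 = 0 := by
    have := congrArg (residue A) e4
    rw [map_mul, map_mul, rΔ, mul_zero, mul_eq_zero, map_pow] at this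
    exact this.resolve_right (pow_ne_zero 2 rc)
  have rc6 : residue A W0.c₆ ≠ 0 := by
    intro e
    have := congrArg (residue A) W0.c_relation
    rw [map_mul, map_sub, map_pow, map_pow, rΔ, mul_zero, e] at this
    simp at this
    exact rc (pow_eq_zero_iff three_ne_zero |>.1 this.symm)
  have r2 : residue A B2 ≠ 0 := by
    intro e
    have := congrArg (residue A) e2
    rw [map_mul, e, zero_mul, map_neg, eq_comm, neg_eq_zero] at this
    exact rc6 this
  obtain ⟨s, hs⟩ := exists_sqrt (c : K)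
  have hs1 : A.valuation s = 1 := by
    have h2 : A.valuation s ^ 2 = 1 ^ 2 := by rw [← map_pow, hs, hc, one_pow]
    exact (pow_left_inj₀ zero_le zero_le two_ne_zero).1 h2
  have hdisc : (B2 : K) ^ 2 - 24 * (B4 : K) = (c : K) := by
    have : B2 ^ 2 - 24 * B4 = c := by
      rw [hB2, hB4, hcdef]; simp only [WeierstrassCurve.c₄]; ring
    rw [← this]; push_cast; rfl
  have h6B : ((6 * B4 : A) : K) = 6 * (B4 : K) := by
    rw [MulMemClass.coe_mul]; congr 1
  obtain ⟨w, hwA, hw, hwq⟩ : ∃ w : K, w ∈ A ∧ A.valuation w = 1 ∧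
      w ^ 2 + B2 * w + 6 * B4 = 0 := by
    set w₁ := (-(B2 : K) + s) / 2
    set w₂ := (-(B2 : K) - s) / 2
    have q₁ : w₁ ^ 2 + B2 * w₁ + 6 * B4 = 0 := by
      simp only [w₁]; linear_combination (1 / 4 : K) * hs - (1 / 4 : K) * hdisc
    have q₂ : w₂ ^ 2 + B2 * w₂ + 6 * B4 = 0 := by
      simp only [w₂]; linear_combination (1 / 4 : K) * hs - (1 / 4 : K) * hdisc
    have hcm : (6 : K) * B4 ∈ A := h6B ▸ SetLike.coe_mem _
    have m₁ := mem_of_quadratic B2.2 hcm q₁
    have m₂ := mem_of_quadratic B2.2 hcm q₂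
    rcases lt_or_eq_of_le (val_le_one m₁) with h | h
    · refine ⟨w₂, m₂, le_antisymm (val_le_one m₂) ?_, q₂⟩
      by_contra h2
      push Not at h2
      have := Valuation.map_sub_lt A.valuation h h2
      rw [show w₁ - w₂ = s by simp only [w₁, w₂]; ring, hs1] at this
      exact lt_irrefl _ this
    · exact ⟨w₁, m₁, h, q₁⟩
  have hw0 : w ≠ 0 := fun e => by rw [e, map_zero] at hw; exact zero_ne_one hw
  have hwi : w⁻¹ ∈ A := by rw [← A.valuation_le_one_iff, map_inv₀, hw, inv_one]
  set z : A := B4 * ⟨_, hwi⟩ with hz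
  have rz : residue A z = 0 := by rw [hz, map_mul, r4, zero_mul]
  have hzq : 6 * (z : K) ^ 2 + B2 * z + B4 = 0 := by
    rw [hz]; push_cast
    field_simp
    linear_combination (B4 : K) * hwq
  set r : A := x₀ + z with hr
  have hrq : 6 * (r : K) ^ 2 + (genFib W0).b₂ * r + (genFib W0).b₄ = 0 := by
    rw [show (genFib W0).b₂ = ((W0.b₂ : A) : K) from map_b₂ W0 A.subtype,
      show (genFib W0).b₄ = ((W0.b₄ : A) : K) from map_b₄ W0 A.subtype, hr]
    rw [hB2, hB4] at hzq
    push_cast at hzq ⊢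
    simp only [show ((12 : A) : K) = 12 from map_ofNat A.subtype 12,
      show ((6 : A) : K) = 6 from map_ofNat A.subtype 6] at hzq
    linear_combination hzq
  have hb4 : 2 * ((W0.a₄ : K) + 2 * r * W0.a₂ + 3 * (r : K) ^ 2) +
      (W0.a₁ : K) * (W0.a₃ + r * W0.a₁) = 0 := by
    simp only [WeierstrassCurve.b₂, WeierstrassCurve.b₄, genFib_a₁, genFib_a₂, genFib_a₃,
      genFib_a₄] at hrq
    linear_combination hrq
  set t : K := -((W0.a₃ : K) + r * W0.a₁) / 2 with ht
  have hnum : (W0.a₄ : K) + 2 * r * W0.a₂ + 3 * (r : K) ^ 2 ∈ A :=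
    add_mem (add_mem W0.a₄.2 (mul_mem (mul_mem (by simpa using (2 : A).2) r.2) W0.a₂.2))
      (mul_mem (by simpa using (3 : A).2) (pow_mem r.2 2))
  have htA : t ∈ A := by
    by_cases h2 : residue A (2 : A) = 0
    · have ha1 : residue A W0.a₁ ≠ 0 := by
        intro e
        apply rc
        have h24 : (24 : ResidueField A) = 2 * 12 := by norm_num
        rw [hcdef]
        simp only [WeierstrassCurve.c₄, WeierstrassCurve.b₂, map_sub, map_add, map_mul, map_pow,
          map_ofNat, e]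
        rw [map_ofNat] at h2
        rw [h24, show (4 : ResidueField A) = 2 * 2 by norm_num, h2]
        ring
      have hv := res_ne_zero.1 ha1
      have ha0 : (W0.a₁ : K) ≠ 0 := fun e => by rw [e, map_zero] at hv; exact zero_ne_one hv
      have e : t = ((W0.a₄ : K) + 2 * r * W0.a₂ + 3 * (r : K) ^ 2) / W0.a₁ := by
        rw [eq_div_iff ha0, ht]; linear_combination (-1 / 2 : K) * hb4
      rw [← A.valuation_le_one_iff, e, map_div₀, hv, div_one]
      exact val_le_one hnum
    · have hv := res_ne_zero.1 h2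
      rw [show ((2 : A) : K) = 2 from map_ofNat A.subtype 2] at hv
      rw [← A.valuation_le_one_iff, ht, map_div₀, hv, div_one, Valuation.map_neg]
      exact val_le_one (add_mem W0.a₃.2 (mul_mem r.2 W0.a₁.2))
  set T : A := ⟨t, htA⟩ with hT
  set C : VariableChange A := ⟨1, r, 0, T⟩ with hC
  set W1 := C • W0 with hW1
  have h3 : W1.a₃ = 0 := by
    apply Subtype.ext
    simp only [hW1, variableChange_a₃, hC, inv_one, Units.val_one, one_pow, one_mul]
    push_cast
    rw [show ((2 : A) : K) = 2 from map_ofNat A.subtype 2, show (T : K) = t from rfl, ht]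
    ring
  have h4 : W1.a₄ = 0 := by
    apply Subtype.ext
    simp only [hW1, variableChange_a₄, hC, inv_one, Units.val_one, one_pow, one_mul]
    push_cast
    rw [show ((2 : A) : K) = 2 from map_ofNat A.subtype 2,
      show ((3 : A) : K) = 3 from map_ofNat A.subtype 3, show (T : K) = t from rfl, ht]
    linear_combination (1 / 2 : K) * hb4
  have hb4' : W1.b₄ = 0 := by simp [WeierstrassCurve.b₄, h3, h4]
  have hb6' : W1.b₆ = 4 * W1.a₆ := by simp [WeierstrassCurve.b₆, h3]
  have hb8' : W1.b₈ = W1.b₂ * W1.a₆ := by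
    simp [WeierstrassCurve.b₈, WeierstrassCurve.b₂, h3, h4]; ring
  have hb2' : W1.b₂ = B2 + 12 * z := by
    rw [hW1, variableChange_b₂, hC, hB2, hr]
    simp; ring
  have rb2 : residue A W1.b₂ = residue A B2 := by rw [hb2', map_add, map_mul, rz]; ring
  have hΔeq : W1.Δ = W0.Δ := by rw [hW1, variableChange_Δ, hC]; simp
  have hΔ' : W0.Δ = -W1.a₆ * (W1.b₂ ^ 3 + 432 * W1.a₆) := by
    rw [← hΔeq, WeierstrassCurve.Δ, hb4', hb6', hb8']; ring
  have hc6' : -W1.b₂ ^ 3 - 864 * W1.a₆ = W0.c₆ := by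
    rw [show W0.c₆ = W1.c₆ by rw [hW1, variableChange_c₆, hC]; simp, WeierstrassCurve.c₆, hb4', hb6']
    ring
  have hc4' : W1.b₂ ^ 2 = c := by
    rw [show c = W1.c₄ by rw [hW1, variableChange_c₄, hC]; simp [hcdef], WeierstrassCurve.c₄, hb4']
    ring
  have h864 : (864 : ResidueField A) * residue A W1.a₆ = 0 := by
    have a := congrArg (residue A) hc6'
    have b := congrArg (residue A) e2
    have d := congrArg (residue A) hc4'
    simp only [map_sub, map_mul, map_pow, map_neg, map_ofNat] at a b d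
    rw [← d, ← rb2] at b
    linear_combination -a - b
  have r6 : residue A W1.a₆ = 0 := by
    have hd := congrArg (residue A) hΔ'
    rw [rΔ] at hd
    simp only [map_mul, map_add, map_pow, map_neg, map_ofNat] at hd
    have e : 2 * residue A W1.a₆ * residue A W1.b₂ ^ 3 = 0 := by
      linear_combination 2 * hd - residue A W1.a₆ * h864
    rw [rb2] at e hd
    by_cases h2 : (2 : ResidueField A) = 0
    · rw [show (432 : ResidueField A) = 2 * 216 by norm_num, h2, zero_mul, zero_mul, add_zero,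
        eq_comm, mul_eq_zero, neg_eq_zero] at hd
      exact hd.resolve_right (pow_ne_zero 3 r2)
    · exact (mul_eq_zero.1 ((mul_eq_zero.1 e).resolve_right (pow_ne_zero 3 r2))).resolve_left h2
  have hu : residue A (W1.b₂ ^ 3 + 432 * W1.a₆) ≠ 0 := by
    rw [map_add, map_mul, r6, mul_zero, add_zero, map_pow, rb2]
    exact pow_ne_zero 3 r2
  have hva : A.valuation (W1.a₆ : K) = A.valuation (W0.Δ : K) := by
    rw [hΔ']; push_cast
    rw [map_mul, Valuation.map_neg]
    have := res_ne_zero.1 hu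
    push_cast at this
    rw [this, mul_one]
  refine ⟨C, ⟨h3, h4, res_eq_zero.1 r6, res_ne_zero.1 (rb2 ▸ r2)⟩, hva, hrq, rfl, rfl,
    fun σ hval hf => ?_⟩
  obtain ⟨f1, f2, f3, f4, f6⟩ := hf
  have fx : σ (x₀ : K) = x₀ := by
    rw [hx₀]
    simp only [WeierstrassCurve.b₂, WeierstrassCurve.b₄, WeierstrassCurve.b₆, hcdef,
      WeierstrassCurve.c₄]
    push_cast
    simp [map_ofNat, f1, f2, f3, f4, f6, show ((18 : A) : K) = 18 from map_ofNat A.subtype 18,
      show ((24 : A) : K) = 24 from map_ofNat A.subtype 24,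
      show ((4 : A) : K) = 4 from map_ofNat A.subtype 4,
      show ((2 : A) : K) = 2 from map_ofNat A.subtype 2]
  have fB2 : σ (B2 : K) = B2 := by
    rw [hB2]
    simp only [WeierstrassCurve.b₂]
    push_cast
    simp [map_ofNat, f1, f2, fx, show ((12 : A) : K) = 12 from map_ofNat A.subtype 12,
      show ((4 : A) : K) = 4 from map_ofNat A.subtype 4]
  have fB4 : σ (B4 : K) = B4 := by
    rw [hB4]
    simp only [WeierstrassCurve.b₂, WeierstrassCurve.b₄]
    push_cast
    simp [map_ofNat, f1, f2, f3, f4, fx, show ((6 : A) : K) = 6 from map_ofNat A.subtype 6,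
      show ((4 : A) : K) = 4 from map_ofNat A.subtype 4,
      show ((2 : A) : K) = 2 from map_ofNat A.subtype 2]
  have fw : σ w = w := by
    have q := congrArg σ hwq
    simp only [map_add, map_mul, map_pow, map_zero, map_ofNat, fB2, fB4] at q
    have : (σ w - w) * (σ w + w + B2) = 0 := by linear_combination q - hwq
    rcases mul_eq_zero.1 this with e | e
    · exact sub_eq_zero.1 e
    · exfalso
      have hp : σ w * w = 6 * B4 := by linear_combination w * e - hwq
      have := congrArg A.valuation hp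
      rw [map_mul, hval, hw, mul_one, ← h6B] at this
      have h0 : residue A (6 * B4) = 0 := by rw [map_mul, r4, mul_zero]
      rw [res_eq_zero, ← this] at h0
      exact lt_irrefl _ h0
  have fr : σ (r : K) = r := by
    rw [hr, hz]; push_cast
    simp [fx, fB4, fw]
  refine ⟨fr, ?_⟩
  show σ t = t
  rw [ht]
  simp [map_ofNat, fr, f1, f3]

end FLTAgent.Local
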