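import Mathlib
import Fermat.Prelude.Def_EllipticCurve_ZeroComponentAt
import Fermat.Prelude.Def_FLTPrelim_Ramification
import Fermat.Agent.Local.Model
import Fermat.Agent.Local.Degree

/-!
Specialisation of the local theory to places of the algebraic closure of `ℚ`.
-/

set_option autoImplicit false
set_option linter.all false

noncomputable section

namespace FLTAgent.Local

open WeierstrassCurve IsLocalRing
open scoped WeierstrassCurve.Affine Pointwise

local notation "Ω" => AlgebraicClosure ℚ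

variable {A : ValuationSubring (AlgebraicClosure ℚ)} {q : ℕ}

theorem val_int_lt_one_iff (hA : A.LiesOverPrime q) (hq : q.Prime) (z : ℤ) :
    A.valuation (z : Ω) < 1 ↔ (q : ℤ) ∣ z := by
  constructor
  · intro h
    by_contra hd
    have h1 := valuation_natCast_of_not_dvd hA hq (m := z.natAbs) (by
      rwa [← Int.natCast_dvd])
    rcases Int.natAbs_eq z with e | e
    · rw [e, Int.cast_natCast] at h; rw [h1] at h; exact lt_irrefl _ h
    · rw [e, Int.cast_neg, Valuation.map_neg, Int.cast_natCast] at h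
      rw [h1] at h; exact lt_irrefl _ h
  · rintro ⟨c, rfl⟩
    push_cast
    rw [map_mul]
    exact mul_lt_one_of_nonneg_of_lt_one_left zero_le hA
      ((A.valuation_le_one_iff _).2 (intCast_mem A c))

theorem val_int_eq_one (hA : A.LiesOverPrime q) (hq : q.Prime) {z : ℤ} (hz : ¬ (q : ℤ) ∣ z) :
    A.valuation (z : Ω) = 1 := by
  rcases lt_or_eq_of_le ((A.valuation_le_one_iff _).2 (intCast_mem A z)) with h | h
  · exact absurd ((val_int_lt_one_iff hA hq z).1 h) hz
  · exact h

theorem val_int_padic (hA : A.LiesOverPrime q) (hq : q.Prime) {z : ℤ} (hz : z ≠ 0) :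
    A.valuation (z : Ω) = A.valuation (q : Ω) ^ padicValInt q z := by
  have : Fact q.Prime := ⟨hq⟩
  have h1 : ((q : ℤ) ^ padicValInt q z) ∣ z := (padicValInt_dvd_iff _ _).2 (Or.inr le_rfl)
  obtain ⟨c, hc⟩ := h1
  have hcd : ¬ (q : ℤ) ∣ c := by
    intro hd
    have : ((q : ℤ) ^ (padicValInt q z + 1)) ∣ z := by
      conv_rhs => rw [hc]
      rw [pow_succ]
      exact mul_dvd_mul_left _ hd
    rcases (padicValInt_dvd_iff _ _).1 this with h | h
    · exact hz h
    · omega
  conv_lhs => rw [hc]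
  push_cast
  rw [map_mul, map_pow, val_int_eq_one hA hq hcd, mul_one]

theorem val_aut {σ : Ω ≃ₐ[ℚ] Ω} (hσ : σ ∈ A.decompositionSubgroup ℚ) (z : Ω) :
    A.valuation (σ z) = A.valuation z := by
  have hmem : ∀ w ∈ A, σ w ∈ A := by
    intro w hw
    have h : σ • A = A := hσ
    rw [← h, ValuationSubring.mem_smul_pointwise_iff_exists]
    exact ⟨w, hw, rfl⟩
  have hle : ∀ a b : Ω, A.valuation a ≤ A.valuation b → A.valuation (σ a) ≤ A.valuation (σ b) := by
    intro a b h
    obtain ⟨c, hc⟩ := (A.valuation_le_iff a b).1 h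
    rw [← hc, map_mul, map_mul]
    exact mul_le_of_le_one_left' ((A.valuation_le_one_iff _).2 (hmem _ c.2))
  have hint : IsIntegral ℚ z := (AlgebraicClosure.isAlgebraic ℚ).isAlgebraic z |>.isIntegral
  obtain ⟨n, hn, hfix⟩ : ∃ n, 0 < n ∧ (⇑σ)^[n] z = z := by
    have hroot : ∀ i, (⇑σ)^[i] z ∈ (minpoly ℚ z).rootSet Ω := by
      intro i
      rw [Polynomial.mem_rootSet]
      refine ⟨minpoly.ne_zero hint, ?_⟩
      induction i with
      | zero => simp [minpoly.aeval]
      | succ i ih => rw [Function.iterate_succ_apply', Polynomial.aeval_algHom_apply, ih, map_zero]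
    obtain ⟨i, j, hij, e⟩ := Finite.exists_ne_map_eq_of_infinite
      (fun i : ℕ => (⟨_, hroot i⟩ : (minpoly ℚ z).rootSet Ω))
    have e' : (⇑σ)^[i] z = (⇑σ)^[j] z := congrArg Subtype.val e
    rcases lt_or_gt_of_ne hij with h | h
    · exact ⟨j - i, by omega, Function.iterate_cancel σ.injective e'.symm⟩
    · exact ⟨i - j, by omega, Function.iterate_cancel σ.injective e'⟩
  set f := fun i : ℕ => A.valuation ((⇑σ)^[i] z) with hf
  rcases le_total (A.valuation (σ z)) (A.valuation z) with h | h
  · have hanti : Antitone f := antitone_nat_of_succ_le fun i => by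
      induction i with
      | zero => exact h
      | succ i ih =>
        simp only [hf, Function.iterate_succ_apply'] at ih ⊢
        exact hle _ _ ih
    refine le_antisymm h ?_
    have := hanti (show 1 ≤ n from hn)
    simpa [hf, hfix] using this
  · have hmono : Monotone f := monotone_nat_of_le_succ fun i => by
      induction i with
      | zero => exact h
      | succ i ih =>
        simp only [hf, Function.iterate_succ_apply'] at ih ⊢
        exact hle _ _ ih
    refine le_antisymm ?_ h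
    have := hmono (show 1 ≤ n from hn)
    simpa [hf, hfix] using this

theorem inertia_mem_decomposition {σ : Ω ≃ₐ[ℚ] Ω} (hσ : σ ∈ A.inertiaSubgroupIn ℚ) :
    σ ∈ A.decompositionSubgroup ℚ := by
  obtain ⟨⟨τ, hd⟩, -, rfl⟩ := hσ
  exact hd

theorem inertial_of_mem {σ : Ω ≃ₐ[ℚ] Ω} (hσ : σ ∈ A.inertiaSubgroupIn ℚ) :
    Inertial A (σ : Ω →+* Ω) := by
  refine ⟨val_aut (inertia_mem_decomposition hσ), fun z hz => ?_⟩
  obtain ⟨⟨τ, hd⟩, hi, rfl⟩ := hσ
  rw [SetLike.mem_coe, ValuationSubring.inertiaSubgroup, MonoidHom.mem_ker] at hi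
  have e : (⟨τ, hd⟩ : A.decompositionSubgroup ℚ) • residue A (⟨z, hz⟩ : A) = residue A ⟨z, hz⟩ :=
    RingEquiv.congr_fun hi _
  rw [← IsLocalRing.ResidueField.residue_smul, res_eq_res] at e
  exact e

variable (W : WeierstrassCurve ℤ) (A)

/-- the model with coefficients in the valuation ring -/
abbrev locModel : WeierstrassCurve A := W.map (Int.castRingHom A)

theorem locModel_eq :
    (1 : VariableChange Ω) • (W.map (Int.castRingHom ℚ))⁄Ω = genFib (locModel A W) := by
  rw [one_smul]
  ext <;> simp [genFib, locModel]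

/-- points as points of the local model -/
def toLoc :
    ((W.map (Int.castRingHom ℚ))⁄Ω).Point →+ (genFib (locModel A W)).toAffine.Point :=
  vcPt 1 (locModel_eq A W)

theorem toLoc_some {x y : Ω} (h : ((W.map (Int.castRingHom ℚ))⁄Ω).toAffine.Nonsingular x y) :
    ∃ h', toLoc A W (.some x y h) = .some x y h' := by
  have ex : vcX (1 : VariableChange Ω) x = x := by simp [vcX, VariableChange.one_def]
  have ey : vcY (1 : VariableChange Ω) x y = y := by simp [vcY, VariableChange.one_def]
  have hn := (vc_nonsingular (locModel_eq A W) x y).2 h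
  rw [ex, ey] at hn
  refine ⟨hn, ?_⟩
  show Affine.Point.some _ _ _ = _
  simp [ex, ey]

theorem toLoc_injective : Function.Injective (toLoc A W) := vcPt_injective _ _

theorem inE0_toLoc {P : ((W.map (Int.castRingHom ℚ))⁄Ω).Point} :
    InE0 (toLoc A W P) ↔ W.InZeroComponentAt A P := by
  have e : specFib (locModel A W) = W.map (Int.castRingHom (ResidueField A)) := by
    rw [show specFib (locModel A W) = W.map ((residue A).comp (Int.castRingHom A)) from
      W.map_map _ _]
    congr 1
  rcases P with _ | ⟨x, y, h⟩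
  · exact iff_of_true trivial (Or.inl rfl)
  obtain ⟨h', e'⟩ := toLoc_some A W h
  rw [e']
  constructor
  · rintro (hx | ⟨hx, hy, hn⟩)
    · exact Or.inr ⟨x, y, h, rfl, Or.inl hx⟩
    · exact Or.inr ⟨x, y, h, rfl, Or.inr ⟨hx, hy, e ▸ hn⟩⟩
  · rintro (h0 | ⟨x', y', h'', hxy, hh⟩)
    · exact absurd h0 (Affine.Point.some_ne_zero _)
    · obtain ⟨rfl, rfl⟩ := Affine.Point.some.inj hxy
      rcases hh with hx | ⟨hx, hy, hn⟩
      · exact Or.inl hx
      · exact Or.inr ⟨hx, hy, e ▸ hn⟩

theorem isImage_toLoc (σ : Ω ≃ₐ[ℚ] Ω) (P : ((W.map (Int.castRingHom ℚ))⁄Ω).Point) :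
    IsImage (σ : Ω →+* Ω) (toLoc A W P) (toLoc A W (σ • P)) := by
  rcases P with _ | ⟨x, y, h⟩
  · exact trivial
  obtain ⟨h', e'⟩ := toLoc_some A W h
  rw [Affine.Point.algEquiv_smul_def, Affine.Point.map_some]
  obtain ⟨h'', e''⟩ := toLoc_some A W
    (((W.map (Int.castRingHom ℚ)).toAffine.baseChange_nonsingular σ.toAlgHom.injective x y).2 h)
  rw [e']
  erw [e'']
  exact ⟨rfl, rfl⟩

theorem fixesCoeff_locModel (σ : Ω →+* Ω) : FixesCoeff (locModel A W) σ := by
  constructor <;> simp [locModel]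

variable {A W}

theorem fixesCoeff_vc {W0 : WeierstrassCurve A} {C : VariableChange A} {σ : Ω →+* Ω}
    (hf : FixesCoeff W0 σ) (hu : σ ((C.u : A) : Ω) = (C.u : A)) (hr : σ (C.r : Ω) = C.r)
    (hs : σ (C.s : Ω) = C.s) (ht : σ (C.t : Ω) = C.t) : FixesCoeff (C • W0) σ := by
  have e : (genFib (C • W0)).map σ = genFib (C • W0) := by
    rw [← genFib_vc (rfl : C • W0 = _), ← map_variableChange,
      show (genFib W0).map σ = genFib W0 by ext <;> simp [genFib, hf.h₁, hf.h₂, hf.h₃, hf.h₄, hf.h₆],
      show (C.map A.subtype).map σ = C.map A.subtype by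
        ext <;> simp [VariableChange.map, hr, hs, ht, hu]]
  exact ⟨congrArg WeierstrassCurve.a₁ e, congrArg WeierstrassCurve.a₂ e,
    congrArg WeierstrassCurve.a₃ e, congrArg WeierstrassCurve.a₄ e,
    congrArg WeierstrassCurve.a₆ e⟩

theorem val_locModel_Δ : A.valuation ((locModel A W).Δ : Ω) = A.valuation (W.Δ : Ω) := by
  rw [map_Δ]; simp

theorem val_locModel_c₄ : A.valuation ((locModel A W).c₄ : Ω) = A.valuation (W.c₄ : Ω) := by
  rw [map_c₄]; simp

end FLTAgent.Local
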