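import Mathlib
import Fermat.Prelude.Def_EllipticCurve_ZeroComponentAt
import Fermat.Prelude.Def_FLTPrelim_Ramification
import Fermat.Agent.Local.Place
import Fermat.Agent.Alg.Frobenius

/-!
Local theory of an integral Weierstrass model `W` at a place `A` of the algebraic closure
of `ℚ` over a prime `q`.
-/

set_option autoImplicit false
set_option linter.all false

noncomputable section

namespace FLTAgent.Local

open WeierstrassCurve IsLocalRing
open scoped WeierstrassCurve.Affine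

abbrev QBar := AlgebraicClosure ℚ

/-- points over `QBar` of the integral model `W` -/
abbrev QPoint (W : WeierstrassCurve ℤ) : Type :=
  ((W.map (Int.castRingHom ℚ))⁄(AlgebraicClosure ℚ)).Point

def InKernelAt (W : WeierstrassCurve ℤ) (A : ValuationSubring (AlgebraicClosure ℚ))
    (P : QPoint W) : Prop :=
  P = 0 ∨ ∃ (x y : AlgebraicClosure ℚ)
      (h : ((W.map (Int.castRingHom ℚ))⁄(AlgebraicClosure ℚ)).toAffine.Nonsingular x y),
    P = .some x y h ∧ x ∉ A

/-- semistable at `q` -/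
def SemistableAt (W : WeierstrassCurve ℤ) (q : ℕ) : Prop :=
  (q : ℤ) ∣ W.Δ → ¬ (q : ℤ) ∣ W.c₄

local instance decEqResidue (A : ValuationSubring (AlgebraicClosure ℚ)) :
    DecidableEq (ResidueField A) := Classical.decEq _

variable (W : WeierstrassCurve ℤ) (A : ValuationSubring (AlgebraicClosure ℚ))

theorem inE1_toLoc {P : QPoint W} : InE1 (toLoc A W P) ↔ InKernelAt W A P := by
  rcases P with _ | ⟨x, y, h⟩
  · exact iff_of_true trivial (Or.inl rfl)
  obtain ⟨h', e⟩ := toLoc_some A W h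
  rw [e]
  constructor
  · exact fun hx => Or.inr ⟨x, y, h, rfl, hx⟩
  · rintro (h0 | ⟨x', y', h'', hxy, hh⟩)
    · exact absurd h0 (Affine.Point.some_ne_zero _)
    · obtain ⟨rfl, rfl⟩ := Affine.Point.some.inj hxy
      exact hh

/-- points with nonsingular reduction: a subgroup, for any integral model -/
def zeroComp : AddSubgroup (QPoint W) where
  carrier := {P | W.InZeroComponentAt A P}
  zero_mem' := Or.inl rfl
  add_mem' := by
    intro P Q hP hQ
    simp only [Set.mem_setOf_eq, ← inE0_toLoc, map_add] at *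
    exact (inE0_add hP hQ).1
  neg_mem' := by
    intro P hP
    simp only [Set.mem_setOf_eq, ← inE0_toLoc, map_neg] at *
    exact inE0_neg hP

/-- points reducing to the origin -/
def redKernel : AddSubgroup (QPoint W) where
  carrier := {P | InKernelAt W A P}
  zero_mem' := Or.inl rfl
  add_mem' := by
    intro P Q hP hQ
    simp only [Set.mem_setOf_eq, ← inE1_toLoc, map_add] at *
    exact inE1_add hP hQ
  neg_mem' := by
    intro P hP
    simp only [Set.mem_setOf_eq, ← inE1_toLoc, map_neg] at *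
    exact inE1_neg hP

theorem mem_zeroComp {P : QPoint W} : P ∈ zeroComp W A ↔ W.InZeroComponentAt A P := Iff.rfl

theorem mem_redKernel {P : QPoint W} : P ∈ redKernel W A ↔ InKernelAt W A P := Iff.rfl

theorem redKernel_le_zeroComp : redKernel W A ≤ zeroComp W A := by
  intro P hP
  exact (inE0_toLoc A W).1 ((inE1_toLoc W A).2 hP).inE0

variable {W A} {q : ℕ}

theorem mem_zeroComp_of_good (hA : A.LiesOverPrime q) (hq : q.Prime) (hgood : ¬ (q : ℤ) ∣ W.Δ)
    (P : QPoint W) : P ∈ zeroComp W A := by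
  refine (inE0_toLoc A W).1 ?_
  generalize toLoc A W P = R
  rcases R with _ | ⟨x, y, h⟩
  · trivial
  by_cases hx : x ∈ A
  · refine Or.inr ⟨hx, y_mem h.1 hx, (Affine.equation_iff_nonsingular_of_Δ_ne_zero ?_).1
      (equation_res (x := ⟨x, hx⟩) (y := ⟨y, y_mem h.1 hx⟩) h.1)⟩
    rw [WeierstrassCurve.toAffine, specFib, map_Δ, res_ne_zero, val_locModel_Δ]
    exact val_int_eq_one hA hq hgood
  · exact Or.inl hx

theorem smul_mem_redKernel_iff
    {σ : AlgebraicClosure ℚ ≃ₐ[ℚ] AlgebraicClosure ℚ} (hσ : σ ∈ A.decompositionSubgroup ℚ)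
    (P : QPoint W) : σ • P ∈ redKernel W A ↔ P ∈ redKernel W A := by
  rcases P with _ | ⟨x, y, h⟩
  · exact Iff.rfl
  · rw [mem_redKernel, mem_redKernel]
    rw [Affine.Point.algEquiv_smul_def]
    have key : σ x ∉ A ↔ x ∉ A := by
      rw [← A.valuation_le_one_iff, ← A.valuation_le_one_iff, val_aut hσ]
    constructor
    · rintro (h0 | ⟨x', y', h', hxy, hh⟩)
      · exact absurd h0 (Affine.Point.some_ne_zero _)
      · obtain ⟨e1, e2⟩ := Affine.Point.some.inj hxy
        exact Or.inr ⟨x, y, h, rfl, key.1 (e1 ▸ hh)⟩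
    · rintro (h0 | ⟨x', y', h', hxy, hh⟩)
      · exact absurd h0 (Affine.Point.some_ne_zero _)
      · obtain ⟨rfl, rfl⟩ := Affine.Point.some.inj hxy
        exact Or.inr ⟨σ x, σ y, _, Affine.Point.map_some σ.toAlgHom h, key.2 hh⟩

/-- torsion prime to the residue characteristic misses the kernel of reduction -/
theorem redKernel_torsion_eq_zero (hA : A.LiesOverPrime q) (hq : q.Prime) {n : ℕ}
    (hn : ¬ q ∣ n) {P : QPoint W} (hP : P ∈ redKernel W A) (hnP : n • P = 0) : P = 0 := by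
  apply toLoc_injective A W
  rw [map_zero]
  exact inE1_torsion (n := n) (valuation_natCast_of_not_dvd hA hq hn) ((inE1_toLoc W A).2 hP)
    (by rw [← map_nsmul, hnP, map_zero])

theorem inertia_sub_mem_redKernel
    {σ : AlgebraicClosure ℚ ≃ₐ[ℚ] AlgebraicClosure ℚ} (hσ : σ ∈ A.inertiaSubgroupIn ℚ)
    {P : QPoint W} (hP : P ∈ zeroComp W A) : σ • P - P ∈ redKernel W A := by
  refine (inE1_toLoc W A).1 ?_
  rw [map_sub]
  exact inertial_sub_inE1 (inertial_of_mem hσ) (isImage_toLoc A W σ P) ((inE0_toLoc A W).2 hP)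

/-- the nodal model at a place of multiplicative reduction -/
theorem exists_nodal_model (hA : A.LiesOverPrime q) (hq : q.Prime) (hd : (q : ℤ) ∣ W.Δ)
    (hss : SemistableAt W q) :
    ∃ (W1 : WeierstrassCurve A) (φ : QPoint W →+ (genFib W1).toAffine.Point),
      Nodal W1 ∧ A.valuation (W1.a₆ : AlgebraicClosure ℚ) =
        A.valuation (W.Δ : AlgebraicClosure ℚ) ∧ Function.Injective φ ∧
      (∀ P, InE0 (φ P) ↔ P ∈ zeroComp W A) ∧ (∀ P, InE1 (φ P) ↔ P ∈ redKernel W A) ∧
      ∀ σ : AlgebraicClosure ℚ ≃ₐ[ℚ] AlgebraicClosure ℚ, σ ∈ A.decompositionSubgroup ℚ →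
        FixesCoeff W1 (σ : AlgebraicClosure ℚ →+* AlgebraicClosure ℚ) ∧
        ∀ P, IsImage (σ : AlgebraicClosure ℚ →+* AlgebraicClosure ℚ) (φ P) (φ (σ • P)) := by
  obtain ⟨C, hN, hδ, -, hu, hs, hfix⟩ := exists_nodal (locModel A W)
    (by rw [val_locModel_Δ]; exact (val_int_lt_one_iff hA hq _).2 hd)
    (by rw [val_locModel_c₄]; exact val_int_eq_one hA hq (hss hd))
  refine ⟨C • locModel A W, (tr C rfl).comp (toLoc A W), hN, by rw [hδ, val_locModel_Δ], ?_,
    fun P => ?_, fun P => ?_, fun σ hσ => ?_⟩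
  · exact fun P Q h => toLoc_injective A W
      (vcPt_injective (C.map A.subtype) (genFib_vc rfl) h)
  · exact (inE0_tr (C := C) rfl).trans (inE0_toLoc A W)
  · exact (inE1_tr (C := C) rfl).trans (inE1_toLoc W A)
  · obtain ⟨hr, ht⟩ := hfix (σ : AlgebraicClosure ℚ →+* AlgebraicClosure ℚ) (val_aut hσ)
      (fixesCoeff_locModel A W _)
    have hu' : (σ : AlgebraicClosure ℚ →+* AlgebraicClosure ℚ)
        ((C.u : A) : AlgebraicClosure ℚ) = (C.u : A) := by
      rw [hu]; exact map_one σ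
    have hs' : (σ : AlgebraicClosure ℚ →+* AlgebraicClosure ℚ)
        (C.s : AlgebraicClosure ℚ) = C.s := by
      rw [hs]; exact map_zero σ
    exact ⟨fixesCoeff_vc (fixesCoeff_locModel A W _) hu' hr hs' ht,
      fun P => (isImage_toLoc A W σ P).tr rfl hu' hr hs' ht⟩

theorem smul_torsion {σ : AlgebraicClosure ℚ ≃ₐ[ℚ] AlgebraicClosure ℚ} {n : ℕ} {P : QPoint W}
    (hP : n • P = 0) : n • (σ • P) = 0 := by
  rw [Affine.Point.algEquiv_smul_def, ← map_nsmul, hP, map_zero]

theorem inertia_sub_mem_zeroComp (hA : A.LiesOverPrime q) (hq : q.Prime)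
    (hss : SemistableAt W q) {p : ℕ} (hp : p.Prime) (hp2 : p ≠ 2)
    {σ : AlgebraicClosure ℚ ≃ₐ[ℚ] AlgebraicClosure ℚ} (hσ : σ ∈ A.inertiaSubgroupIn ℚ)
    {P : QPoint W} (hP : p • P = 0) : σ • P - P ∈ zeroComp W A := by
  by_cases hd : (q : ℤ) ∣ W.Δ
  · obtain ⟨W1, φ, hN, -, -, h0, -, hσ'⟩ := exists_nodal_model hA hq hd hss
    obtain ⟨hf, hI⟩ := hσ' σ (inertia_mem_decomposition hσ)
    rw [← h0, map_sub]
    exact hN.image_sub_inE0 hp hp2 (inertial_of_mem hσ) hf (hI P)
      (by rw [← map_nsmul, hP, map_zero]) (by rw [← map_nsmul, smul_torsion hP, map_zero])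
  · exact mem_zeroComp_of_good hA hq hd _

/-- the component group contributes at most one dimension -/
theorem exists_nsmul_sub_mem_zeroComp (hA : A.LiesOverPrime q) (hq : q.Prime)
    (hss : SemistableAt W q) (hΔ : W.Δ ≠ 0) {p : ℕ} (hp : p.Prime) (hp2 : p ≠ 2)
    {P Q : QPoint W} (hP : p • P = 0) (hQ : p • Q = 0) (hP0 : P ∉ zeroComp W A) :
    ∃ m : ℕ, Q - m • P ∈ zeroComp W A := by
  have hd : (q : ℤ) ∣ W.Δ := not_not.1 fun h => hP0 (mem_zeroComp_of_good hA hq h _)
  obtain ⟨W1, φ, hN, hδ, -, h0, -, -⟩ := exists_nodal_model hA hq hd hss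
  have hδ0 : A.valuation (W1.a₆ : AlgebraicClosure ℚ) ≠ 0 := by
    rw [hδ, Ne, map_eq_zero, Int.cast_eq_zero]; exact hΔ
  obtain ⟨m, hm⟩ := hN.exists_nsmul_sub hp hp2 hδ0 (P := φ P) (Q := φ Q)
    (by rw [← map_nsmul, hP, map_zero]) (by rw [← map_nsmul, hQ, map_zero])
    (fun h => hP0 ((h0 P).1 h))
  exact ⟨m, (h0 _).1 (by rw [map_sub, map_nsmul]; exact hm)⟩

/-- away from `p`, inertia fixes `p`-torsion of the zero component -/
theorem inertia_fix_zeroComp (hA : A.LiesOverPrime q) (hq : q.Prime) {p : ℕ} (hp : p.Prime)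
    (hqp : q ≠ p)
    {σ : AlgebraicClosure ℚ ≃ₐ[ℚ] AlgebraicClosure ℚ} (hσ : σ ∈ A.inertiaSubgroupIn ℚ)
    {P : QPoint W} (hP : p • P = 0) (hP0 : P ∈ zeroComp W A) : σ • P = P := by
  rw [← sub_eq_zero]
  refine redKernel_torsion_eq_zero hA hq (fun h => hqp ((Nat.prime_dvd_prime_iff_eq hq hp).1 h))
    (inertia_sub_mem_redKernel hσ hP0) ?_
  rw [nsmul_sub, smul_torsion hP, hP, sub_zero]

/-- away from `p`, inertia is unipotent on `p`-torsion -/
theorem inertia_unipotent (hA : A.LiesOverPrime q) (hq : q.Prime) (hss : SemistableAt W q)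
    {p : ℕ} (hp : p.Prime) (hp2 : p ≠ 2) (hqp : q ≠ p)
    {σ : AlgebraicClosure ℚ ≃ₐ[ℚ] AlgebraicClosure ℚ} (hσ : σ ∈ A.inertiaSubgroupIn ℚ)
    {P : QPoint W} (hP : p • P = 0) : σ • (σ • P - P) = σ • P - P :=
  inertia_fix_zeroComp hA hq hp hqp hσ (by rw [nsmul_sub, smul_torsion hP, hP, sub_zero])
    (inertia_sub_mem_zeroComp hA hq hss hp hp2 hσ hP)

/-- away from `p`, inertia fixes any point spanning a stable line -/
theorem inertia_fix_stable_line (hA : A.LiesOverPrime q) (hq : q.Prime) (hss : SemistableAt W q)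
    {p : ℕ} (hp : p.Prime) (hp2 : p ≠ 2) (hqp : q ≠ p)
    {σ : AlgebraicClosure ℚ ≃ₐ[ℚ] AlgebraicClosure ℚ} (hσ : σ ∈ A.inertiaSubgroupIn ℚ)
    {P : QPoint W} (hP : p • P = 0) (hline : ∃ m : ℕ, σ • P = m • P) : σ • P = P := by
  by_cases hP0 : P ∈ zeroComp W A
  · exact inertia_fix_zeroComp hA hq hp hqp hσ hP hP0
  obtain ⟨m, hm⟩ := hline
  have h1 := inertia_sub_mem_zeroComp hA hq hss hp hp2 hσ hP
  have e : σ • P - P = (m + (p - 1)) • P := by
    have : (p - 1) • P + P = 0 := by rw [← succ_nsmul, Nat.sub_add_cancel hp.one_le, hP]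
    rw [add_nsmul, ← hm, eq_neg_of_add_eq_zero_left this]; abel
  rw [← sub_eq_zero, e]
  by_cases hdvd : p ∣ m + (p - 1)
  · obtain ⟨c, hc⟩ := hdvd
    rw [hc, mul_nsmul, hP, nsmul_zero]
  · exfalso
    apply hP0
    rw [e] at h1
    refine (inE0_toLoc A W).1 (not_not.1 fun h => ?_)
    exact nsmul_not_inE0 hp (by rw [← map_nsmul, hP, map_zero]) h hdvd
      (by rw [← map_nsmul]; exact (inE0_toLoc A W).2 h1)

/-- unramified criterion away from `p` -/
theorem inertia_fix_of_dvd (hA : A.LiesOverPrime q) (hq : q.Prime) (hss : SemistableAt W q)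
    (hΔ : W.Δ ≠ 0) {p : ℕ} (hp : p.Prime) (hp2 : p ≠ 2) (hqp : q ≠ p)
    (hdvd : p ∣ padicValInt q W.Δ)
    {σ : AlgebraicClosure ℚ ≃ₐ[ℚ] AlgebraicClosure ℚ} (hσ : σ ∈ A.inertiaSubgroupIn ℚ)
    {P : QPoint W} (hP : p • P = 0) : σ • P = P := by
  by_cases hd : (q : ℤ) ∣ W.Δ
  · obtain ⟨W1, φ, hN, hδ, hinj, -, -, hσ'⟩ := exists_nodal_model hA hq hd hss
    obtain ⟨hf, hI⟩ := hσ' σ (inertia_mem_decomposition hσ)
    obtain ⟨k, hk⟩ := hdvd
    apply hinj
    refine hN.image_eq hp hp2 (valuation_natCast_of_not_dvd hA hq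
      (fun h => hqp ((Nat.prime_dvd_prime_iff_eq hq hp).1 h))) (inertial_of_mem hσ)
      (c := (q : AlgebraicClosure ℚ) ^ k) (by simp) (pow_ne_zero k (Nat.cast_ne_zero.2 hq.ne_zero))
      ?_ (hI P) (by rw [← map_nsmul, hP, map_zero]) (by rw [← map_nsmul, smul_torsion hP, map_zero])
    rw [hδ, val_int_padic hA hq hΔ, hk, map_pow, ← pow_mul, mul_comm p k]
  · exact inertia_fix_zeroComp hA hq hp hqp hσ hP (mem_zeroComp_of_good hA hq hd P)

theorem exists_rat_of_fixed {x : AlgebraicClosure ℚ}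
    (h : ∀ σ : AlgebraicClosure ℚ ≃ₐ[ℚ] AlgebraicClosure ℚ, σ x = x) :
    ∃ r : ℚ, (r : AlgebraicClosure ℚ) = x := by
  haveI := FLTAgent.Alg.qb_isGalois
  have hmem : x ∈ IntermediateField.fixedField
      (⊤ : Subgroup (AlgebraicClosure ℚ ≃ₐ[ℚ] AlgebraicClosure ℚ)) := fun g => h g.1
  rw [InfiniteGalois.fixedField_bot] at hmem
  obtain ⟨r, hr⟩ := IntermediateField.mem_bot.1 hmem
  exact ⟨r, by rw [← hr, eq_ratCast]⟩

/-- rational elements of a place over 2 have residue `0` or `1` -/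
theorem residue_rat_two (hA : A.LiesOverPrime 2) {r : ℚ} (hr : (r : AlgebraicClosure ℚ) ∈ A) :
    residue A ⟨_, hr⟩ = 0 ∨ residue A ⟨_, hr⟩ = 1 := by
  rw [← map_one (residue A), res_eq_zero, res_eq_res]
  rcases lt_or_eq_of_le ((A.valuation_le_one_iff _).2 hr) with h | h
  · exact Or.inl h
  right
  show A.valuation ((r : AlgebraicClosure ℚ) - 1) < 1
  have hden : A.valuation ((r.den : ℕ) : AlgebraicClosure ℚ) = 1 := by
    refine valuation_natCast_of_not_dvd hA Nat.prime_two fun hd => ?_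
    have hnum : A.valuation (r.num : AlgebraicClosure ℚ) = 1 := by
      refine val_int_eq_one hA Nat.prime_two fun hn => ?_
      have h2 := Nat.dvd_gcd (Int.natCast_dvd.1 hn) hd
      rw [Nat.Coprime.gcd_eq_one r.reduced] at h2
      norm_num at h2
    have hd1 : A.valuation ((r.den : ℕ) : AlgebraicClosure ℚ) < 1 := by
      have := (val_int_lt_one_iff hA Nat.prime_two (r.den : ℤ)).2 (Int.natCast_dvd_natCast.2 hd)
      rwa [Int.cast_natCast] at this
    rw [Rat.cast_def, map_div₀, hnum] at h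
    have hne : A.valuation ((r.den : ℕ) : AlgebraicClosure ℚ) ≠ 0 :=
      (map_ne_zero _).2 (Nat.cast_ne_zero.2 r.den_pos.ne')
    rw [div_eq_one_iff_eq hne] at h
    rw [← h] at hd1
    exact lt_irrefl _ hd1
  have hnum : A.valuation (r.num : AlgebraicClosure ℚ) = 1 := by
    rw [Rat.cast_def, map_div₀, hden, div_one] at h; exact h
  have hn1 : ¬ (2 : ℤ) ∣ r.num := fun hn => by
    have := (val_int_lt_one_iff hA Nat.prime_two r.num).2 hn
    rw [hnum] at this; exact lt_irrefl _ this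
  have hd1 : ¬ (2 : ℤ) ∣ (r.den : ℤ) := fun hn => by
    have := (val_int_lt_one_iff hA Nat.prime_two (r.den : ℤ)).2 hn
    rw [Int.cast_natCast, hden] at this; exact lt_irrefl _ this
  have := (val_int_lt_one_iff hA Nat.prime_two (r.num - r.den)).2 (by omega)
  push_cast at this
  rw [Rat.cast_def, div_sub_one (Nat.cast_ne_zero.2 r.den_pos.ne'), map_div₀, hden, div_one]
  exact this

open Polynomial in
/-- no rational `p`-torsion when multiplicative at 2 with `p ∤ v₂(Δ)` -/
theorem rational_torsion_eq_zero_of_two (h2 : (2 : ℤ) ∣ W.Δ) (h2c : ¬ (2 : ℤ) ∣ W.c₄)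
    {p : ℕ} (hp : p.Prime) (hp5 : 5 ≤ p) (hv : ¬ p ∣ padicValInt 2 W.Δ)
    {P : QPoint W} (hP : p • P = 0)
    (hfix : ∀ σ : AlgebraicClosure ℚ ≃ₐ[ℚ] AlgebraicClosure ℚ, σ • P = P) : P = 0 := by
  have hp2 : p ≠ 2 := by omega
  have hΔ : W.Δ ≠ 0 := fun e => hv (by simp [e])
  obtain ⟨A, -, hA, -⟩ := FLTAgent.Alg.exists_place_frobenius 2 Nat.prime_two
  by_contra hne
  have hrat : ∀ (Q : QPoint W) (x y : AlgebraicClosure ℚ) h, Q = Affine.Point.some x y h →
      (∀ σ : AlgebraicClosure ℚ ≃ₐ[ℚ] AlgebraicClosure ℚ, σ • Q = Q) →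
      (∃ r : ℚ, (r : AlgebraicClosure ℚ) = x) ∧ (∃ r : ℚ, (r : AlgebraicClosure ℚ) = y) := by
    intro Q x y h hQ hQf
    refine ⟨exists_rat_of_fixed fun σ => ?_, exists_rat_of_fixed fun σ => ?_⟩ <;>
    · have := hQf σ
      rw [hQ, Affine.Point.algEquiv_smul_def] at this
      obtain ⟨e1, e2⟩ := Affine.Point.some.inj this
      first | exact e1 | exact e2
  have hP0 : InE0 (toLoc A W P) := by
    by_contra h0
    obtain ⟨C, hN, hδ, hrq, hu, hs, -⟩ := exists_nodal (locModel A W)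
      (by rw [val_locModel_Δ]; exact (val_int_lt_one_iff hA Nat.prime_two _).2 h2)
      (by rw [val_locModel_c₄]; exact val_int_eq_one hA Nat.prime_two h2c)
    set T := tr C (rfl : C • locModel A W = _) (toLoc A W P) with hT
    have hT0 : ¬ InE0 T := fun h => h0 ((inE0_tr (C := C) rfl).1 h)
    have hTp : p • T = 0 := by rw [hT, ← map_nsmul, ← map_nsmul, hP, map_zero, map_zero]
    have hδ0 : A.valuation (((C • locModel A W).a₆ : A) : AlgebraicClosure ℚ) ≠ 0 := by
      rw [hδ, val_locModel_Δ, Ne, map_eq_zero, Int.cast_eq_zero]; exact hΔ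
    obtain ⟨k, hk0, hk2, hk⟩ := hN.exists_zpow hp hp2 hδ0 hTp hT0
    have hd1 := hN.dist1_lt hT0
    rcases hPc : P with _ | ⟨x, y, h⟩
    · exact h0 (by rw [hPc]; trivial)
    obtain ⟨⟨r, hr⟩, -⟩ := hrat P x y h hPc hfix
    obtain ⟨h', e'⟩ := toLoc_some A W h
    rw [hT, hPc, e'] at hk hd1
    simp only [tr, vcPt_some, dist1] at hk hd1
    have hX : vcX (C.map A.subtype) x = x - C.r := by
      simp only [vcX, VariableChange.map]
      change (((C.u : A) : AlgebraicClosure ℚ))⁻¹ ^ 2 * (x - (C.r : AlgebraicClosure ℚ)) = _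
      rw [hu]
      simp
    rw [hX] at hk hd1
    split_ifs at hk hd1 with hz
    swap
    · exact lt_irrefl _ hd1
    have hz0 : x - (C.r : AlgebraicClosure ℚ) ≠ 0 := by
      intro e
      rw [e, map_zero, zero_pow hp.ne_zero] at hk
      exact zpow_ne_zero k hδ0 hk.symm
    set g : ℚ[X] := Polynomial.C (6 : ℚ) * X ^ 2 - Polynomial.C (12 * r + (W.b₂ : ℚ)) * X +
      Polynomial.C (6 * r ^ 2 + (W.b₂ : ℚ) * r + (W.b₄ : ℚ)) with hg
    have hg0 : g.natDegree = 2 := by rw [hg]; compute_degree!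
    have hev : aeval (x - (C.r : AlgebraicClosure ℚ)) g = 0 := by
      rw [hg]
      simp only [map_add, map_sub, map_mul, map_pow, aeval_C, aeval_X, eq_ratCast]
      push_cast
      rw [hr]
      rw [show (genFib (locModel A W)).b₂ = (W.b₂ : AlgebraicClosure ℚ) by
          rw [genFib, locModel, map_b₂, map_b₂]; simp,
        show (genFib (locModel A W)).b₄ = (W.b₄ : AlgebraicClosure ℚ) by
          rw [genFib, locModel, map_b₄, map_b₄]; simp] at hrq
      linear_combination hrq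
    have hdeg : (minpoly ℚ (x - (C.r : AlgebraicClosure ℚ))).natDegree ≤ 2 := by
      rw [← hg0]
      refine Polynomial.natDegree_le_of_dvd (minpoly.dvd ℚ _ hev) ?_
      intro e; rw [e] at hg0; simp at hg0
    obtain ⟨e, he0, he2, j, hj⟩ := exists_valuation_pow_eq_zpow hA Nat.prime_two _ hdeg hz0
    set n := padicValInt 2 W.Δ
    rw [hδ, val_locModel_Δ, val_int_padic hA Nat.prime_two hΔ] at hk
    set Q := A.valuation ((2 : ℕ) : AlgebraicClosure ℚ) with hQ
    have hQ0 : 0 < Q := zero_lt_iff.2 ((_root_.map_ne_zero _).2 (Nat.cast_ne_zero.2 two_ne_zero))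
    have hQ1 : Q < 1 := hA
    have hexp : j * (p : ℤ) = (n : ℤ) * k * (e : ℤ) := by
      apply zpow_right_injective₀ hQ0 hQ1.ne
      show Q ^ _ = Q ^ _
      rw [zpow_mul, zpow_mul, zpow_mul, zpow_natCast, zpow_natCast, zpow_natCast, ← hj, ← hk,
        ← pow_mul, ← pow_mul, mul_comm]
    have hpi : Prime (p : ℤ) := Nat.prime_iff_prime_int.1 hp
    rcases hpi.dvd_or_dvd (Dvd.intro_left j hexp) with hd | hd
    · rcases hpi.dvd_or_dvd hd with hd | hd
      · exact hv (Int.natCast_dvd_natCast.1 hd)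
      · have := Int.le_of_dvd hk0 hd; omega
    · have := Nat.le_of_dvd he0 (Int.natCast_dvd_natCast.1 hd); omega
  set T := toLoc A W P with hT
  have hTp : p • T = 0 := by rw [hT, ← map_nsmul, hP, map_zero]
  have hn2 : A.valuation ((p : ℕ) : AlgebraicClosure ℚ) = 1 :=
    valuation_natCast_of_not_dvd hA Nat.prime_two
      (fun h => hp2 ((Nat.prime_dvd_prime_iff_eq Nat.prime_two hp).1 h).symm)
  have hord : ∀ m : ℕ, ¬ p ∣ m → m • red T ≠ 0 := by
    intro m hm e
    rw [← red_nsmul hP0] at e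
    have h1 := inE1_of_red_eq_zero ((compZero _).nsmul_mem hP0 m) e
    have h2 := inE1_torsion (n := p) hn2 h1 (by
      rw [← mul_nsmul, mul_comm, mul_nsmul, hTp, nsmul_zero])
    rw [hT, ← map_nsmul] at h2
    have h3 : m • P = 0 := toLoc_injective A W (by rw [h2, map_zero])
    apply hne
    obtain ⟨k, hk⟩ := Nat.exists_mul_mod_eq_one_of_coprime
      ((Nat.coprime_comm.1 ((hp.coprime_iff_not_dvd).2 hm))) hp.one_lt
    conv_lhs => rw [← one_nsmul P]
    rw [← hk.2]
    have : (m * k) • P = ((m * k) % p) • P := by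
      conv_lhs => rw [← Nat.mod_add_div (m * k) p]
      rw [add_nsmul, mul_nsmul, hP, nsmul_zero, add_zero]
    rw [← this, mul_nsmul, h3, nsmul_zero]
  classical
  set a : ResidueField A := ((W.a₃ : ℤ) : ResidueField A)
  set b : ResidueField A := ((W.a₃ : ℤ) : ResidueField A) + ((W.a₄ : ℤ) : ResidueField A)
  set enc : (specFib (locModel A W)).toAffine.Point → Option (ResidueField A × ResidueField A) :=
    fun R => match R with
      | .zero => none
      | .some u v _ => some (u, v)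
  have henc : Function.Injective enc := by
    rintro (_ | ⟨u, v, h⟩) (_ | ⟨u', v', h'⟩) e <;> simp [enc] at e <;> simp [e]
  have two0 : (2 : ResidueField A) = 0 := by
    have : residue A ((2 : ℕ) : A) = 0 := res_eq_zero.2 (by exact hA)
    rwa [map_natCast] at this
  have ha1 : ((W.a₁ : ℤ) : ResidueField A) = 1 := by
    have h : ¬ (2 : ℤ) ∣ W.a₁ := fun h => h2c (by
      obtain ⟨c, hc⟩ := h
      simp only [WeierstrassCurve.c₄, WeierstrassCurve.b₂, WeierstrassCurve.b₄, hc]
      exact ⟨2 * (2 * c ^ 2 + 2 * W.a₂) ^ 2 - 12 * (2 * W.a₄ + 2 * c * W.a₃), by ring⟩)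
    obtain ⟨c, hc⟩ : ∃ c, W.a₁ = 2 * c + 1 := ⟨W.a₁ / 2, by omega⟩
    rw [hc]; push_cast; rw [two0]; ring
  have h01 : ∀ z : ℤ, (z : ResidueField A) = 0 ∨ (z : ResidueField A) = 1 := by
    intro z
    rcases Int.even_or_odd z with ⟨c, hc⟩ | ⟨c, hc⟩
    · left; rw [hc]; push_cast; linear_combination (c : ResidueField A) * two0
    · right; rw [hc]; push_cast; linear_combination (c : ResidueField A) * two0
  set S : Finset (ResidueField A × ResidueField A) :=
    (({0, 1} : Finset (ResidueField A)) ×ˢ ({0, 1} : Finset (ResidueField A))).erase (a, b)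
  have hS : S.card ≤ 3 := by
    have hab : (a, b) ∈ ({0, 1} : Finset (ResidueField A)) ×ˢ
        ({0, 1} : Finset (ResidueField A)) := by
      have h3 := h01 (W.a₃ + W.a₄)
      push_cast at h3
      simp only [Finset.mem_product, Finset.mem_insert, Finset.mem_singleton]
      exact ⟨h01 _, h3⟩
    rw [Finset.card_erase_of_mem hab, Finset.card_product]
    have h2' : ({0, 1} : Finset (ResidueField A)).card ≤ 2 :=
      (Finset.card_insert_le _ _).trans (by simp)
    have := Nat.mul_le_mul h2' h2'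
    omega
  have hmaps : ∀ m ∈ Finset.range p, enc (m • red T) ∈ Finset.insertNone S := by
    intro m _
    rw [← red_nsmul hP0]
    have hm0 : InE0 (m • T) := (compZero _).nsmul_mem hP0 m
    rcases inE0_cases hm0 with h1 | ⟨x, y, hns, e, hr⟩
    · rw [h1.red_eq]; exact Finset.mem_insertNone.2 (by intro a ha; exact absurd ha (by simp [enc, Affine.Point.zero_def]))
    · rw [e, red_some x.2 y.2 hr, Finset.mem_insertNone]
      intro w hw
      simp only [enc, Option.mem_def, Option.some.injEq] at hw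
      subst hw
      have hfm : ∀ σ : AlgebraicClosure ℚ ≃ₐ[ℚ] AlgebraicClosure ℚ, σ • (m • P) = m • P :=
        fun σ => by
          rw [Affine.Point.algEquiv_smul_def, map_nsmul, ← Affine.Point.algEquiv_smul_def, hfix]
      rcases hmP : m • P with _ | ⟨x', y', h'⟩
      · rw [hT, ← map_nsmul, hmP] at e
        exact absurd e.symm (Affine.Point.some_ne_zero _)
      obtain ⟨h'', e''⟩ := toLoc_some A W h'
      rw [hT, ← map_nsmul, hmP, e''] at e
      obtain ⟨rfl, rfl⟩ := Affine.Point.some.inj e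
      obtain ⟨⟨rx, hrx⟩, ⟨ry, hry⟩⟩ := hrat _ _ _ h' hmP hfm
      refine Finset.mem_erase.2 ⟨?_, ?_⟩
      · intro e0
        obtain ⟨eX, eY⟩ := Prod.mk.inj e0
        have hh := hr.2
        rw [Affine.evalEval_polynomialX, Affine.evalEval_polynomialY] at hh
        simp only [WeierstrassCurve.toAffine, specFib, locModel, WeierstrassCurve.map,
          map_intCast, eq_intCast, eX, eY, ha1, a, b] at hh
        have three : (3 : ResidueField A) = 1 := by linear_combination two0
        rcases h01 W.a₃ with e3 | e3 <;> rw [e3] at hh <;> simp [two0, three, one_add_one_eq_two] at hh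
      · simp only [Finset.mem_product, Finset.mem_insert, Finset.mem_singleton]
        have rx2 := residue_rat_two hA (r := rx) (hrx.symm ▸ x.2)
        have ry2 := residue_rat_two hA (r := ry) (hry.symm ▸ y.2)
        simp only [hrx, hry] at rx2 ry2
        exact ⟨rx2, ry2⟩
  have hinj : ∀ m ∈ Finset.range p, ∀ m' ∈ Finset.range p,
      enc (m • red T) = enc (m' • red T) → m = m' := by
    intro m hm m' hm' e
    have e' := henc e
    simp only [Finset.mem_range] at hm hm'
    by_contra hmm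
    rcases lt_or_gt_of_ne hmm with h | h
    · refine hord (m' - m) (fun hd => ?_) ?_
      · have := Nat.le_of_dvd (by omega) hd; omega
      · rw [← add_left_inj (m • red T), zero_add, ← add_nsmul, Nat.sub_add_cancel h.le, e']
    · refine hord (m - m') (fun hd => ?_) ?_
      · have := Nat.le_of_dvd (by omega) hd; omega
      · rw [← add_left_inj (m' • red T), zero_add, ← add_nsmul, Nat.sub_add_cancel h.le, e']
  have := Finset.card_le_card_of_injOn (fun m => enc (m • red T)) hmaps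
    (fun m hm m' hm' e => hinj m hm m' hm' e)
  rw [Finset.card_range, Finset.card_insertNone] at this
  omega

/-- an algebraic number in the maximal ideal has valuation at most that of `q`, up to its degree -/
theorem valuation_pow_le_of_natDegree_le (hA : A.LiesOverPrime q) (hq : q.Prime) {d : ℕ}
    (z : AlgebraicClosure ℚ) (hd : (minpoly ℚ z).natDegree ≤ d) (hz : A.valuation z < 1) :
    A.valuation z ^ d ≤ A.valuation (q : AlgebraicClosure ℚ) :=
  valuation_pow_le_of_natDegree_le_proof hA hq z hd hz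

end FLTAgent.Local
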